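import Fermat.Agent.EisIdeal.Star

/-!
# Arithmetic of power series: consequences of the trace relation
-/

set_option autoImplicit false
set_option linter.unusedSectionVars false
set_option linter.style.haveILetI false
set_option linter.unusedSimpArgs false

open ArithmeticFunction

open scoped ArithmeticFunction.sigma

noncomputable section

namespace Fermat.Agent.EisIdeal

/-- Hecke recursion for the divisor sums -/
lemma sigma_prime_mul (k : ℕ) {ℓ : ℕ} (hℓ : ℓ.Prime) (n : ℕ) :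
    σ k (ℓ * n) + (if ℓ ∣ n then ℓ ^ k * σ k (n / ℓ) else 0) = (1 + ℓ ^ k) * σ k n := by
  rcases Nat.eq_zero_or_pos n with rfl | hn
  · simp
  obtain ⟨a, m, hm, rfl⟩ := Nat.exists_eq_pow_mul_and_not_dvd hn.ne' ℓ hℓ.ne_one
  have hcop : ∀ s, (ℓ ^ s).Coprime m := fun s =>
    Nat.Coprime.pow_left s ((Nat.Prime.coprime_iff_not_dvd hℓ).mpr hm)
  have hmul : ∀ s, σ k (ℓ ^ s * m) = (∑ j ∈ Finset.range (s + 1), ℓ ^ (j * k)) * σ k m := fun s => by
    rw [isMultiplicative_sigma.map_mul_of_coprime (hcop s), sigma_apply_prime_pow hℓ]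
  rcases a with _ | a
  · rw [pow_zero, one_mul, if_neg hm, add_zero]
    have := hmul 1
    rw [pow_one] at this
    rw [this, Finset.sum_range_succ, Finset.sum_range_one]
    simp
  · rw [if_pos (dvd_mul_of_dvd_left (dvd_pow_self ℓ (Nat.succ_ne_zero a)) m)]
    have e1 : ℓ * (ℓ ^ (a + 1) * m) = ℓ ^ (a + 2) * m := by ring
    have e2 : ℓ ^ (a + 1) * m / ℓ = ℓ ^ a * m := by
      rw [show ℓ ^ (a + 1) * m = ℓ * (ℓ ^ a * m) by ring, Nat.mul_div_cancel_left _ hℓ.pos]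
    rw [e1, e2, hmul, hmul, hmul]
    rw [Finset.sum_range_succ _ (a + 2), Finset.sum_range_succ _ (a + 1)]
    have e3 : ℓ ^ k * (∑ j ∈ Finset.range (a + 1), ℓ ^ (j * k)) + 1 =
        ∑ j ∈ Finset.range (a + 2), ℓ ^ (j * k) := by
      rw [Finset.sum_range_succ' _ (a + 1), Finset.mul_sum]
      congr 1
      · refine Finset.sum_congr rfl fun j _ => ?_
        rw [← pow_add]; congr 1; ring
      · simp
    rw [Finset.sum_range_succ] at e3
    have e4 : ℓ ^ ((a + 2) * k) = ℓ ^ k * ℓ ^ ((a + 1) * k) := by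
      rw [← pow_add]; congr 1; ring
    rw [e4]
    nlinarith [e3]

lemma sigma_prime_sq (k : ℕ) {ℓ : ℕ} (hℓ : ℓ.Prime) :
    σ k (ℓ * (ℓ * 1)) = 1 + ℓ ^ k + ℓ ^ (2 * k) := by
  have : ℓ * (ℓ * 1) = ℓ ^ 2 := by ring
  rw [this, sigma_apply_prime_pow hℓ]
  simp [Finset.sum_range_succ]

section PS

variable {p : ℕ}

/-- The quadratic expression in the trace relation -/
def Sq (p : ℕ) (G : PowerSeries ℤ) : PowerSeries ℤ :=
  PowerSeries.C (p : ℤ) * G ^ 2 + up p ((up p G) ^ 2)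

lemma up_add (m : ℕ) {R : Type*} [CommRing R] (f g : PowerSeries R) :
    up m (f + g) = up m f + up m g := by ext n; simp

lemma up_C_mul (m : ℕ) {R : Type*} [CommRing R] (c : R) (f : PowerSeries R) :
    up m (PowerSeries.C c * f) = PowerSeries.C c * up m f := by
  ext n; rw [coeff_up, PowerSeries.coeff_C_mul, PowerSeries.coeff_C_mul, coeff_up]

lemma dvd_iff (m : ℤ) (f : PowerSeries ℤ) : (PowerSeries.C m ∣ f) ↔ ∀ n, m ∣ f.coeff n := by
  constructor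
  · rintro ⟨g, rfl⟩ n
    rw [PowerSeries.coeff_C_mul]
    exact dvd_mul_right _ _
  · intro h
    refine ⟨PowerSeries.mk fun n => f.coeff n / m, ?_⟩
    ext n
    rw [PowerSeries.coeff_C_mul, PowerSeries.coeff_mk, Int.mul_ediv_cancel' (h n)]

lemma coeff_sq_mod_two (G : PowerSeries ℤ) (n : ℕ) :
    (((G ^ 2).coeff n : ℤ) : ZMod 2) = if 2 ∣ n then ((G.coeff (n / 2) : ℤ) : ZMod 2) else 0 := by
  haveI : Fact (Nat.Prime 2) := ⟨Nat.prime_two⟩
  have h := @MvPowerSeries.map_frobenius_expand Unit (ZMod 2) _ 2 two_ne_zero _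
    (PowerSeries.map (Int.castRingHom (ZMod 2)) G)
  have h1 : (((G ^ 2).coeff n : ℤ) : ZMod 2) =
      PowerSeries.coeff n ((PowerSeries.map (Int.castRingHom (ZMod 2)) G) ^ 2) := by
    rw [← map_pow, PowerSeries.coeff_map]; rfl
  have h2 : PowerSeries.coeff n ((PowerSeries.map (Int.castRingHom (ZMod 2)) G) ^ 2) =
      PowerSeries.coeff n (PowerSeries.map (frobenius (ZMod 2) 2)
        (PowerSeries.expand 2 two_ne_zero (PowerSeries.map (Int.castRingHom (ZMod 2)) G))) := by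
    exact congrArg (PowerSeries.coeff n) h.symm
  rw [h1, h2, PowerSeries.coeff_map, PowerSeries.coeff_expand, ZMod.frobenius_zmod]
  split_ifs
  · rw [PowerSeries.coeff_map]; rfl
  · rfl

/-- the quadratic expression is even -/
lemma even_Sq (hp : Odd p) {G : PowerSeries ℤ} (hG : ∀ n, G.coeff (p * (p * n)) = G.coeff n)
    (n : ℕ) : (2 : ℤ) ∣ (Sq p G).coeff n := by
  refine (ZMod.intCast_zmod_eq_zero_iff_dvd _ 2).mp ?_
  have hp1 : ((p : ℤ) : ZMod 2) = 1 := by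
    have := (ZMod.natCast_eq_one_iff_odd).mpr hp
    simpa using this
  unfold Sq
  rw [map_add, Int.cast_add, PowerSeries.coeff_C_mul, Int.cast_mul, hp1, one_mul,
    coeff_sq_mod_two, coeff_up, coeff_sq_mod_two]
  have h2p : 2 ∣ p * n ↔ 2 ∣ n := by
    constructor
    · intro h
      exact (Nat.Coprime.dvd_of_dvd_mul_left (Nat.coprime_two_left.mpr hp) h)
    · exact fun h => dvd_mul_of_dvd_right h _
  by_cases h : 2 ∣ n
  · rw [if_pos h, if_pos (h2p.mpr h)]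
    obtain ⟨m, rfl⟩ := h
    have e : p * (2 * m) / 2 = p * m := by
      rw [show p * (2 * m) = 2 * (p * m) by ring, Nat.mul_div_cancel_left _ two_pos]
    rw [e, Nat.mul_div_cancel_left _ two_pos, coeff_up, hG, ← two_mul]
    have : (2 : ZMod 2) = 0 := rfl
    rw [this, zero_mul]
  · rw [if_neg h, if_neg (fun h' => h (h2p.mp h')), add_zero]

/-- The trace relation for `1 + cG`. -/
structure Rel (p : ℕ) (c : ℤ) (G : PowerSeries ℤ) : Prop where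
  zero : G.coeff 0 = 0
  sq : ∀ n, G.coeff (p * (p * n)) = G.coeff n
  star : ∀ n, ((p : ℤ) + 1) * (2 * c * G.coeff n) + c ^ 2 * (Sq p G).coeff n =
    ((p : ℤ) + 1) * (240 * ((σ 3 n : ℕ) : ℤ))

lemma Sq_C_mul (c : ℤ) (G : PowerSeries ℤ) :
    Sq p (PowerSeries.C c * G) = PowerSeries.C (c ^ 2) * Sq p G := by
  unfold Sq
  rw [up_C_mul, mul_pow, mul_pow, ← map_pow, up_C_mul]
  ring

lemma Rel.scale {c d : ℤ} {G : PowerSeries ℤ} (h : Rel p (c * d) G) :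
    Rel p c (PowerSeries.C d * G) where
  zero := by rw [PowerSeries.coeff_C_mul, h.zero, mul_zero]
  sq n := by rw [PowerSeries.coeff_C_mul, PowerSeries.coeff_C_mul, h.sq]
  star n := by
    have := h.star n
    rw [Sq_C_mul, PowerSeries.coeff_C_mul, PowerSeries.coeff_C_mul]
    linear_combination this

lemma Rel.one {c : ℤ} {G : PowerSeries ℤ} (h : Rel p c G) :
    ((p : ℤ) + 1) * (2 * c * G.coeff 1) + c ^ 2 * (Sq p G).coeff 1 = ((p : ℤ) + 1) * 240 := by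
  have := h.star 1
  simpa using this

lemma Rel.psq {c : ℤ} {G : PowerSeries ℤ} (h : Rel p c G) (hp : p.Prime) :
    ((p : ℤ) + 1) * (2 * c * G.coeff 1) + c ^ 2 * (Sq p G).coeff (p * (p * 1)) =
      ((p : ℤ) + 1) * (240 * (1 + (p : ℤ) ^ 3 + (p : ℤ) ^ 6)) := by
  have := h.star (p * (p * 1))
  rw [h.sq, sigma_prime_sq 3 hp] at this
  push_cast at this
  exact this

/-- case `ℓ ≥ 7`, `ℓ ∤ p + 1` -/
lemma Rel.caseA {ℓ : ℕ} (hℓ : ℓ.Prime) (h7 : 7 ≤ ℓ) {G : PowerSeries ℤ}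
    (h : Rel p ℓ G) : (ℓ : ℤ) ∣ p + 1 := by
  have h1 := h.one
  have hℓ' : Prime (ℓ : ℤ) := Nat.prime_iff_prime_int.mp hℓ
  have h2 : (ℓ : ℤ) ∣ ((p : ℤ) + 1) * 240 := by
    rw [← h1]
    exact ⟨((p : ℤ) + 1) * (2 * G.coeff 1) + ℓ * (Sq p G).coeff 1, by ring⟩
  rcases hℓ'.dvd_or_dvd h2 with h3 | h3
  · exact h3
  · exfalso
    have h4 : ℓ ∣ 240 := by exact_mod_cast h3
    have h5 : ℓ ∈ Nat.primeFactors 240 := Nat.mem_primeFactors.mpr ⟨hℓ, h4, by norm_num⟩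
    have h6 : Nat.primeFactors 240 = {2, 3, 5} := by decide +kernel
    rw [h6] at h5
    simp at h5
    omega

lemma zmod5_aux : ∀ x : ZMod 5, x ≠ 0 → x + 1 ≠ 0 →
    (x + 1) * 48 ≠ (x + 1) * (48 * (1 + x ^ 3 + x ^ 6)) := by
  decide

/-- case `ℓ = 5` -/
lemma Rel.caseB (hp : p.Prime) (hp5 : p ≠ 5) {G : PowerSeries ℤ} (h : Rel p 5 G) :
    (5 : ℤ) ∣ p + 1 := by
  by_contra hcon
  have h1 := h.one
  have h2 := h.psq hp
  haveI : Fact (Nat.Prime 5) := ⟨Nat.prime_five⟩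
  have hx0 : (p : ZMod 5) ≠ 0 := by
    rw [Ne, ZMod.natCast_eq_zero_iff]
    intro h'
    exact hp5 ((Nat.prime_dvd_prime_iff_eq Nat.prime_five hp).mp h').symm
  have hx1 : (p : ZMod 5) + 1 ≠ 0 := by
    intro h'
    apply hcon
    refine (ZMod.intCast_zmod_eq_zero_iff_dvd _ 5).mp ?_
    push_cast
    exact h'
  -- divide by 5
  have h1' : ((p : ℤ) + 1) * (2 * G.coeff 1) + 5 * (Sq p G).coeff 1 = ((p : ℤ) + 1) * 48 := by
    linarith
  have h2' : ((p : ℤ) + 1) * (2 * G.coeff 1) + 5 * (Sq p G).coeff (p * (p * 1)) =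
      ((p : ℤ) + 1) * (48 * (1 + (p : ℤ) ^ 3 + (p : ℤ) ^ 6)) := by
    linarith
  have h3 := congrArg (Int.cast : ℤ → ZMod 5) h1'
  have h4 := congrArg (Int.cast : ℤ → ZMod 5) h2'
  push_cast at h3 h4
  have e5 : (5 : ZMod 5) = 0 := rfl
  rw [e5, zero_mul, add_zero] at h3 h4
  rw [h3] at h4
  exact zmod5_aux _ hx0 hx1 h4

/-- case `ℓ = 3`, `p ≡ 2` mod 3. -/
lemma Rel.caseC {G : PowerSeries ℤ} (h : Rel p 9 G) (h3 : (3 : ℤ) ∣ p + 1) : (9 : ℤ) ∣ p + 1 := by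
  obtain ⟨w, hw⟩ := h3
  have h1 := h.one
  rw [hw] at h1
  refine ⟨27 * w - 2 * w * G.coeff 1 - 3 * (Sq p G).coeff 1, ?_⟩
  rw [hw]
  linarith

/-- case `ℓ = 3`, `p ≡ 1` mod 3. -/
lemma Rel.caseD (hp : p.Prime) (hp1 : p % 3 = 1) {G : PowerSeries ℤ} (h : Rel p 3 G) : False := by
  have h1 := h.one
  have h2 := h.psq hp
  have hx : (p : ZMod 3) = 1 := by
    have := ZMod.natCast_mod p 3
    rw [hp1] at this
    simpa using this.symm
  have h1' : ((p : ℤ) + 1) * (2 * G.coeff 1) + 3 * (Sq p G).coeff 1 = ((p : ℤ) + 1) * 80 := by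
    linarith
  have h2' : ((p : ℤ) + 1) * (2 * G.coeff 1) + 3 * (Sq p G).coeff (p * (p * 1)) =
      ((p : ℤ) + 1) * (80 * (1 + (p : ℤ) ^ 3 + (p : ℤ) ^ 6)) := by
    linarith
  have h3 := congrArg (Int.cast : ℤ → ZMod 3) h1'
  have h4 := congrArg (Int.cast : ℤ → ZMod 3) h2'
  push_cast at h3 h4
  have e5 : (3 : ZMod 3) = 0 := rfl
  rw [e5, zero_mul, add_zero, hx] at h3 h4
  rw [h3] at h4
  revert h4
  decide

/-- case `ℓ = 2`, `p ≡ 1` mod 4. -/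
lemma Rel.caseE (hp : p.Prime) (hp1 : p % 4 = 1) {G : PowerSeries ℤ} (h : Rel p 4 G) : False := by
  have hodd : Odd p := by rw [Nat.odd_iff]; omega
  -- `G` is even
  have h2 : (PowerSeries.C 2 : PowerSeries ℤ) ∣ G := by
    rw [dvd_iff]
    intro n
    have h1 := h.star n
    obtain ⟨s, hs⟩ := even_Sq hodd h.sq n
    rw [hs] at h1
    obtain ⟨w, hw⟩ : ∃ w : ℤ, (p : ℤ) + 1 = 2 * (2 * w + 1) := ⟨p / 4, by omega⟩
    rw [hw] at h1
    have h3 : (2 * w + 1) * G.coeff n = 2 * ((2 * w + 1) * 15 * ((σ 3 n : ℕ) : ℤ) - s) := by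
      linarith
    have h4 : G.coeff n = 2 * ((2 * w + 1) * 15 * ((σ 3 n : ℕ) : ℤ) - s - w * G.coeff n) := by
      linarith
    exact ⟨_, h4⟩
  obtain ⟨K, hK⟩ := h2
  have hK2 : ∀ n, K.coeff (p * (p * n)) = K.coeff n := fun n => by
    have := h.sq n
    rw [hK, PowerSeries.coeff_C_mul, PowerSeries.coeff_C_mul] at this
    linarith
  obtain ⟨w, hw⟩ : ∃ w : ℤ, (p : ℤ) + 1 = 2 * (2 * w + 1) := ⟨p / 4, by omega⟩
  have key : ∀ n, ∃ t : ℤ, K.coeff n = 15 * ((σ 3 n : ℕ) : ℤ) + 4 * t := by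
    intro n
    have h1 := h.star n
    rw [hK, Sq_C_mul, PowerSeries.coeff_C_mul, PowerSeries.coeff_C_mul, hw] at h1
    obtain ⟨s, hs⟩ := even_Sq hodd hK2 n
    rw [hs] at h1
    have h3 : (2 * w + 1) * (K.coeff n - 15 * ((σ 3 n : ℕ) : ℤ)) = 4 * (-s) := by linarith
    have h5 : (4 : ℤ) ∣ (K.coeff n - 15 * ((σ 3 n : ℕ) : ℤ)) := by
      have hc : IsCoprime (4 : ℤ) (2 * w + 1) := ⟨-(w ^ 2 + w), 2 * w + 1, by ring⟩
      exact hc.dvd_of_dvd_mul_left ⟨-s, h3⟩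
    obtain ⟨t, ht⟩ := h5
    exact ⟨t, by linarith⟩
  obtain ⟨t1, ht1⟩ := key 1
  obtain ⟨t2, ht2⟩ := key (p * (p * 1))
  rw [hK2, sigma_prime_sq 3 hp] at ht2
  have hx : (p : ZMod 4) = 1 := by
    have := ZMod.natCast_mod p 4
    rw [hp1] at this
    simpa using this.symm
  rw [ht1] at ht2
  have h4 := congrArg (Int.cast : ℤ → ZMod 4) ht2
  push_cast at h4
  have e5 : (4 : ZMod 4) = 0 := rfl
  rw [e5, zero_mul, zero_mul, hx] at h4
  revert h4
  simp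
  decide

lemma up_expand (hp : p ≠ 0) {R : Type*} [CommRing R] (f : PowerSeries R) :
    up p (PowerSeries.expand p hp f) = f := by
  ext n; rw [coeff_up, PowerSeries.coeff_expand_mul]

lemma hecke_sg (k : ℕ) (hp : p.Prime) :
    up p (sg k) = PowerSeries.C (1 + (p : ℤ) ^ k) * sg k -
      PowerSeries.C ((p : ℤ) ^ k) * PowerSeries.expand p hp.ne_zero (sg k) := by
  ext n
  rw [map_sub, PowerSeries.coeff_C_mul, PowerSeries.coeff_C_mul, coeff_up, coeff_sg,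
    PowerSeries.coeff_expand]
  have h := sigma_prime_mul k hp n
  split_ifs at h ⊢ with hn
  · rw [coeff_sg, coeff_sg]
    have h' : ((σ k (p * n) : ℕ) : ℤ) + (p : ℤ) ^ k * ((σ k (n / p) : ℕ) : ℤ) =
        (1 + (p : ℤ) ^ k) * ((σ k n : ℕ) : ℤ) := by exact_mod_cast h
    linarith
  · rw [coeff_sg, mul_zero, sub_zero]
    have h' : ((σ k (p * n) : ℕ) : ℤ) + 0 = (1 + (p : ℤ) ^ k) * ((σ k n : ℕ) : ℤ) := by
      exact_mod_cast h
    linarith

lemma Sq_congr {G G' K : PowerSeries ℤ} {m : ℤ} (hm : G = G' + PowerSeries.C (2 * m) * K) :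
    ∃ Z, Sq p G = Sq p G' + PowerSeries.C (4 * m) * Z := by
  refine ⟨PowerSeries.C (p : ℤ) * (G' * K + PowerSeries.C m * K ^ 2) +
    up p (up p G' * up p K + PowerSeries.C m * (up p K) ^ 2), ?_⟩
  have h1 : up p G = up p G' + PowerSeries.C (2 * m) * up p K := by
    rw [hm, up_add, up_C_mul]
  have h2 : (up p G) ^ 2 = (up p G') ^ 2 +
      PowerSeries.C (4 * m) * (up p G' * up p K + PowerSeries.C m * (up p K) ^ 2) := by
    rw [h1]
    simp only [map_mul]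
    have e2 : (PowerSeries.C (2:ℤ) : PowerSeries ℤ) = 2 := rfl
    have e4 : (PowerSeries.C (4:ℤ) : PowerSeries ℤ) = 4 := rfl
    rw [e2, e4]
    ring
  unfold Sq
  rw [h2, up_add, up_C_mul, hm]
  simp only [map_mul]
  have e2 : (PowerSeries.C (2:ℤ) : PowerSeries ℤ) = 2 := rfl
  have e4 : (PowerSeries.C (4:ℤ) : PowerSeries ℤ) = 4 := rfl
  rw [e2, e4]
  ring

lemma Sq_sg (hp : p.Prime) (hp1 : p % 8 = 3) :
    ∃ Y, Sq p (sg 3) = PowerSeries.C ((p : ℤ) + 1) * (sg 3) ^ 2 + PowerSeries.C 8 * Y := by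
  -- `1 + p^3 = 4 e`, `p^6 = 1 + 8 y`
  obtain ⟨m, hm⟩ : ∃ m : ℤ, (p : ℤ) = 8 * m + 3 := ⟨p / 8, by omega⟩
  obtain ⟨e, he⟩ : ∃ e : ℤ, 1 + (p : ℤ) ^ 3 = 4 * e := by
    rw [hm]; exact ⟨128 * m ^ 3 + 144 * m ^ 2 + 54 * m + 7, by ring⟩
  obtain ⟨y, hy⟩ : ∃ y : ℤ, (p : ℤ) ^ 6 = 1 + 8 * y := by
    refine ⟨2 * e ^ 2 - e, ?_⟩
    have : (p : ℤ) ^ 3 = 4 * e - 1 := by linarith
    calc (p : ℤ) ^ 6 = ((p : ℤ) ^ 3) ^ 2 := by ring
      _ = _ := by rw [this]; ring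
  set V := PowerSeries.expand p hp.ne_zero (sg 3) with hV
  have h1 : up p (sg 3) = PowerSeries.C (4 * e) * sg 3 - PowerSeries.C ((p : ℤ) ^ 3) * V := by
    rw [hecke_sg 3 hp, he]
  have h2 : (up p (sg 3)) ^ 2 = PowerSeries.expand p hp.ne_zero ((sg 3) ^ 2) +
      PowerSeries.C 8 * (PowerSeries.C (2 * e ^ 2) * (sg 3) ^ 2 -
        PowerSeries.C (e * (p : ℤ) ^ 3) * (sg 3 * V) + PowerSeries.C y * V ^ 2) := by
    rw [map_pow, ← hV, h1]
    have h3 : (PowerSeries.C ((p : ℤ) ^ 6) : PowerSeries ℤ) = 1 + PowerSeries.C (8 * y) := by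
      rw [hy, map_add, map_one]
    simp only [map_mul, map_pow] at h3 ⊢
    have e2 : (PowerSeries.C (2:ℤ) : PowerSeries ℤ) = 2 := rfl
    have e4 : (PowerSeries.C (4:ℤ) : PowerSeries ℤ) = 4 := rfl
    have e8 : (PowerSeries.C (8:ℤ) : PowerSeries ℤ) = 8 := rfl
    rw [e2, e4, e8]
    rw [e8] at h3
    linear_combination V ^ 2 * h3
  unfold Sq
  rw [h2, up_add, up_C_mul, up_expand, map_add, map_one]
  exact ⟨up p (PowerSeries.C (2 * e ^ 2) * (sg 3) ^ 2 -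
        PowerSeries.C (e * (p : ℤ) ^ 3) * (sg 3 * V) + PowerSeries.C y * V ^ 2), by ring⟩

/-- case `ℓ = 2`, `p ≡ 3` mod 8. -/
lemma Rel.caseF (hp : p.Prime) (hp1 : p % 8 = 3) {G : PowerSeries ℤ} (h : Rel p 8 G) : False := by
  have hodd : Odd p := by rw [Nat.odd_iff]; omega
  obtain ⟨w, hw⟩ : ∃ w : ℤ, (p : ℤ) + 1 = 4 * (2 * w + 1) := ⟨p / 8, by omega⟩
  have hrel : ∀ n, (2 * w + 1) * G.coeff n + (Sq p G).coeff n =
      (2 * w + 1) * (15 * ((σ 3 n : ℕ) : ℤ)) := by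
    intro n
    have h1 := h.star n
    rw [hw] at h1
    linarith
  -- step 1
  have s1 : (PowerSeries.C 2 : PowerSeries ℤ) ∣ G - sg 3 := by
    rw [dvd_iff]
    intro n
    obtain ⟨s, hs⟩ := even_Sq hodd h.sq n
    have h1 := hrel n
    rw [hs] at h1
    rw [map_sub, coeff_sg]
    refine ⟨(2 * w + 1) * 7 * ((σ 3 n : ℕ) : ℤ) + w * ((σ 3 n : ℕ) : ℤ) - s - w * G.coeff n, ?_⟩
    linarith
  obtain ⟨K1, hK1⟩ := s1
  have hG1 : G = sg 3 + PowerSeries.C (2 * 1) * K1 := by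
    rw [mul_one]; linear_combination hK1
  obtain ⟨Z1, hZ1⟩ := Sq_congr (p := p) hG1
  obtain ⟨Y, hY⟩ := Sq_sg hp hp1
  -- step 2
  have s2 : (PowerSeries.C 4 : PowerSeries ℤ) ∣ G - PowerSeries.C 15 * sg 3 := by
    rw [dvd_iff]
    intro n
    have h1 := hrel n
    rw [hZ1, hY, hw, map_add, map_add, PowerSeries.coeff_C_mul, PowerSeries.coeff_C_mul,
      PowerSeries.coeff_C_mul] at h1
    rw [map_sub, PowerSeries.coeff_C_mul, coeff_sg]
    have hc : IsCoprime (4 : ℤ) (2 * w + 1) := ⟨-(w ^ 2 + w), 2 * w + 1, by ring⟩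
    refine hc.dvd_of_dvd_mul_left ?_
    refine ⟨-((2 * w + 1) * (PowerSeries.coeff n) (sg 3 ^ 2) + 2 * (PowerSeries.coeff n) Y +
      (PowerSeries.coeff n) Z1), ?_⟩
    linarith
  obtain ⟨K2, hK2⟩ := s2
  have hG2 : G = PowerSeries.C 15 * sg 3 + PowerSeries.C (2 * 2) * K2 := by
    rw [show (2 * 2 : ℤ) = 4 by norm_num]; linear_combination hK2
  obtain ⟨Z2, hZ2⟩ := Sq_congr (p := p) hG2
  -- step 3
  have s3 : ∀ n, (8 : ℤ) ∣ G.coeff n - 15 * ((σ 3 n : ℕ) : ℤ) + 4 * ((sg 3) ^ 2).coeff n := by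
    intro n
    have h1 := hrel n
    rw [hZ2, Sq_C_mul, hY, hw, map_add, PowerSeries.coeff_C_mul, map_add, PowerSeries.coeff_C_mul,
      PowerSeries.coeff_C_mul, PowerSeries.coeff_C_mul] at h1
    have hc : IsCoprime (8 : ℤ) (2 * w + 1) := by
      have h4 : IsCoprime (2 : ℤ) (2 * w + 1) := ⟨-w, 1, by ring⟩
      have := h4.pow_left (m := 3)
      norm_num at this
      exact this
    refine hc.dvd_of_dvd_mul_left ?_
    refine ⟨-(112 * (2 * w + 1) * (PowerSeries.coeff n) (sg 3 ^ 2) +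
      225 * (PowerSeries.coeff n) Y + (PowerSeries.coeff n) Z2), ?_⟩
    linarith
  have t1 := s3 1
  have t2 := s3 (p * (p * 1))
  rw [h.sq, sigma_prime_sq 3 hp] at t2
  have e1 : ((sg 3) ^ 2).coeff 1 = 0 := by
    rw [pow_two, PowerSeries.coeff_mul, Finset.Nat.antidiagonal_succ]
    simp
  have e2 : (2 : ℤ) ∣ ((sg 3) ^ 2).coeff (p * (p * 1)) := by
    refine (ZMod.intCast_zmod_eq_zero_iff_dvd _ 2).mp ?_
    rw [coeff_sq_mod_two, if_neg]
    intro h2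
    have : Odd (p * (p * 1)) := by
      rw [mul_one]; exact hodd.mul hodd
    rw [Nat.odd_iff] at this
    omega
  obtain ⟨x, hx⟩ := e2
  rw [e1, ArithmeticFunction.sigma_one] at t1
  rw [hx] at t2
  obtain ⟨m, hm⟩ : ∃ m : ℤ, (p : ℤ) = 8 * m + 3 := ⟨p / 8, by omega⟩
  have h5 := dvd_sub t1 t2
  have h6 : (8 : ℤ) ∣ 15 * ((p : ℤ) ^ 3 + (p : ℤ) ^ 6) := by
    obtain ⟨y, hy⟩ := h5
    refine ⟨y + x, ?_⟩
    push_cast at hy
    linarith
  have h7 := (ZMod.intCast_zmod_eq_zero_iff_dvd _ 8).mpr h6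
  have hx : ((p : ℤ) : ZMod 8) = 3 := by
    rw [hm]
    push_cast
    have e5 : (8 : ZMod 8) = 0 := rfl
    rw [e5, zero_mul, zero_add]
  push_cast at h7 hx
  rw [hx] at h7
  revert h7
  decide

end PS

end Fermat.Agent.EisIdeal
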