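import Fermat.Agent.EisIdeal.Arith

/-!
# The weight ten form attached to a weight two form; the norm argument applied to it
-/

set_option autoImplicit false
set_option linter.unusedSectionVars false
set_option linter.style.haveILetI false
set_option linter.unusedSimpArgs false

open UpperHalfPlane ModularForm MatrixGroups Matrix.SpecialLinearGroup Filter Function ModularGroup
open scoped Manifold Topology Real Derivative

local notation "𝕢" => Function.Periodic.qParam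

noncomputable section

namespace Fermat.Agent.EisIdeal

open DimS2

/-- a place of `ℂ` above `ℓ` -/
lemma exists_place {ℓ : ℕ} (hℓ : ℓ.Prime) :
    ∃ B : ValuationSubring ℂ, B.valuation (ℓ : ℂ) < 1 := by
  let A : Subring ℂ := (Int.castRingHom ℂ).range
  let x : A := ⟨(ℓ : ℂ), ⟨(ℓ : ℤ), by simp⟩⟩
  have hI : Ideal.span {x} ≠ ⊤ := by
    intro h
    rw [Ideal.span_singleton_eq_top] at h
    obtain ⟨y, hy⟩ := h.exists_right_inv
    obtain ⟨z, hz⟩ := y.2
    have h1 : (ℓ : ℂ) * (z : ℂ) = 1 := by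
      have := congrArg Subtype.val hy
      have hz' : (z : ℂ) = y.1 := hz
      rw [hz']
      exact this
    have h2 : (ℓ : ℤ) * z = 1 := by exact_mod_cast h1
    have h3 : IsUnit (ℓ : ℤ) := IsUnit.of_mul_eq_one _ h2
    rw [Int.isUnit_iff] at h3
    have := hℓ.two_le
    omega
  obtain ⟨B, -, hB⟩ := Ideal.image_subset_nonunits_valuationSubring _ hI
  refine ⟨B, ?_⟩
  have h1 : (ℓ : ℂ) ∈ B.nonunits := hB ⟨x, Ideal.subset_span rfl, rfl⟩
  exact h1

lemma v_int (B : ValuationSubring ℂ) (n : ℤ) : B.valuation (n : ℂ) ≤ 1 :=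
  (B.valuation_le_one_iff _).mpr (intCast_mem B n)

lemma v_coprime {B : ValuationSubring ℂ} {ℓ : ℕ} (hB : B.valuation (ℓ : ℂ) < 1) {n : ℤ}
    (h : IsCoprime (ℓ : ℤ) n) : B.valuation (n : ℂ) = 1 := by
  obtain ⟨a, b, hab⟩ := h
  refine le_antisymm (v_int B n) ?_
  by_contra hlt
  push Not at hlt
  have h1 : (a : ℂ) * (ℓ : ℂ) + (b : ℂ) * (n : ℂ) = 1 := by exact_mod_cast hab
  have h2 : B.valuation ((a : ℂ) * (ℓ : ℂ) + (b : ℂ) * (n : ℂ)) < 1 := by
    refine Valuation.map_add_lt _ ?_ ?_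
    · rw [map_mul]; exact (mul_le_of_le_one_left' (v_int B a)).trans_lt hB
    · rw [map_mul]; exact (mul_le_of_le_one_left' (v_int B b)).trans_lt hlt
  rw [h1, map_one] at h2
  exact lt_irrefl _ h2

/-- the polynomial expression for the form of weight ten -/
def Qp (t : ℤ) (φ E E' : PowerSeries ℤ) : PowerSeries ℤ :=
  PowerSeries.C 3 * (φ * brkP 4 2 E φ) + PowerSeries.C (2 * t) * brkP 6 2 E' φ

lemma th_add (f g : PowerSeries ℤ) : th (f + g) = th f + th g := by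
  ext n; simp [mul_add]

lemma th_C_mul (c : ℤ) (f : PowerSeries ℤ) : th (PowerSeries.C c * f) = PowerSeries.C c * th f := by
  ext n
  rw [coeff_th, PowerSeries.coeff_C_mul, PowerSeries.coeff_C_mul, coeff_th]
  ring

lemma th_one : th (1 : PowerSeries ℤ) = 0 := by
  ext n
  rw [coeff_th, PowerSeries.coeff_one]
  split_ifs with h
  · subst h; simp
  · simp

/-- `Q_t ≡ -3456 θ H` modulo `K ℓ`. -/
lemma Qp_congr {s t c K ℓ : ℤ} {G H3 H5 HD : PowerSeries ℤ}
    (hHD : PowerSeries.C 12 * HD = PowerSeries.C 5 * H3 + PowerSeries.C 7 * H5)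
    (hc : s ∣ c) (ht : s ∣ t + 1)
    (hcase : (s = 8 ∧ K = 128 ∧ ℓ = 2) ∨ (s = 9 ∧ K = 27 ∧ ℓ = 3) ∨ (s = ℓ ∧ K = 1)) :
    ∃ R, Qp t (1 + PowerSeries.C c * G) (1 + PowerSeries.C 240 * H3) (1 - PowerSeries.C 504 * H5) =
      PowerSeries.C (-3456) * th HD + PowerSeries.C (K * ℓ) * R := by
  obtain ⟨c', rfl⟩ := hc
  obtain ⟨τ, hτ⟩ := ht
  obtain rfl : t = -1 + s * τ := by linarith
  have hth := congrArg th hHD
  rw [th_add, th_C_mul, th_C_mul, th_C_mul] at hth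
  have hφ : th (1 + PowerSeries.C (s * c') * G) = PowerSeries.C (s * c') * th G := by
    rw [th_add, th_one, zero_add, th_C_mul]
  have hE : th (1 + PowerSeries.C 240 * H3) = PowerSeries.C 240 * th H3 := by
    rw [th_add, th_one, zero_add, th_C_mul]
  have hE' : th (1 - PowerSeries.C 504 * H5) = PowerSeries.C (-504) * th H5 := by
    have : (1 : PowerSeries ℤ) - PowerSeries.C 504 * H5 = 1 + PowerSeries.C (-504) * H5 := by
      rw [map_neg]; ring
    rw [this, th_add, th_one, zero_add, th_C_mul]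
  unfold Qp brkP
  rw [hφ, hE, hE']
  have e : ∀ n : ℤ, (PowerSeries.C n : PowerSeries ℤ) = (n : PowerSeries ℤ) := fun n => by
    simp
  simp only [e] at hth ⊢
  push_cast at hth ⊢
  rcases hcase with ⟨rfl, rfl, rfl⟩ | ⟨rfl, rfl, rfl⟩ | ⟨rfl, rfl⟩
  · refine ⟨(c' : PowerSeries ℤ) * (90 * H3 + 189 * H5 + 3 * ((c' : PowerSeries ℤ) * G *
      (1 + 240 * H3) + (τ : PowerSeries ℤ) * (1 - 504 * H5))) * th G
      - 90 * (c' : PowerSeries ℤ) * G * (1 + 4 * (c' : PowerSeries ℤ) * G) * th H3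
        + 63 * (-(c' : PowerSeries ℤ) * G + (τ : PowerSeries ℤ) *
        (1 + 8 * (c' : PowerSeries ℤ) * G)) * th H5, ?_⟩
    push_cast
    linear_combination (288 : PowerSeries ℤ) * hth
  · refine ⟨(c' : PowerSeries ℤ) * (320 * H3 + 672 * H5 + 12 * ((c' : PowerSeries ℤ) * G *
      (1 + 240 * H3) + (τ : PowerSeries ℤ) * (1 - 504 * H5))) * th G
      - 160 * (c' : PowerSeries ℤ) * G * (2 + 9 * (c' : PowerSeries ℤ) * G) * th H3
        + 224 * (-(c' : PowerSeries ℤ) * G + (τ : PowerSeries ℤ) *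
        (1 + 9 * (c' : PowerSeries ℤ) * G)) * th H5, ?_⟩
    push_cast
    linear_combination (288 : PowerSeries ℤ) * hth
  · refine ⟨12 * (c' : PowerSeries ℤ) * ((240 * H3 + 504 * H5) + (s : PowerSeries ℤ) *
      ((c' : PowerSeries ℤ) * G * (1 + 240 * H3) + (τ : PowerSeries ℤ) * (1 - 504 * H5))) * th G
      - 1440 * (c' : PowerSeries ℤ) * G * (2 + (s : PowerSeries ℤ) * (c' : PowerSeries ℤ) * G) * th H3
        + 2016 * (-(c' : PowerSeries ℤ) * G + (τ : PowerSeries ℤ) *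
        (1 + (s : PowerSeries ℤ) * (c' : PowerSeries ℤ) * G)) * th H5, ?_⟩
    push_cast
    linear_combination (288 : PowerSeries ℤ) * hth

variable {p : ℕ}

/-- the form of weight ten -/
def Dv (F : Cos p → ℍ → ℂ) : Cos p → ℍ → ℂ := fun x =>
  (3 : ℂ) • (F x * brk 4 2 e4 (F x)) - (2 : ℂ) • brk 6 2 e6 (F x)

lemma Dv_mem [hp : Fact p.Prime] {F : Cos p → ℍ → ℂ} (hF : F ∈ VM (Cos p) 2) :
    Dv F ∈ VM (Cos p) 10 := by
  have h4 : vbrk 4 2 (fun _ => e4) F ∈ VM (Cos p) (4 + 2 + 2) :=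
    vbrk_mem hp.out.pos (hTp p) (constV_mem e4_isL1) hF
  have h6 : vbrk 6 2 (fun _ => e6) F ∈ VM (Cos p) (6 + 2 + 2) :=
    vbrk_mem hp.out.pos (hTp p) (constV_mem e6_isL1) hF
  have h1 : F * vbrk 4 2 (fun _ => e4) F ∈ VM (Cos p) (2 + (4 + 2 + 2)) := mul_mem hF h4
  have h2 := Submodule.smul_mem _ (3 : ℂ) h1
  have h3 := Submodule.smul_mem _ (2 : ℂ) h6
  exact sub_mem h2 h3

lemma qExp_Dv_aux {h : ℝ} (hh : 0 < h) {f : ℍ → ℂ} (hf : Per h f) (h4 : Per h e4) (h6 : Per h e6) :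
    qExpansion h ((3 : ℂ) • (f * brk 4 2 e4 f) - (2 : ℂ) • brk 6 2 e6 f) =
      (h : ℂ)⁻¹ • (PowerSeries.C 3 * (qExpansion h f * brkP 4 2 (qExpansion h e4) (qExpansion h f)) -
        PowerSeries.C 2 * brkP 6 2 (qExpansion h e6) (qExpansion h f)) := by
  have hb4 := per_brk hh (k := 4) (l := 2) h4 hf
  have hb6 := per_brk hh (k := 6) (l := 2) h6 hf
  rw [qExp_sub hh (per_smul (hf.mul hb4) _) (per_smul hb6 _), qExp_smul hh (hf.mul hb4),
    qExp_smul hh hb6, Per.qExpansion_mul' hh hf hb4, qExp_brk hh h4 hf, qExp_brk hh h6 hf]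
  simp only [PowerSeries.smul_eq_C_mul]
  push_cast
  ring

lemma per_of_one {p : ℕ} {f : ℍ → ℂ} (hf : Per 1 f) : Per (p : ℝ) f :=
  ⟨by
    have := hf.per.nat_mul p
    simpa using this, hf.holo, hf.bdd⟩

lemma toC_brkP (k l : ℤ) (f g : PowerSeries ℤ) :
    toC (brkP k l f g) = brkP (k : ℂ) (l : ℂ) (toC f) (toC g) := by
  have hth : ∀ f : PowerSeries ℤ, toC (th f) = th (toC f) := fun f => by
    ext n; rw [coeff_toC, coeff_th, coeff_th, coeff_toC]; push_cast; rfl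
  unfold brkP
  simp only [toC, map_sub, map_mul, PowerSeries.map_C]
  have h1 := hth f
  have h2 := hth g
  simp only [toC] at h1 h2
  rw [h1, h2]
  simp

lemma toC_Qp (t : ℤ) (φ E E' : PowerSeries ℤ) : toC (Qp t φ E E') =
    PowerSeries.C 3 * (toC φ * brkP 4 2 (toC E) (toC φ)) +
      PowerSeries.C (2 * (t : ℂ)) * brkP 6 2 (toC E') (toC φ) := by
  have h1 := toC_brkP 4 2 E φ
  have h2 := toC_brkP 6 2 E' φ
  unfold Qp
  simp only [toC, map_add, map_mul, PowerSeries.map_C] at h1 h2 ⊢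
  rw [h1, h2]
  simp

lemma brkP_smul_right (k l c : ℂ) (f g : PowerSeries ℂ) :
    brkP k l f (c • g) = c • brkP k l f g := by
  have hth : th (c • g) = c • th g := by
    ext n; rw [coeff_th, PowerSeries.coeff_smul, PowerSeries.coeff_smul, coeff_th]
    simp only [smul_eq_mul]; ring
  unfold brkP
  rw [hth]
  simp only [PowerSeries.smul_eq_C_mul]
  ring

/-- expansion at `∞` -/
lemma qExp_Dv_inf {F : Cos p → ℍ → ℂ} (hF : F ∈ VM (Cos p) 2) {φ : PowerSeries ℤ}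
    (h : qExpansion 1 (F (xinf p)) = toC φ) :
    qExpansion 1 (Dv F (xinf p)) = toC (Qp (-1) φ e4Z e6Z) := by
  rw [Dv, qExp_Dv_aux one_pos (VM.per_xinf hF) e4_isL1.per e6_isL1.per, h, qExp_e4, qExp_e6,
    toC_Qp]
  simp only [Complex.ofReal_one, inv_one, one_smul]
  push_cast
  simp only [mul_neg, mul_one, map_neg]
  ring

lemma qExp_period_toC (hp : p ≠ 0) {f : ℍ → ℂ} (hf : Per 1 f) {φ : PowerSeries ℤ}
    (h : qExpansion 1 f = toC φ) : qExpansion p f = toC (PowerSeries.expand p hp φ) := by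
  ext n
  rw [coeff_period hf (Nat.pos_of_ne_zero hp), coeff_toC, PowerSeries.coeff_expand, h]
  split_ifs
  · rw [coeff_toC]
  · simp

/-- expansion at `0` -/
lemma qExp_Dv_zero [hp : Fact p.Prime] {F : Cos p → ℍ → ℂ} (hF : F ∈ VM (Cos p) 2)
    {φ : PowerSeries ℤ} (h : qExpansion 1 (F (xinf p)) = toC φ) :
    qExpansion p (Dv F (xzero p)) = (((p : ℂ)⁻¹) ^ 3) • toC (Qp p (up p φ)
      (PowerSeries.expand p hp.out.ne_zero e4Z) (PowerSeries.expand p hp.out.ne_zero e6Z)) := by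
  have hp' : (0:ℝ) < p := by exact_mod_cast hp.out.pos
  have hpc : (p : ℂ) ≠ 0 := by exact_mod_cast hp.out.ne_zero
  have hup : up p (toC φ) = toC (up p φ) := by
    ext n; rw [coeff_up, coeff_toC, coeff_toC, coeff_up]
  have hz : qExpansion p (F (xzero p)) = (-(p : ℂ)⁻¹) • toC (up p φ) := by
    rw [qExp_xzero hF, h, hup]
  rw [Dv, qExp_Dv_aux hp' (VM.perN (hTp p) hF _) (per_of_one e4_isL1.per)
    (per_of_one e6_isL1.per), hz, qExp_period_toC hp.out.ne_zero e4_isL1.per qExp_e4,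
    qExp_period_toC hp.out.ne_zero e6_isL1.per qExp_e6, brkP_smul_right, brkP_smul_right, toC_Qp]
  have e : (PowerSeries.C (2 * ((p : ℤ) : ℂ)) : PowerSeries ℂ) = 2 * PowerSeries.C (p : ℂ) := by
    rw [map_mul]; push_cast; rfl
  have e3 : (PowerSeries.C (3 : ℂ) : PowerSeries ℂ) = 3 := rfl
  have e2 : (PowerSeries.C (2 : ℂ) : PowerSeries ℂ) = 2 := rfl
  have hC : (PowerSeries.C (p : ℂ) : PowerSeries ℂ) * PowerSeries.C ((p : ℂ)⁻¹) = 1 := by
    rw [← map_mul, mul_inv_cancel₀ hpc, map_one]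
  simp only [PowerSeries.smul_eq_C_mul, e, e3, e2, map_neg, map_pow, Complex.ofReal_natCast]
  linear_combination (-2 * PowerSeries.C ((p : ℂ)⁻¹) ^ 2 *
    brkP 6 2 (toC (PowerSeries.expand p hp.out.ne_zero e6Z)) (toC (up p φ))) * hC

end Fermat.Agent.EisIdeal
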