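import Fermat.Agent.DimS2.Reg

/-!
# Integrality of `E₄`, `E₆`, `Δ` and a Sturm bound with values in an additive subgroup
-/

set_option autoImplicit false
set_option linter.unusedSectionVars false
set_option linter.style.haveILetI false
set_option linter.unusedSimpArgs false

open UpperHalfPlane ModularForm MatrixGroups Matrix.SpecialLinearGroup Filter Function ModularGroup
open scoped Manifold Topology Real ArithmeticFunction.sigma

local notation "𝕢" => Function.Periodic.qParam

noncomputable section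

namespace Fermat.Agent.EisIdeal

open DimS2

/-- `∑ σ_k(n) q^n` -/
def sg (k : ℕ) : PowerSeries ℤ := PowerSeries.mk fun n => ((σ k n : ℕ) : ℤ)

@[simp] lemma coeff_sg (k n : ℕ) : (sg k).coeff n = ((σ k n : ℕ) : ℤ) := PowerSeries.coeff_mk _ _

/-- `12 ∣ 5 σ₃(n) + 7 σ₅(n)` -/
lemma dvd_sigma (n : ℕ) : (12 : ℤ) ∣ 5 * ((σ 3 n : ℕ) : ℤ) + 7 * ((σ 5 n : ℕ) : ℤ) := by
  rw [ArithmeticFunction.sigma_apply, ArithmeticFunction.sigma_apply]
  push_cast
  rw [Finset.mul_sum, Finset.mul_sum, ← Finset.sum_add_distrib]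
  refine Finset.dvd_sum fun d _ => ?_
  have h : ∀ x : ZMod 12, 5 * x ^ 3 + 7 * x ^ 5 = 0 := by decide
  have h2 := h (d : ZMod 12)
  refine (ZMod.intCast_zmod_eq_zero_iff_dvd _ 12).mp ?_
  push_cast
  exact h2

/-- `(5 h₃ + 7 h₅)/12` -/
def hD : PowerSeries ℤ := PowerSeries.mk fun n => (5 * ((σ 3 n : ℕ) : ℤ) + 7 * ((σ 5 n : ℕ) : ℤ)) / 12

lemma hD_eq : 12 * hD = 5 * sg 3 + 7 * sg 5 := by
  ext n
  have h1 : (12 * hD).coeff n = 12 * hD.coeff n := by
    have : (12 : PowerSeries ℤ) = PowerSeries.C 12 := rfl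
    rw [this, PowerSeries.coeff_C_mul]
  have h2 : (5 * sg 3 + 7 * sg 5).coeff n = 5 * (sg 3).coeff n + 7 * (sg 5).coeff n := by
    have e5 : (5 : PowerSeries ℤ) = PowerSeries.C 5 := rfl
    have e7 : (7 : PowerSeries ℤ) = PowerSeries.C 7 := rfl
    rw [map_add, e5, e7, PowerSeries.coeff_C_mul, PowerSeries.coeff_C_mul]
  rw [h1, h2, hD, PowerSeries.coeff_mk, coeff_sg, coeff_sg]
  exact Int.mul_ediv_cancel' (dvd_sigma n)

@[simp] lemma coeff_zero_hD : hD.coeff 0 = 0 := by
  simp [hD]

@[simp] lemma coeff_one_hD : hD.coeff 1 = 1 := by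
  simp [hD]

/-- integral `q`-expansions of `E₄`, `E₆`, `Δ`. -/
def e4Z : PowerSeries ℤ := 1 + 240 * sg 3
def e6Z : PowerSeries ℤ := 1 - 504 * sg 5
def dZ : PowerSeries ℤ := hD + 100 * (sg 3) ^ 2 + 8000 * (sg 3) ^ 3 - 147 * (sg 5) ^ 2

lemma dZ_eq : 1728 * dZ = e4Z ^ 3 - e6Z ^ 2 := by
  have h := hD_eq
  unfold dZ e4Z e6Z
  linear_combination 144 * h

/-- the integral power series as complex ones -/
abbrev toC (f : PowerSeries ℤ) : PowerSeries ℂ := PowerSeries.map (Int.castRingHom ℂ) f

lemma coeff_toC (f : PowerSeries ℤ) (n : ℕ) : (toC f).coeff n = (f.coeff n : ℂ) := by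
  simp [toC]

lemma toC_injective : Function.Injective toC := by
  intro f g h
  ext n
  have := congrArg (fun φ => φ.coeff n) h
  simpa [coeff_toC] using this

lemma qExp_e4 : qExpansion 1 e4 = toC e4Z := by
  ext n
  rw [show (qExpansion 1 e4).coeff n = if n = 0 then 1 else
    -(2 * (4:ℕ) / bernoulli 4 : ℂ) * (σ (4 - 1) n) from
      EisensteinSeries.E_qExpansion_coeff (k := 4) (by norm_num) ⟨2, rfl⟩ n]
  have hb : bernoulli 4 = -1 / 30 := by decide +kernel
  have e : (240 : PowerSeries ℤ) = PowerSeries.C 240 := rfl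
  rw [coeff_toC, e4Z, map_add, e, PowerSeries.coeff_C_mul, coeff_sg, PowerSeries.coeff_one, hb]
  split_ifs with h
  · subst h; simp
  · push_cast; norm_num

lemma qExp_e6 : qExpansion 1 e6 = toC e6Z := by
  ext n
  rw [show (qExpansion 1 e6).coeff n = if n = 0 then 1 else
    -(2 * (6:ℕ) / bernoulli 6 : ℂ) * (σ (6 - 1) n) from
      EisensteinSeries.E_qExpansion_coeff (k := 6) (by norm_num) ⟨3, rfl⟩ n]
  have hb : bernoulli 6 = 1 / 42 := by decide +kernel
  have e : (504 : PowerSeries ℤ) = PowerSeries.C 504 := rfl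
  rw [coeff_toC, e6Z, map_sub, e, PowerSeries.coeff_C_mul, coeff_sg, PowerSeries.coeff_one, hb]
  split_ifs with h
  · subst h; simp
  · push_cast; norm_num

lemma Per.qExpansion_mul' {h : ℝ} (hh : 0 < h) {f g : ℍ → ℂ} (hf : Per h f) (hg : Per h g) :
    qExpansion h (f * g) = qExpansion h f * qExpansion h g :=
  qExpansion_mul (hf.analyticAt hh) (hg.analyticAt hh)

lemma per_one {h : ℝ} : Per h (1 : ℍ → ℂ) :=
  ⟨fun _ => rfl, mdifferentiable_const, isL1_one.bdd⟩

lemma Per.pow' {h : ℝ} {f : ℍ → ℂ} (hf : Per h f) (n : ℕ) : Per h (f ^ n) := by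
  induction n with
  | zero => simpa using per_one
  | succ n ih => rw [pow_succ]; exact ih.mul hf

lemma Per.qExpansion_pow' {h : ℝ} (hh : 0 < h) {f : ℍ → ℂ} (hf : Per h f) (n : ℕ) :
    qExpansion h (f ^ n) = (qExpansion h f) ^ n := by
  induction n with
  | zero => simp only [pow_zero]; exact qExpansion_one h
  | succ n ih => rw [pow_succ, Per.qExpansion_mul' hh (Per.pow' hf n) hf, ih, pow_succ]

lemma qExp_disc : qExpansion 1 discriminant = toC dZ := by
  have h1 : (1728 : ℂ) • discriminant = e4 ^ 3 - e6 ^ 2 := by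
    ext z
    simp only [Pi.smul_apply, Pi.sub_apply, Pi.pow_apply, smul_eq_mul]
    rw [disc_eq]
    ring
  have hd : Per 1 discriminant := (isL1_coe_cusp CuspForm.discriminant).per
  have h4 := e4_isL1.per
  have h6 := e6_isL1.per
  have h2 := congrArg (qExpansion 1) h1
  rw [qExpansion_smul (hd.analyticAt one_pos), qExpansion_sub ((Per.pow' h4 3).analyticAt one_pos)
    ((Per.pow' h6 2).analyticAt one_pos), Per.qExpansion_pow' one_pos h4,
    Per.qExpansion_pow' one_pos h6, qExp_e4, qExp_e6] at h2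
  have h3 : toC (1728 * dZ) = toC e4Z ^ 3 - toC e6Z ^ 2 := by
    rw [dZ_eq, toC, map_sub, map_pow, map_pow]
  rw [← h3] at h2
  ext n
  have h5 := congrArg (fun φ => φ.coeff n) h2
  simp only [PowerSeries.coeff_smul, smul_eq_mul] at h5
  have e : (1728 : PowerSeries ℤ) = PowerSeries.C 1728 := rfl
  rw [coeff_toC, e, PowerSeries.coeff_C_mul] at h5
  rw [coeff_toC]
  push_cast at h5
  have : (1728 : ℂ) ≠ 0 := by norm_num
  exact mul_left_cancel₀ this h5

lemma coeff_zero_dZ : dZ.coeff 0 = 0 := by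
  have h : PowerSeries.constantCoeff (sg 3) = 0 := by
    rw [← PowerSeries.coeff_zero_eq_constantCoeff_apply]; simp
  have h5 : PowerSeries.constantCoeff (sg 5) = 0 := by
    rw [← PowerSeries.coeff_zero_eq_constantCoeff_apply]; simp
  have hd : PowerSeries.constantCoeff hD = 0 := by
    rw [← PowerSeries.coeff_zero_eq_constantCoeff_apply]; simp
  rw [PowerSeries.coeff_zero_eq_constantCoeff_apply, dZ]
  simp [h, h5, hd]

lemma coeff_one_dZ : dZ.coeff 1 = 1 := by
  have h := discriminant_qExpansion_coeff_one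
  rw [qExp_disc, coeff_toC] at h
  exact_mod_cast h

lemma coeff_mul_mem (𝔞 : AddSubgroup ℂ) {f : PowerSeries ℤ} {g : PowerSeries ℂ} (n : ℕ)
    (hg : ∀ m ≤ n, g.coeff m ∈ 𝔞) : (toC f * g).coeff n ∈ 𝔞 := by
  rw [PowerSeries.coeff_mul]
  refine sum_mem fun x hx => ?_
  rw [coeff_toC, ← zsmul_eq_mul]
  exact AddSubgroup.zsmul_mem _ (hg _ (by have := Finset.HasAntidiagonal.mem_antidiagonal.mp hx; omega)) _

/-- **Sturm bound with values in an additive subgroup** -/
theorem sturm (𝔞 : AddSubgroup ℂ) : ∀ (m : ℕ) (f : ℍ → ℂ), IsL1 (12 * m) f →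
    (∀ n ≤ m, (qExpansion 1 f).coeff n ∈ 𝔞) → ∀ n, (qExpansion 1 f).coeff n ∈ 𝔞 := by
  intro m
  induction m with
  | zero =>
    intro f hf h0 n
    have hf0 : IsL1 0 f := hf.congr_weight (by simp)
    obtain ⟨c, hc⟩ := ModularForm.eq_const_of_weight_zero hf0.toMF
    have hc' : f = c • (1 : ℍ → ℂ) := by
      ext z
      have := congrFun hc z
      simp only [IsL1.coe_toMF, Function.const_apply] at this
      simp [this]
    have h1 : qExpansion 1 f = c • (1 : PowerSeries ℂ) := by
      rw [hc', qExpansion_smul (per_one.analyticAt one_pos), qExpansion_one]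
    have h2 := h0 0 le_rfl
    rw [h1] at h2 ⊢
    rw [PowerSeries.coeff_smul, PowerSeries.coeff_one] at h2 ⊢
    rcases Nat.eq_zero_or_pos n with rfl | hn
    · exact h2
    · rw [if_neg hn.ne', smul_zero]; exact zero_mem _
  | succ m ih =>
    intro f hf h0
    set c : ℂ := (qExpansion 1 f).coeff 0 with hc
    have hE : IsL1 (12 * ((m + 1 : ℕ) : ℤ)) (e4 ^ (3 * (m + 1))) := by
      refine (e4_isL1.pow (3 * (m + 1))).congr_weight ?_
      push_cast; ring
    -- the cusp form
    set g : ℍ → ℂ := f - c • (e4 ^ (3 * (m + 1))) with hg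
    have hgL : IsL1 (12 * ((m + 1 : ℕ) : ℤ)) g := by
      have := isL1_coe (hf.toMF - c • hE.toMF)
      exact this
    have hqg : qExpansion 1 g = qExpansion 1 f - c • toC (e4Z ^ (3 * (m + 1))) := by
      have hper := Per.pow' e4_isL1.per (3 * (m + 1))
      have hper2 : Per 1 (c • (e4 ^ (3 * (m + 1)))) := by
        have := isL1_coe (c • hE.toMF)
        exact this.per
      rw [hg, qExpansion_sub (hf.per.analyticAt one_pos) (hper2.analyticAt one_pos),
        qExpansion_smul (hper.analyticAt one_pos), Per.qExpansion_pow' one_pos e4_isL1.per, qExp_e4]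
      have : toC e4Z ^ (3 * (m + 1)) = toC (e4Z ^ (3 * (m + 1))) := (map_pow _ _ _).symm
      rw [this]
    have hcoeff0 : (toC (e4Z ^ (3 * (m + 1)))).coeff 0 = 1 := by
      have h3 : PowerSeries.constantCoeff (sg 3) = 0 := by
        rw [← PowerSeries.coeff_zero_eq_constantCoeff_apply]; simp
      rw [coeff_toC, PowerSeries.coeff_zero_eq_constantCoeff_apply, map_pow, e4Z]
      simp [h3]
    have hg0 : (qExpansion 1 g).coeff 0 = 0 := by
      rw [hqg, map_sub, PowerSeries.coeff_smul, hcoeff0, ← hc, smul_eq_mul, mul_one, sub_self]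
    have hgm : ∀ n ≤ m + 1, (qExpansion 1 g).coeff n ∈ 𝔞 := by
      intro n hn
      rw [hqg, map_sub, PowerSeries.coeff_smul, coeff_toC, smul_eq_mul, mul_comm, ← zsmul_eq_mul]
      exact sub_mem (h0 n hn) (AddSubgroup.zsmul_mem _ (h0 0 (Nat.zero_le _)) _)
    -- divide by the discriminant
    have hgz : IsZeroAtImInfty g := (hgL.per.isZero_iff one_pos).mpr hg0
    set G := CuspForm.discriminantEquiv (hgL.toCF hgz) with hG
    have hGL : IsL1 (12 * (m : ℤ)) (⇑G) :=
      (isL1_coe G).congr_weight (by push_cast; ring)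
    have hmul : g = discriminant * ⇑G := (discriminant_mul_discriminantEquiv (hgL.toCF hgz)).symm
    have hd : Per 1 discriminant := (isL1_coe_cusp CuspForm.discriminant).per
    have hqG : qExpansion 1 g = toC dZ * qExpansion 1 G := by
      rw [hmul, Per.qExpansion_mul' one_pos hd hGL.per, qExp_disc]
    have hGm : ∀ n ≤ m, (qExpansion 1 G).coeff n ∈ 𝔞 := by
      intro n
      induction n using Nat.strong_induction_on with
      | _ n ihn =>
        intro hn
        have h1 := hgm (n + 1) (by omega)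
        rw [hqG, PowerSeries.coeff_mul, Finset.Nat.antidiagonal_succ, Finset.sum_cons] at h1
        simp only [coeff_toC, coeff_zero_dZ, Int.cast_zero, zero_mul, zero_add,
          Finset.sum_map] at h1
        rcases n with _ | n
        · simpa [coeff_one_dZ] using h1
        · rw [Finset.Nat.antidiagonal_succ, Finset.sum_cons] at h1
          simp only [Function.Embedding.prodMap, Function.Embedding.coeFn_mk, Prod.map,
            Nat.succ_eq_add_one, zero_add, coeff_one_dZ, Int.cast_one, one_mul,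
            Finset.sum_map, Function.Embedding.refl_apply] at h1
          have h2 : (∑ x ∈ Finset.HasAntidiagonal.antidiagonal n,
              (((PowerSeries.coeff (x.1 + 1 + 1)) dZ : ℤ) : ℂ) *
              (PowerSeries.coeff x.2) (qExpansion 1 ⇑G)) ∈ 𝔞 := by
            refine sum_mem fun x hx => ?_
            rw [← zsmul_eq_mul]
            refine AddSubgroup.zsmul_mem _ (ihn _ ?_ ?_) _
            · have := Finset.HasAntidiagonal.mem_antidiagonal.mp hx; omega
            · have := Finset.HasAntidiagonal.mem_antidiagonal.mp hx; omega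
          have h3 := sub_mem h1 h2
          simpa using h3
    have hGall := ih (⇑G) hGL hGm
    intro n
    have h1 : (qExpansion 1 g).coeff n ∈ 𝔞 := by
      rw [hqG]
      exact coeff_mul_mem 𝔞 n fun m _ => hGall m
    have h2 : (qExpansion 1 f).coeff n = (qExpansion 1 g).coeff n +
        ((e4Z ^ (3 * (m + 1))).coeff n : ℂ) * c := by
      rw [hqg, map_sub, PowerSeries.coeff_smul, coeff_toC, smul_eq_mul]
      ring
    rw [h2, ← zsmul_eq_mul]
    exact add_mem h1 (AddSubgroup.zsmul_mem _ (h0 0 (Nat.zero_le _)) _)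

end Fermat.Agent.EisIdeal
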