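import Fermat.Agent.EisIdeal.Forms

/-!
# The Atkin-Lehner involution in weight 2 and prime level; relation between the expansions at the
two cusps
-/

set_option autoImplicit false
set_option linter.unusedSectionVars false
set_option linter.style.haveILetI false
set_option linter.unusedSimpArgs false

open UpperHalfPlane ModularForm MatrixGroups Matrix.SpecialLinearGroup Filter Function ModularGroup
open scoped Manifold Topology Real

local notation "𝕢" => Function.Periodic.qParam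

noncomputable section

namespace Fermat.Agent.EisIdeal

open DimS2

variable {p : ℕ}

/-- `z ↦ F₀(pz)` -/
def wf (F : Cos p → ℍ → ℂ) : ℍ → ℂ := fun z => F (xzero p) (heckeDiagMatrix p • z)

/-- the conjugate of an element of `Γ₀(p)` by `diag(p,1)`. -/
lemma exists_conj [NeZero p] {γ : SL(2,ℤ)} (hγ : γ ∈ CongruenceSubgroup.Gamma0 p) :
    ∃ δ : SL(2,ℤ), δ 0 0 = γ 0 0 ∧ δ 0 1 = p * γ 0 1 ∧ p * δ 1 0 = γ 1 0 ∧ δ 1 1 = γ 1 1 := by
  rw [CongruenceSubgroup.Gamma0_mem, ZMod.intCast_zmod_eq_zero_iff_dvd] at hγ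
  obtain ⟨c, hc⟩ := hγ
  have hdet := Matrix.SpecialLinearGroup.det_coe γ
  rw [Matrix.det_fin_two] at hdet
  refine ⟨⟨!![γ 0 0, p * γ 0 1; c, γ 1 1], ?_⟩, rfl, rfl, hc.symm, rfl⟩
  rw [Matrix.det_fin_two_of]
  rw [hc] at hdet
  linear_combination hdet

lemma smul_xzero_of {δ : SL(2,ℤ)} (h : (p : ℤ) ∣ δ 0 1) : δ • xzero p = xzero p := by
  rw [xzero, smul_mk, mk_eq_iff]
  simp only [mul10, mul11, mul00, mul01, inv10, inv11, inv00, inv01, S00, S01, S10, S11,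
    one00, one01, one10, one11]
  rw [ZMod.intCast_zmod_eq_zero_iff_dvd]
  obtain ⟨c, hc⟩ := h
  rw [hc]
  exact ⟨c, by ring⟩

lemma diag_smul [hp : NeZero p] {γ δ : SL(2,ℤ)} (h00 : δ 0 0 = γ 0 0) (h01 : δ 0 1 = p * γ 0 1)
    (h10 : p * δ 1 0 = γ 1 0) (h11 : δ 1 1 = γ 1 1) (z : ℍ) :
    heckeDiagMatrix p • (γ • z) = δ • (heckeDiagMatrix p • z) := by
  apply UpperHalfPlane.ext
  rw [coe_heckeDiagMatrix_smul hp.out, UpperHalfPlane.coe_specialLinearGroup_apply,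
    UpperHalfPlane.coe_specialLinearGroup_apply, coe_heckeDiagMatrix_smul hp.out]
  have h10' : (γ 1 0 : ℂ) = p * (δ 1 0 : ℂ) := by rw [← h10]; push_cast; ring
  simp only [algebraMap_int_eq, Int.coe_castRingHom, Complex.ofReal_intCast, h00, h01, h11, h10']
  push_cast
  ring

lemma denom_conj [hp : NeZero p] {γ δ : SL(2,ℤ)}
    (h10 : p * δ 1 0 = γ 1 0) (h11 : δ 1 1 = γ 1 1) (z : ℍ) :
    denom (δ : GL (Fin 2) ℝ) (heckeDiagMatrix p • z : ℍ) = denom (γ : GL (Fin 2) ℝ) z := by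
  rw [ModularGroup.denom_apply, ModularGroup.denom_apply, coe_heckeDiagMatrix_smul hp.out,
    ← h10, h11]
  push_cast
  ring

lemma wf_slash [NeZero p] {k : ℤ} {F : Cos p → ℍ → ℂ} (hF : F ∈ VM (Cos p) k) :
    ∀ γ ∈ CongruenceSubgroup.Gamma0 p, (wf F) ∣[k] γ = wf F := by
  intro γ hγ
  obtain ⟨δ, h00, h01, h10, h11⟩ := exists_conj hγ
  ext z
  rw [SL_slash_apply]
  simp only [wf]
  rw [diag_smul h00 h01 h10 h11]
  have h1 := VM.apply_smul hF δ (xzero p) (heckeDiagMatrix p • z)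
  rw [smul_xzero_of ⟨_, h01⟩] at h1
  rw [h1, denom_conj h10 h11, mul_assoc, mul_comm, mul_assoc, ← zpow_add₀ (denom_ne_zero _ _)]
  simp

lemma wf_slash_S [hp : NeZero p] {F : Cos p → ℍ → ℂ} (hF : F ∈ VM (Cos p) 2) (z : ℍ) :
    ((wf F) ∣[(2:ℤ)] S) z = ((p : ℂ)^2)⁻¹ * F (xinf p) (heckeMatrix p 0 • z) := by
  rw [SL_slash_apply]
  simp only [wf]
  have h1 : heckeDiagMatrix p • (S • z) = S • (heckeMatrix p 0 • z) := by
    apply UpperHalfPlane.ext
    rw [coe_heckeDiagMatrix_smul hp.out, UpperHalfPlane.modular_S_smul,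
      UpperHalfPlane.modular_S_smul]
    have : (p : ℂ) ≠ 0 := by exact_mod_cast hp.out
    have hz := z.ne_zero
    simp only [UpperHalfPlane.coe_mk]
    rw [coe_heckeMatrix_smul hp.out]
    push_cast
    rw [add_zero]
    field_simp
  rw [h1]
  have h2 := VM.apply_smul hF S (xinf p) (heckeMatrix p 0 • z)
  rw [S_smul_xinf] at h2
  rw [h2]
  have h3 : denom (S : GL (Fin 2) ℝ) (heckeMatrix p 0 • z : ℍ) = z / p := by
    rw [ModularGroup.denom_S, coe_heckeMatrix_smul hp.out]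
    push_cast; ring
  have h4 : denom (S : GL (Fin 2) ℝ) z = z := ModularGroup.denom_S z
  rw [h3, h4]
  have : (p : ℂ) ≠ 0 := by exact_mod_cast hp.out
  have hz := z.ne_zero
  have hz2 : (z : ℂ) ^ (-2 : ℤ) = ((z : ℂ)^2)⁻¹ := by
    rw [zpow_neg]; norm_cast
  rw [hz2]
  have hz3 : ((z : ℂ) / p) ^ (2 : ℤ) = (z : ℂ)^2 / p^2 := by
    rw [div_zpow]; norm_cast
  rw [hz3]
  field_simp

lemma mdiff_comp_heckeDiag [hp : NeZero p] {f : ℍ → ℂ} (hf : MDiff f) :
    MDiff (fun z : ℍ => f (heckeDiagMatrix p • z)) := by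
  have h := MDifferentiable.slash hf 1 (heckeDiagMatrix p)
  have h2 : (f ∣[(1:ℤ)] heckeDiagMatrix p) = fun z : ℍ => f (heckeDiagMatrix p • z) := by
    ext z
    rw [slash_heckeDiagMatrix_apply 1 hp.out]
    simp
  rwa [h2] at h

lemma mdiff_comp_hecke [hp : NeZero p] {f : ℍ → ℂ} (hf : MDiff f) (j : ℕ) :
    MDiff (fun z : ℍ => f (heckeMatrix p j • z)) := by
  have h := (MDifferentiable.slash hf 1 (heckeMatrix p j)).const_smul (p : ℂ)
  have h2 : ((p : ℂ) • (f ∣[(1:ℤ)] heckeMatrix p j)) = fun z : ℍ => f (heckeMatrix p j • z) := by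
    ext z
    rw [Pi.smul_apply, slash_heckeMatrix_apply 1 hp.out]
    have : (p : ℂ) ≠ 0 := by exact_mod_cast hp.out
    simp only [smul_eq_mul]
    field_simp
  rwa [h2] at h

lemma im_heckeDiag [hp : NeZero p] (z : ℍ) : (heckeDiagMatrix p • z : ℍ).im = p * z.im := by
  have := congrArg Complex.im (coe_heckeDiagMatrix_smul hp.out z)
  simpa using this

lemma im_hecke [hp : NeZero p] (j : ℕ) (z : ℍ) : (heckeMatrix p j • z : ℍ).im = z.im / p := by
  have := congrArg Complex.im (coe_heckeMatrix_smul hp.out j z)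
  rw [UpperHalfPlane.coe_im] at this
  rw [this]
  have h : ((z : ℂ) + j) / p = ((1 / p : ℝ) : ℂ) * ((z : ℂ) + j) := by
    push_cast; ring
  rw [h, Complex.im_ofReal_mul]
  simp
  ring

lemma bdd_comp_heckeDiag [hp : NeZero p] {f : ℍ → ℂ} (hf : IsBoundedAtImInfty f) :
    IsBoundedAtImInfty (fun z : ℍ => f (heckeDiagMatrix p • z)) := by
  rw [isBoundedAtImInfty_iff] at hf ⊢
  obtain ⟨M, A, hM⟩ := hf
  refine ⟨M, max A 0, fun z hz => hM _ ?_⟩
  rw [im_heckeDiag]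
  have h1 : (1:ℝ) ≤ p := by exact_mod_cast Nat.pos_of_ne_zero hp.out
  have h2 := z.im_pos
  have h3 : A ≤ z.im := (le_max_left _ _).trans hz
  nlinarith

lemma bdd_comp_hecke [hp : NeZero p] {f : ℍ → ℂ} (hf : IsBoundedAtImInfty f) (j : ℕ) :
    IsBoundedAtImInfty (fun z : ℍ => f (heckeMatrix p j • z)) := by
  rw [isBoundedAtImInfty_iff] at hf ⊢
  obtain ⟨M, A, hM⟩ := hf
  refine ⟨M, p * max A 0, fun z hz => hM _ ?_⟩
  rw [im_hecke]
  have h1 : (0:ℝ) < p := by exact_mod_cast Nat.pos_of_ne_zero hp.out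
  rw [le_div_iff₀ h1]
  have : A ≤ max A 0 := le_max_left _ _
  nlinarith

/-- the Atkin-Lehner involution in weight 2 (up to normalisation) -/
def WF [hp : Fact p.Prime] {F : Cos p → ℍ → ℂ} (hF : F ∈ VM (Cos p) 2) : Cos p → ℍ → ℂ :=
  ofInv (N := p) (k := 2) (wf F) (wf_slash hF)

lemma WF_mem [hp : Fact p.Prime] {F : Cos p → ℍ → ℂ} (hF : F ∈ VM (Cos p) 2) :
    WF hF ∈ VM (Cos p) 2 := by
  refine ofInv_mem' _ _ (mdiff_comp_heckeDiag (VM.holo hF _)) (bdd_comp_heckeDiag (VM.bdd hF _)) ?_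
  have h : (wf F) ∣[(2:ℤ)] S = ((p : ℂ)^2)⁻¹ • fun z => F (xinf p) (heckeMatrix p 0 • z) := by
    ext z
    rw [wf_slash_S hF]; rfl
  rw [h]
  exact (bdd_comp_hecke (VM.bdd hF _) 0).const_smul_left _

lemma ai_WF [hp : Fact p.Prime] {F : Cos p → ℍ → ℂ} (hF : F ∈ VM (Cos p) 2) (n : ℕ) :
    ai n (WF hF) = bi n F := by
  have hp' : (0:ℝ) < p := by exact_mod_cast hp.out.pos
  symm
  refine (VM.per_xinf (WF_mem hF)).coeff_unique one_pos (c := fun n => bi n F) (fun τ => ?_) n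
  have h := (VM.perN (hTp p) hF (xzero p)).hasSum hp' (heckeDiagMatrix p • τ)
  have h2 : WF hF (xinf p) = wf F := ofInv_xinf _ _
  rw [h2]
  change HasSum _ (F (xzero p) (heckeDiagMatrix p • τ))
  convert h using 2 with m
  simp only [bi, Periodic.qParam]
  congr 3
  rw [coe_heckeDiagMatrix_smul hp.out.ne_zero]
  have : (p : ℂ) ≠ 0 := by exact_mod_cast hp.out.ne_zero
  push_cast
  field_simp

lemma bi_WF [hp : Fact p.Prime] {F : Cos p → ℍ → ℂ} (hF : F ∈ VM (Cos p) 2) (n : ℕ) :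
    bi n (WF hF) = ((p : ℂ)^2)⁻¹ * ai n F := by
  have hp' : (0:ℝ) < p := by exact_mod_cast hp.out.pos
  symm
  refine (VM.perN (hTp p) (WF_mem hF) (xzero p)).coeff_unique hp'
    (c := fun n => ((p : ℂ)^2)⁻¹ * ai n F) (fun τ => ?_) n
  have h := (VM.per_xinf hF).hasSum one_pos (heckeMatrix p 0 • τ)
  rw [VM.xzero_eq (WF_mem hF)]
  have h2 : WF hF (xinf p) = wf F := ofInv_xinf _ _
  rw [h2, wf_slash_S hF]
  have h3 := h.mul_left ((p : ℂ)^2)⁻¹
  refine h3.congr_fun ?_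
  intro m
  simp only [ai, Periodic.qParam, smul_eq_mul, mul_assoc]
  congr 4
  rw [coe_heckeMatrix_smul hp.out.ne_zero]
  have : (p : ℂ) ≠ 0 := by exact_mod_cast hp.out.ne_zero
  push_cast
  field_simp
  ring

/-- **the expansion at `0` of a weight 2 form of prime level** -/
theorem bi_eq [hp : Fact p.Prime] {F : Cos p → ℍ → ℂ} (hF : F ∈ VM (Cos p) 2) (n : ℕ) :
    bi n F = - ((p : ℂ)⁻¹ * ai (p * n) F) := by
  have h := ai_eq_two (WF_mem hF) n
  rw [ai_WF, bi_WF] at h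
  rw [h]
  have : (p : ℂ) ≠ 0 := by exact_mod_cast hp.out.ne_zero
  field_simp

theorem ai_mul_sq [hp : Fact p.Prime] {F : Cos p → ℍ → ℂ} (hF : F ∈ VM (Cos p) 2) (n : ℕ) :
    ai (p * (p * n)) F = ai n F := by
  rw [ai_eq_two hF n, bi_eq hF]
  have : (p : ℂ) ≠ 0 := by exact_mod_cast hp.out.ne_zero
  field_simp

end Fermat.Agent.EisIdeal
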