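import Fermat.Agent.EisIdeal.Deriv
import Fermat.Agent.EisIdeal.Winv
import Fermat.Agent.EisIdeal.Sturm

/-!
# Rankin-Cohen bracket of vector valued forms
-/

set_option autoImplicit false
set_option linter.unusedSectionVars false
set_option linter.style.haveILetI false
set_option linter.unusedSimpArgs false

open UpperHalfPlane ModularForm MatrixGroups Matrix.SpecialLinearGroup Filter Function ModularGroup
open scoped Manifold Topology Real Derivative

local notation "𝕢" => Function.Periodic.qParam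

noncomputable section

namespace Fermat.Agent.EisIdeal

open DimS2

/-- the bracket `k F θG - l G θF` -/
def brk (k l : ℤ) (F G : ℍ → ℂ) : ℍ → ℂ := (k : ℂ) • (F * D G) - (l : ℂ) • (G * D F)

lemma brk_eq_serre (k l : ℤ) (F G : ℍ → ℂ) :
    brk k l F G = (k : ℂ) • (F * Derivative.serreDerivative l G) -
      (l : ℂ) • (G * Derivative.serreDerivative k F) := by
  ext z
  simp only [brk, Pi.sub_apply, Pi.smul_apply, Pi.mul_apply, smul_eq_mul,
    Derivative.serreDerivative_apply]
  ring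

lemma brk_slash {k l : ℤ} {F G : ℍ → ℂ} (hF : MDiff F) (hG : MDiff G) (γ : SL(2,ℤ)) :
    (brk k l F G) ∣[k + l + 2] γ = brk k l (F ∣[k] γ) (G ∣[l] γ) := by
  rw [brk_eq_serre, brk_eq_serre, sub_eq_add_neg, SlashAction.add_slash, SlashAction.neg_slash,
    SL_smul_slash, SL_smul_slash, ← sub_eq_add_neg]
  have h1 : (F * Derivative.serreDerivative l G) ∣[k + l + 2] γ =
      (F ∣[k] γ) * (Derivative.serreDerivative l (G ∣[l] γ)) := by
    rw [add_assoc, mul_slash_SL2, Derivative.serreDerivative_slash_equivariant hG]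
  have h2 : (G * Derivative.serreDerivative k F) ∣[k + l + 2] γ =
      (G ∣[l] γ) * (Derivative.serreDerivative k (F ∣[k] γ)) := by
    rw [show k + l + 2 = l + (k + 2) by ring, mul_slash_SL2,
      Derivative.serreDerivative_slash_equivariant hF]
  rw [h1, h2]

lemma per_smul {h : ℝ} {f : ℍ → ℂ} (hf : Per h f) (c : ℂ) : Per h (c • f) :=
  ⟨fun x => by
    have h1 := hf.per x
    simp only [Function.comp_apply, Pi.smul_apply] at *
    rw [h1], hf.holo.const_smul c, hf.bdd.const_smul_left c⟩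

lemma per_sub {h : ℝ} {f g : ℍ → ℂ} (hf : Per h f) (hg : Per h g) : Per h (f - g) := by
  have : f - g = f + (-1 : ℂ) • g := by ext z; simp [sub_eq_add_neg]
  rw [this]
  exact hf.add (per_smul hg _)

lemma per_brk {h : ℝ} (hh : 0 < h) {k l : ℤ} {F G : ℍ → ℂ} (hF : Per h F) (hG : Per h G) :
    Per h (brk k l F G) :=
  per_sub (per_smul (hF.mul (per_D hh hG)) _) (per_smul (hG.mul (per_D hh hF)) _)

lemma qExp_sub {h : ℝ} (hh : 0 < h) {f g : ℍ → ℂ} (hf : Per h f) (hg : Per h g) :
    qExpansion h (f - g) = qExpansion h f - qExpansion h g :=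
  qExpansion_sub (hf.analyticAt hh) (hg.analyticAt hh)

lemma qExp_smul {h : ℝ} (hh : 0 < h) {f : ℍ → ℂ} (hf : Per h f) (c : ℂ) :
    qExpansion h (c • f) = c • qExpansion h f :=
  qExpansion_smul (hf.analyticAt hh) c

/-- the operator `θ = x d/dx` on power series -/
def th {R : Type*} [CommRing R] (f : PowerSeries R) : PowerSeries R :=
  PowerSeries.mk fun n => (n : R) * f.coeff n

@[simp] lemma coeff_th {R : Type*} [CommRing R] (f : PowerSeries R) (n : ℕ) :
    (th f).coeff n = (n : R) * f.coeff n := PowerSeries.coeff_mk _ _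

lemma qExp_D {h : ℝ} (hh : 0 < h) {f : ℍ → ℂ} (hf : Per h f) :
    qExpansion h (D f) = (h : ℂ)⁻¹ • th (qExpansion h f) := by
  ext n
  rw [coeff_D hh hf, PowerSeries.coeff_smul, coeff_th, smul_eq_mul]
  ring

/-- the bracket of power series -/
def brkP {R : Type*} [CommRing R] (k l : R) (F G : PowerSeries R) : PowerSeries R :=
  PowerSeries.C k * (F * th G) - PowerSeries.C l * (G * th F)

lemma qExp_brk {h : ℝ} (hh : 0 < h) {k l : ℤ} {F G : ℍ → ℂ} (hF : Per h F) (hG : Per h G) :
    qExpansion h (brk k l F G) =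
      (h : ℂ)⁻¹ • brkP (k : ℂ) (l : ℂ) (qExpansion h F) (qExpansion h G) := by
  unfold brk
  have hDF := per_D hh hF
  have hDG := per_D hh hG
  rw [qExp_sub hh (per_smul (hF.mul hDG) _) (per_smul (hG.mul hDF) _),
    qExp_smul hh (hF.mul hDG), qExp_smul hh (hG.mul hDF), Per.qExpansion_mul' hh hF hDG,
    Per.qExpansion_mul' hh hG hDF, qExp_D hh hG, qExp_D hh hF, brkP]
  simp only [PowerSeries.smul_eq_C_mul]
  ring

variable {X : Type} [MulAction SL(2,ℤ) X]

/-- the bracket of vector valued forms -/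
def vbrk (k l : ℤ) (F G : X → ℍ → ℂ) : X → ℍ → ℂ := fun x => brk k l (F x) (G x)

lemma constV_mem {k : ℤ} {f : ℍ → ℂ} (hf : IsL1 k f) : (fun _ => f : X → ℍ → ℂ) ∈ VM X k :=
  ⟨fun γ _ => hf.slash γ, fun _ => hf.holo, fun _ => hf.bdd⟩

lemma vbrk_mem {N : ℕ} (hN : 0 < N) (hT : ∀ x : X, (ModularGroup.T ^ N) • x = x) {k l : ℤ}
    {F G : X → ℍ → ℂ} (hF : F ∈ VM X k) (hG : G ∈ VM X l) : vbrk k l F G ∈ VM X (k + l + 2) := by
  have hN' : (0:ℝ) < N := by exact_mod_cast hN
  refine ⟨fun γ x => ?_, fun x => ?_, fun x => ?_⟩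
  · simp only [vbrk]
    rw [brk_slash (VM.holo hF _) (VM.holo hG _), VM.slash hF, VM.slash hG]
  · exact (per_brk hN' (VM.perN hT hF x) (VM.perN hT hG x)).holo
  · exact (per_brk hN' (VM.perN hT hF x) (VM.perN hT hG x)).bdd

end Fermat.Agent.EisIdeal
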