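import Fermat.Agent.EisIdeal.BigForm

/-!
# The norm argument for `p ≡ -1` modulo a power of `ℓ`
-/

set_option autoImplicit false
set_option linter.unusedSectionVars false
set_option linter.style.haveILetI false
set_option linter.unusedSimpArgs false

open UpperHalfPlane ModularForm MatrixGroups Matrix.SpecialLinearGroup Filter Function ModularGroup
open scoped Manifold Topology Real Derivative

noncomputable section

namespace Fermat.Agent.EisIdeal

open DimS2

variable {p : ℕ}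

lemma ordEq_of {B : ValuationSubring ℂ} {ℓ : ℕ} (hB : B.valuation (ℓ : ℂ) < 1) {m : ℕ} {a : ℤ}
    (ha : IsCoprime (ℓ : ℤ) a) (hm : IsCoprime (ℓ : ℤ) m) {HD R : PowerSeries ℤ}
    (h0 : ∀ n < m, HD.coeff n = 0) (h1 : HD.coeff m = 1) {f : PowerSeries ℂ}
    (hf : ∀ n, f.coeff n = ((-(a * (n * HD.coeff n)) + ℓ * R.coeff n : ℤ) : ℂ)) :
    OrdEq B.valuation f m where
  le n := by rw [hf]; exact v_int B _
  lt n hn := by
    rw [hf, h0 n hn]
    simp only [mul_zero, neg_zero, zero_add]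
    push_cast
    rw [map_mul]
    exact (mul_le_of_le_one_right' (v_int B _)).trans_lt hB
  eq := by
    rw [hf, h1]
    apply v_coprime hB
    have h2 : IsCoprime (ℓ : ℤ) (a * m) := ha.mul_right hm
    have h3 : (-(a * (m * 1)) + (ℓ : ℤ) * R.coeff m) = -(a * m) + ℓ * R.coeff m := by ring
    rw [h3]
    exact IsCoprime.add_mul_left_right h2.neg_right _

lemma up_one (hp : p ≠ 0) {R : Type*} [CommRing R] : up p (1 : PowerSeries R) = 1 := by
  ext n
  rw [coeff_up, PowerSeries.coeff_one, PowerSeries.coeff_one]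
  simp [hp]

theorem caseG [hp : Fact p.Prime] {F : Cos p → ℍ → ℂ} (hF : F ∈ VM (Cos p) 2) {c s : ℤ}
    {G : PowerSeries ℤ} {ℓ : ℕ} (hℓ : ℓ.Prime)
    (h : qExpansion 1 (F (xinf p)) = toC (1 + PowerSeries.C c * G)) (hc : s ∣ c)
    (ht : s ∣ (p : ℤ) + 1)
    (hcase : (s = 8 ∧ ℓ = 2) ∨ (s = 9 ∧ ℓ = 3) ∨ (s = ℓ ∧ 5 ≤ ℓ)) : False := by
  have hpp := hp.out
  have hpc : (p : ℂ) ≠ 0 := by exact_mod_cast hpp.ne_zero
  obtain ⟨B, hB⟩ := exists_place hℓ
  -- the constants
  obtain ⟨K, a, hK0, hKa, ha, hcase'⟩ : ∃ K a : ℤ, K ≠ 0 ∧ K * a = 3456 ∧ IsCoprime (ℓ : ℤ) a ∧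
      ((s = 8 ∧ K = 128 ∧ (ℓ : ℤ) = 2) ∨ (s = 9 ∧ K = 27 ∧ (ℓ : ℤ) = 3) ∨ (s = ℓ ∧ K = 1)) := by
    rcases hcase with ⟨rfl, rfl⟩ | ⟨rfl, rfl⟩ | ⟨rfl, h5⟩
    · exact ⟨128, 27, by norm_num, by norm_num, by norm_num, Or.inl ⟨rfl, rfl, rfl⟩⟩
    · exact ⟨27, 128, by norm_num, by norm_num, by norm_num, Or.inr (Or.inl ⟨rfl, rfl, rfl⟩)⟩
    · refine ⟨1, 3456, by norm_num, by norm_num, ?_, Or.inr (Or.inr ⟨rfl, rfl⟩)⟩
      rw [show (3456 : ℤ) = ((3456 : ℕ) : ℤ) by norm_num, Nat.isCoprime_iff_coprime]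
      refine (Nat.Prime.coprime_iff_not_dvd hℓ).mpr fun hd => ?_
      have h5' : ℓ ∈ Nat.primeFactors 3456 := Nat.mem_primeFactors.mpr ⟨hℓ, hd, by norm_num⟩
      have h6 : Nat.primeFactors 3456 = {2, 3} := by decide +kernel
      rw [h6] at h5'
      simp at h5'
      omega
  have hℓs : (ℓ : ℤ) ∣ s := by
    rcases hcase with ⟨rfl, rfl⟩ | ⟨rfl, rfl⟩ | ⟨rfl, h5⟩ <;> norm_num
  have hℓp : IsCoprime (ℓ : ℤ) (p : ℤ) := by
    obtain ⟨d, hd⟩ := hℓs.trans ht
    exact ⟨d, -1, by linarith⟩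
  have hKc : (K : ℂ) ≠ 0 := by exact_mod_cast hK0
  have hKac : (K : ℂ) * a = 3456 := by exact_mod_cast hKa
  -- the form
  have hDm := Dv_mem hF
  have hD1 : (K : ℂ)⁻¹ • Dv F ∈ VM (Cos p) 10 := Submodule.smul_mem _ _ hDm
  refine norm_arg B.valuation hD1 ?_ ?_
  · obtain ⟨R, hR⟩ := Qp_congr (t := -1) (G := G) (H3 := sg 3) (H5 := sg 5) (HD := hD)
      hD_eq hc (by simp) hcase'
    refine ordEq_of (m := 1) hB ha (by simpa using isCoprime_one_right) (R := R) (HD := hD)
      (fun n hn => by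
        obtain rfl : n = 0 := by omega
        exact coeff_zero_hD) coeff_one_hD (fun n => ?_)
    have e : ((K : ℂ)⁻¹ • Dv F) (xinf p) = (K : ℂ)⁻¹ • (Dv F (xinf p)) := rfl
    have e4' : e4Z = 1 + PowerSeries.C 240 * sg 3 := rfl
    have e6' : e6Z = 1 - PowerSeries.C 504 * sg 5 := rfl
    rw [e, qExp_smul one_pos (VM.per_xinf hDm), PowerSeries.coeff_smul, smul_eq_mul,
      qExp_Dv_inf hF h, e4', e6', hR, coeff_toC, map_add, PowerSeries.coeff_C_mul,
      PowerSeries.coeff_C_mul, coeff_th]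
    push_cast
    rw [← hKac]
    field_simp
  · obtain ⟨R, hR⟩ := Qp_congr (t := p) (c := c) (G := up p G)
      (H3 := PowerSeries.expand p hpp.ne_zero (sg 3))
      (H5 := PowerSeries.expand p hpp.ne_zero (sg 5))
      (HD := PowerSeries.expand p hpp.ne_zero hD) (by
        have h1 : PowerSeries.C 12 * hD = PowerSeries.C 5 * sg 3 + PowerSeries.C 7 * sg 5 := hD_eq
        have h2 := congrArg (PowerSeries.expand p hpp.ne_zero) h1
        simpa only [map_add, map_mul, PowerSeries.expand_C] using h2) hc ht hcase'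
    have e4' : PowerSeries.expand p hpp.ne_zero e4Z =
        1 + PowerSeries.C 240 * PowerSeries.expand p hpp.ne_zero (sg 3) := by
      have : e4Z = 1 + PowerSeries.C 240 * sg 3 := rfl
      rw [this, map_add, map_mul, PowerSeries.expand_C, map_one]
    have e6' : PowerSeries.expand p hpp.ne_zero e6Z =
        1 - PowerSeries.C 504 * PowerSeries.expand p hpp.ne_zero (sg 5) := by
      have : e6Z = 1 - PowerSeries.C 504 * sg 5 := rfl
      rw [this, map_sub, map_mul, PowerSeries.expand_C, map_one]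
    have eφ : up p (1 + PowerSeries.C c * G) = 1 + PowerSeries.C c * up p G := by
      rw [up_add, up_one hpp.ne_zero, up_C_mul]
    have hord : OrdEq B.valuation ((K : ℂ)⁻¹ • toC (Qp p (up p (1 + PowerSeries.C c * G))
        (PowerSeries.expand p hpp.ne_zero e4Z) (PowerSeries.expand p hpp.ne_zero e6Z))) p := by
      refine ordEq_of (m := p) hB ha hℓp (R := R) (HD := PowerSeries.expand p hpp.ne_zero hD)
        (fun n hn => ?_) ?_ (fun n => ?_)
      · rw [PowerSeries.coeff_expand]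
        split_ifs with hd
        · rcases Nat.eq_zero_or_pos n with rfl | hpos
          · rw [Nat.zero_div]; exact coeff_zero_hD
          · exact absurd (Nat.le_of_dvd hpos hd) (by omega)
        · rfl
      · rw [PowerSeries.coeff_expand, if_pos dvd_rfl, Nat.div_self hpp.pos, coeff_one_hD]
      · rw [PowerSeries.coeff_smul, smul_eq_mul, eφ, e4', e6', hR, coeff_toC, map_add,
          PowerSeries.coeff_C_mul, PowerSeries.coeff_C_mul, coeff_th]
        push_cast
        rw [← hKac]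
        field_simp
    refine hord.twist (fun _ => ((p : ℂ)⁻¹) ^ 3) (fun _ => ?_) fun n => ?_
    · rw [map_pow, map_inv₀]
      have : B.valuation (p : ℂ) = 1 := by
        have := v_coprime hB hℓp
        simpa using this
      rw [this, inv_one, one_pow]
    · have e : ((K : ℂ)⁻¹ • Dv F) (xzero p) = (K : ℂ)⁻¹ • (Dv F (xzero p)) := rfl
      have hp' : (0:ℝ) < p := by exact_mod_cast hpp.pos
      rw [e, qExp_smul hp' (VM.perN (hTp p) hDm _), qExp_Dv_zero hF h]
      simp only [PowerSeries.coeff_smul, smul_eq_mul]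
      ring

end Fermat.Agent.EisIdeal
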