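import Fermat.Agent.DimS2.Bridge
import Fermat.Agent.Gamma0Comb.Index

/-!
# The cosets of `Γ₀(p)`, `p` prime
-/

set_option autoImplicit false
set_option linter.unusedSectionVars false
set_option linter.style.haveILetI false
set_option linter.unusedSimpArgs false

open UpperHalfPlane ModularForm MatrixGroups Matrix.SpecialLinearGroup Filter Function ModularGroup
open scoped Manifold Topology Real

noncomputable section

namespace Fermat.Agent.EisIdeal

open DimS2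

variable (p : ℕ)

/-- the trivial coset: the cusp `∞` -/
def xinf : Cos p := QuotientGroup.mk 1

/-- the coset of `S`: the cusp `0` -/
def xzero : Cos p := QuotientGroup.mk S

lemma mk_eq_iff {N : ℕ} (g h : SL(2,ℤ)) : (QuotientGroup.mk g : Cos N) = QuotientGroup.mk h ↔
    (((g⁻¹ * h) 1 0 : ℤ) : ZMod N) = 0 := by
  rw [QuotientGroup.eq, CongruenceSubgroup.Gamma0_mem]

lemma smul_mk {N : ℕ} (g h : SL(2,ℤ)) : g • (QuotientGroup.mk h : Cos N) = QuotientGroup.mk (g * h) :=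
  rfl

lemma mul10 (g h : SL(2,ℤ)) : (g * h) 1 0 = g 1 0 * h 0 0 + g 1 1 * h 1 0 := by
  simp [Matrix.mul_apply, Fin.sum_univ_two]

lemma mul11 (g h : SL(2,ℤ)) : (g * h) 1 1 = g 1 0 * h 0 1 + g 1 1 * h 1 1 := by
  simp [Matrix.mul_apply, Fin.sum_univ_two]

lemma mul00 (g h : SL(2,ℤ)) : (g * h) 0 0 = g 0 0 * h 0 0 + g 0 1 * h 1 0 := by
  simp [Matrix.mul_apply, Fin.sum_univ_two]

lemma mul01 (g h : SL(2,ℤ)) : (g * h) 0 1 = g 0 0 * h 0 1 + g 0 1 * h 1 1 := by
  simp [Matrix.mul_apply, Fin.sum_univ_two]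

lemma inv10 (g : SL(2,ℤ)) : g⁻¹ 1 0 = - g 1 0 := by
  simp [Matrix.SpecialLinearGroup.coe_inv, Matrix.adjugate_fin_two]

lemma inv11 (g : SL(2,ℤ)) : g⁻¹ 1 1 = g 0 0 := by
  simp [Matrix.SpecialLinearGroup.coe_inv, Matrix.adjugate_fin_two]

lemma inv00 (g : SL(2,ℤ)) : g⁻¹ 0 0 = g 1 1 := by
  simp [Matrix.SpecialLinearGroup.coe_inv, Matrix.adjugate_fin_two]

lemma inv01 (g : SL(2,ℤ)) : g⁻¹ 0 1 = - g 0 1 := by
  simp [Matrix.SpecialLinearGroup.coe_inv, Matrix.adjugate_fin_two]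

lemma S00 : (S : SL(2,ℤ)) 0 0 = 0 := rfl
lemma S01 : (S : SL(2,ℤ)) 0 1 = -1 := rfl
lemma S10 : (S : SL(2,ℤ)) 1 0 = 1 := rfl
lemma S11 : (S : SL(2,ℤ)) 1 1 = 0 := rfl
lemma Tz00 (j : ℤ) : (T ^ j : SL(2,ℤ)) 0 0 = 1 := by rw [coe_T_zpow]; rfl
lemma Tz01 (j : ℤ) : (T ^ j : SL(2,ℤ)) 0 1 = j := by rw [coe_T_zpow]; rfl
lemma Tz10 (j : ℤ) : (T ^ j : SL(2,ℤ)) 1 0 = 0 := by rw [coe_T_zpow]; rfl
lemma Tz11 (j : ℤ) : (T ^ j : SL(2,ℤ)) 1 1 = 1 := by rw [coe_T_zpow]; rfl
lemma one00 : (1 : SL(2,ℤ)) 0 0 = 1 := rfl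
lemma one01 : (1 : SL(2,ℤ)) 0 1 = 0 := rfl
lemma one10 : (1 : SL(2,ℤ)) 1 0 = 0 := rfl
lemma one11 : (1 : SL(2,ℤ)) 1 1 = 1 := rfl

lemma T_zpow_smul_xinf (j : ℤ) : T ^ j • xinf p = xinf p := by
  rw [xinf, smul_mk, mk_eq_iff]
  simp only [mul10, mul11, mul00, mul01, inv10, inv11, inv00, inv01, Tz00, Tz01, Tz10, Tz11,
    one00, one01, one10, one11]
  simp

lemma T_pow_smul_xinf (j : ℕ) : T ^ j • xinf p = xinf p := by
  rw [← zpow_natCast]; exact T_zpow_smul_xinf p j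

lemma T_smul_xinf : T • xinf p = xinf p := by
  have := T_zpow_smul_xinf p 1
  rwa [zpow_one] at this

lemma S_smul_xinf : S • xinf p = xzero p := by
  rw [xinf, xzero, smul_mk, mul_one]

lemma S_smul_xzero : S • xzero p = xinf p := by
  rw [xinf, xzero, smul_mk, mk_eq_iff]
  simp only [mul10, mul11, mul00, mul01, inv10, inv11, inv00, inv01, S00, S01, S10, S11,
    one00, one01, one10, one11]
  simp

/-- enumeration of the cosets -/
def cosMap : Option (Fin p) → Cos p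
  | none => xinf p
  | some j => T ^ (j : ℕ) • xzero p

lemma ne_aux (j : ℕ) (hp : 1 < p) : T ^ j • xzero p ≠ xinf p := by
  intro h
  haveI : Fact (1 < p) := ⟨hp⟩
  rw [xinf, xzero, smul_mk, mk_eq_iff, ← zpow_natCast] at h
  simp only [mul10, mul11, mul00, mul01, inv10, inv11, inv00, inv01, S00, S01, S10, S11,
    one00, one01, one10, one11, Tz00, Tz01, Tz10, Tz11] at h
  simp at h

lemma eq_aux (i j : ℕ) (h : T ^ i • xzero p = T ^ j • xzero p) : (p : ℤ) ∣ (j : ℤ) - i := by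
  rw [xzero, smul_mk, smul_mk, mk_eq_iff, ← zpow_natCast, ← zpow_natCast] at h
  simp only [mul10, mul11, mul00, mul01, inv10, inv11, inv00, inv01, S00, S01, S10, S11,
    one00, one01, one10, one11, Tz00, Tz01, Tz10, Tz11] at h
  have h2 := (ZMod.intCast_zmod_eq_zero_iff_dvd _ p).mp h
  rw [← dvd_neg]
  refine h2.trans (dvd_of_eq ?_)
  push_cast
  ring

lemma cosMap_injective (hp : 1 < p) : Function.Injective (cosMap p) := by
  rintro (_ | i) (_ | j) h
  · rfl
  · exact absurd h.symm (ne_aux p _ hp)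
  · exact absurd h (ne_aux p _ hp)
  · congr 1
    have h1 := eq_aux p i j h
    obtain ⟨c, hc⟩ := h1
    have hi : ((i : ℕ) : ℤ) < p := by exact_mod_cast i.2
    have hj : ((j : ℕ) : ℤ) < p := by exact_mod_cast j.2
    have hc0 : c = 0 := by
      have h0 : (0 : ℤ) < p := by omega
      by_contra hne
      rcases lt_or_gt_of_ne hne with hlt | hgt
      · have : (p : ℤ) * c ≤ p * (-1) := mul_le_mul_of_nonneg_left (by omega) h0.le
        omega
      · have : (p : ℤ) * 1 ≤ p * c := mul_le_mul_of_nonneg_left (by omega) h0.le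
        omega
    rw [hc0, mul_zero] at hc
    apply Fin.ext
    omega

instance [NeZero p] : Finite (Cos p) := Subgroup.finite_quotient_of_finiteIndex

lemma cosMap_bijective [hp : Fact p.Prime] : Function.Bijective (cosMap p) := by
  refine (Function.Injective.bijective_of_nat_card_le (cosMap_injective p hp.out.one_lt) ?_)
  have := Gamma0Comb.card_quot p
  rw [Cos, this]
  have := Gamma0Comb.dedekindPsi_prime_pow hp.out 0
  rw [zero_add, pow_one, pow_zero] at this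
  rw [this]
  simp

@[to_additive]
lemma prod_cos [hp : Fact p.Prime] [Fintype (Cos p)] {M : Type*} [CommMonoid M] (f : Cos p → M) :
    ∏ x, f x = f (xinf p) * ∏ j ∈ Finset.range p, f (T ^ j • xzero p) := by
  classical
  rw [← (Equiv.ofBijective _ (cosMap_bijective p)).prod_comp, Fintype.prod_option]
  congr 1
  rw [Finset.prod_range]
  rfl

lemma xinf_or [hp : Fact p.Prime] (x : Cos p) : x = xinf p ∨ ∃ j : ℕ, x = T ^ j • xzero p := by
  obtain ⟨y, rfl⟩ := (cosMap_bijective p).2 x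
  rcases y with _ | j
  · exact Or.inl rfl
  · exact Or.inr ⟨j, rfl⟩

end Fermat.Agent.EisIdeal
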