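import Fermat.Agent.DimS2.Reg

/-!
# `q`-expansion of the derivative
-/

set_option autoImplicit false
set_option linter.unusedSectionVars false
set_option linter.style.haveILetI false
set_option linter.unusedSimpArgs false

open UpperHalfPlane ModularForm MatrixGroups Matrix.SpecialLinearGroup Filter Function ModularGroup
open scoped Manifold Topology Real Derivative

local notation "𝕢" => Function.Periodic.qParam

noncomputable section

namespace Fermat.Agent.EisIdeal

open DimS2

lemma iteratedDeriv_id_mul_deriv {c : ℂ → ℂ} (hc : AnalyticAt ℂ c 0) (n : ℕ) :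
    iteratedDeriv n (fun q => q * deriv c q) 0 = n * iteratedDeriv n c 0 := by
  have h1 : ContDiffAt ℂ n (fun q : ℂ => q) 0 := contDiffAt_id
  have h2 : ContDiffAt ℂ n (deriv c) 0 := hc.deriv.contDiffAt
  have h3 : iteratedDeriv n (fun q => q * deriv c q) 0 = _ := iteratedDeriv_mul h1 h2
  rw [h3]
  rcases n with _ | n
  · simp
  · rw [Finset.sum_eq_single 1]
    · simp only [Nat.choose_one_right, iteratedDeriv_one, deriv_id'', Nat.add_sub_cancel]
      rw [← iteratedDeriv_succ']
      ring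
    · intro i _ hi
      have : iteratedDeriv i (fun q : ℂ => q) 0 = 0 := by
        rw [iteratedDeriv_fun_id_zero, if_neg hi]
      rw [this]
      ring
    · intro h
      exact absurd (Finset.mem_range.mpr (by omega)) h

/-- the function `q c'(q)` -/
def gq (h : ℝ) (f : ℍ → ℂ) : ℂ → ℂ := fun q => (h : ℂ)⁻¹ * (q * deriv (cuspFunction h f) q)

lemma D_eq_gq {h : ℝ} (hh : 0 < h) {f : ℍ → ℂ} (hf : Per h f) (τ : ℍ) :
    D f τ = gq h f (𝕢 h τ) := by
  have hd : DifferentiableAt ℂ (cuspFunction h f) (𝕢 h τ) :=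
    differentiableAt_cuspFunction hh hf.per hf.holo hf.bdd (Periodic.norm_qParam_lt_one hh τ.im_pos)
  have hq : HasDerivAt (𝕢 h) (𝕢 h τ * (2 * π * Complex.I / h)) τ := by
    have h1 : HasDerivAt (fun z : ℂ => 2 * π * Complex.I * z / h) (2 * π * Complex.I / h) (τ:ℂ) := by
      have := ((hasDerivAt_id (τ:ℂ)).const_mul (2 * π * Complex.I)).div_const (h:ℂ)
      simpa using this
    exact h1.cexp
  have h2 := hd.hasDerivAt.comp (τ:ℂ) hq
  have h3 : (f ∘ ofComplex) =ᶠ[𝓝 (τ:ℂ)] (cuspFunction h f) ∘ (𝕢 h) := by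
    filter_upwards [isOpen_upperHalfPlaneSet.mem_nhds τ.im_pos] with w hw
    simp only [Function.comp_apply]
    rw [ofComplex_apply_of_im_pos hw]
    exact (eq_cuspFunction ⟨w, hw⟩ hh.ne' hf.per).symm
  rw [Derivative.normalizedDerivOfComplex, h3.deriv_eq, h2.deriv, gq]
  have hpi : (2 * π * Complex.I : ℂ) ≠ 0 := Complex.two_pi_I_ne_zero
  have hh' : (h : ℂ) ≠ 0 := by exact_mod_cast hh.ne'
  field_simp

lemma gq_analyticAt {h : ℝ} (hh : 0 < h) {f : ℍ → ℂ} (hf : Per h f) : AnalyticAt ℂ (gq h f) 0 :=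
  analyticAt_const.mul (analyticAt_id.mul (hf.analyticAt hh).deriv)

lemma per_D {h : ℝ} (hh : 0 < h) {f : ℍ → ℂ} (hf : Per h f) : Per h (D f) where
  per := periodic_of_vadd fun τ => by
    rw [D_eq_gq hh hf, D_eq_gq hh hf]
    congr 1
    simp only [Periodic.qParam, UpperHalfPlane.coe_vadd]
    have hh' : (h : ℂ) ≠ 0 := by exact_mod_cast hh.ne'
    have : 2 * π * Complex.I * ((h : ℝ) + (τ : ℂ)) / h = 2 * π * Complex.I * τ / h +
        2 * π * Complex.I := by
      field_simp
      ring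
    rw [this, Complex.exp_add, Complex.exp_two_pi_mul_I, mul_one]
  holo := Derivative.normalizedDerivOfComplex_mdifferentiable hf.holo
  bdd := by
    have h1 : Tendsto (fun τ : ℍ => gq h f (𝕢 h τ)) atImInfty (𝓝 (gq h f 0)) :=
      (gq_analyticAt hh hf).continuousAt.tendsto.comp (qParam_tendsto_atImInfty hh)
    have h2 : D f = fun τ : ℍ => gq h f (𝕢 h τ) := by
      ext τ; exact D_eq_gq hh hf τ
    rw [h2]
    exact h1.isBigO_one ℝ

lemma coeff_D {h : ℝ} (hh : 0 < h) {f : ℍ → ℂ} (hf : Per h f) (n : ℕ) :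
    (qExpansion h (D f)).coeff n = (h : ℂ)⁻¹ * n * (qExpansion h f).coeff n := by
  have h1 : cuspFunction h (D f) =ᶠ[𝓝 0] gq h f := by
    have hA := ((per_D hh hf).analyticAt hh).continuousAt
    have hB := (gq_analyticAt hh hf).continuousAt
    refine (hA.eventuallyEq_nhds_iff_eventuallyEq_nhdsNE hB).mp ?_
    have hlt : ∀ᶠ q in 𝓝[≠] (0:ℂ), ‖q‖ < 1 := by
      have : ∀ᶠ q in 𝓝 (0:ℂ), ‖q‖ < 1 := by
        have := Metric.ball_mem_nhds (0:ℂ) one_pos
        filter_upwards [this] with q hq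
        simpa using hq
      exact this.filter_mono nhdsWithin_le_nhds
    filter_upwards [self_mem_nhdsWithin, hlt] with q hq hq1
    have him := Periodic.im_invQParam_pos_of_norm_lt_one hh hq1 hq
    rw [cuspFunction, Periodic.cuspFunction_eq_of_nonzero h _ hq, Function.comp_apply,
      ofComplex_apply_of_im_pos him, D_eq_gq hh hf]
    congr 1
    exact Periodic.qParam_right_inv hh.ne' hq
  rw [qExpansion_coeff, qExpansion_coeff, h1.iteratedDeriv_eq]
  have h2 : iteratedDeriv n (gq h f) 0 = (h:ℂ)⁻¹ * (n * iteratedDeriv n (cuspFunction h f) 0) := by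
    rw [← iteratedDeriv_id_mul_deriv (hf.analyticAt hh)]
    unfold gq
    exact iteratedDeriv_const_mul_field _ _
  rw [h2]
  ring

end Fermat.Agent.EisIdeal
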