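import Fermat.Agent.EisIdeal.Lower
import Fermat.Agent.HeckeDual.Pairing
import Fermat.Agent.EisIdeal.Arith
import Fermat.Agent.DSLift.QCoeff

/-!
# Integral duality between the Hecke algebra and cusp forms with integral coefficients
-/

set_option autoImplicit false

noncomputable section

namespace Fermat.Agent.EisIdeal

open CongruenceSubgroup ModularCurve CuspForm Module HeckeDual
open scoped ArithmeticFunction.sigma

lemma exists_multiple {L M : Type*} [AddCommGroup L] [AddCommGroup M] [Module.Finite ℤ L]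
    [Module.Finite ℤ M] (A : L →ₗ[ℤ] M) (hA : Function.Injective A)
    (h : finrank ℤ M ≤ finrank ℤ L) (φ : M) : ∃ k : ℤ, k ≠ 0 ∧ ∃ f, A f = k • φ := by
  have h3 := Submodule.finrank_quotient_add_finrank (LinearMap.range A)
  rw [LinearMap.finrank_range_of_inj hA] at h3
  have h4 : finrank ℤ (M ⧸ LinearMap.range A) = 0 := by omega
  rw [Module.finrank_eq_zero_iff_isTorsion] at h4
  obtain ⟨k, hk⟩ := @h4 (Submodule.Quotient.mk φ)
  refine ⟨k, nonZeroDivisors.coe_ne_zero k, ?_⟩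
  have hk' : (k : ℤ) • φ ∈ LinearMap.range A := by
    rw [← Submodule.Quotient.mk_eq_zero]
    exact hk
  exact hk'

lemma finrank_dual' (M : Type*) [AddCommGroup M] [Module.Finite ℤ M] [Module.Free ℤ M] :
    finrank ℤ (M →ₗ[ℤ] ℤ) = finrank ℤ M := by
  rw [Module.finrank_linearMap, Module.finrank_self, mul_one]

section Duality

variable {N : ℕ} [NeZero N]

lemma exists_int_coeff (f : intLattice N 2) (n : ℕ) :
    ∃ m : ℤ, coeffL N 2 n (f : CuspForm (Gamma0 N) 2) = m :=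
  (DSLift.mem_intLattice_iff _).mp f.2 n

/-- integral coefficients -/
def ci (n : ℕ) : intLattice N 2 →ₗ[ℤ] ℤ :=
  AddMonoidHom.toIntLinearMap (AddMonoidHom.mk' (fun f => (exists_int_coeff f n).choose) (by
    intro f g
    have h1 := (exists_int_coeff f n).choose_spec
    have h2 := (exists_int_coeff g n).choose_spec
    have h3 := (exists_int_coeff (f + g) n).choose_spec
    have h4 : (((exists_int_coeff (f + g) n).choose : ℤ) : ℂ) =
        ((((exists_int_coeff f n).choose + (exists_int_coeff g n).choose : ℤ)) : ℂ) := by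
      push_cast
      rw [← h1, ← h2, ← h3, ← map_add]
      rfl
    exact_mod_cast h4))

lemma ci_spec (n : ℕ) (f : intLattice N 2) :
    ((ci n f : ℤ) : ℂ) = coeffL N 2 n (f : CuspForm (Gamma0 N) 2) :=
  (exists_int_coeff f n).choose_spec.symm

lemma latt_apply (t : heckeAlgebra N 2 ∅) (f : intLattice N 2) :
    (((latticeRestrictHom N ∅ t : heckeLatticeAlgebra N ∅) : Module.End ℤ (intLattice N 2)) f :
      CuspForm (Gamma0 N) 2) = (t : Module.End ℂ (CuspForm (Gamma0 N) 2)) f := rfl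

variable (N) in
/-- `t ↦ (f ↦ a₁(t f))` -/
def pairB : heckeLatticeAlgebra N ∅ →ₗ[ℤ] (intLattice N 2 →ₗ[ℤ] ℤ) :=
  AddMonoidHom.toIntLinearMap (AddMonoidHom.mk'
    (fun t => (ci 1).comp (t : Module.End ℤ (intLattice N 2))) (by
      intro s t
      exact LinearMap.comp_add _ _ _))

lemma pairB_apply (t : heckeLatticeAlgebra N ∅) (f : intLattice N 2) :
    pairB N t f = ci 1 ((t : Module.End ℤ (intLattice N 2)) f) := rfl

lemma eq_zero_of_pairB (f : intLattice N 2) (h : ∀ t, pairB N t f = 0) : f = 0 := by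
  apply Subtype.ext
  refine eq_zero_of_coeffL _ fun n hn => ?_
  obtain ⟨t, ht, htf⟩ := exists_tn (N := N) (k := 2) one_le_two n hn
  rw [← htf]
  have h1 := h (latticeRestrictHom N ∅ ⟨t, ht⟩)
  rw [pairB_apply] at h1
  have h2 := ci_spec 1 (((latticeRestrictHom N ∅ ⟨t, ht⟩ : heckeLatticeAlgebra N ∅) :
    Module.End ℤ (intLattice N 2)) f)
  rw [h1, latt_apply] at h2
  simpa using h2.symm

lemma pairB_injective : Function.Injective (pairB N) := by
  rw [injective_iff_map_eq_zero]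
  intro t ht
  apply Subtype.ext
  ext1 f
  change (t : Module.End ℤ (intLattice N 2)) f = 0
  apply eq_zero_of_pairB
  intro s
  have h1 : pairB N s ((t : Module.End ℤ (intLattice N 2)) f) =
      pairB N t ((s : Module.End ℤ (intLattice N 2)) f) := by
    rw [pairB_apply, pairB_apply]
    have h2 : s * t = t * s := mul_comm s t
    have h3 := congrArg (fun u : heckeLatticeAlgebra N ∅ => (u : Module.End ℤ (intLattice N 2)) f) h2
    change (s : Module.End ℤ (intLattice N 2)) ((t : Module.End ℤ (intLattice N 2)) f) =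
      (t : Module.End ℤ (intLattice N 2)) ((s : Module.End ℤ (intLattice N 2)) f) at h3
    rw [h3]
  rw [h1, ht]
  rfl

variable (N) in
/-- `f ↦ (t ↦ a₁(t f))` -/
def pairA : intLattice N 2 →ₗ[ℤ] (heckeLatticeAlgebra N ∅ →ₗ[ℤ] ℤ) := (pairB N).flip

lemma pairA_apply (t : heckeLatticeAlgebra N ∅) (f : intLattice N 2) :
    pairA N f t = ci 1 ((t : Module.End ℤ (intLattice N 2)) f) := rfl

lemma pairA_injective : Function.Injective (pairA N) := by
  rw [injective_iff_map_eq_zero]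
  intro f hf
  apply eq_zero_of_pairB
  intro t
  exact DFunLike.congr_fun hf t

lemma finrank_le : finrank ℤ (heckeLatticeAlgebra N ∅ →ₗ[ℤ] ℤ) ≤ finrank ℤ (intLattice N 2) := by
  have : Module.Finite ℤ (intLattice N 2) := intLattice.moduleFinite N
  have : Module.Free ℤ (intLattice N 2) := intLattice.moduleFree N
  have h2 := LinearMap.finrank_le_finrank_of_injective (pairB_injective (N := N))
  rw [finrank_dual'] at h2
  rw [finrank_dual']
  exact h2

lemma exists_form_aux (φ : heckeLatticeAlgebra N ∅ →ₗ[ℤ] ℤ) :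
    ∃ k : ℤ, k ≠ 0 ∧ ∃ f, pairA N f = k • φ := by
  have : Module.Finite ℤ (intLattice N 2) := intLattice.moduleFinite N
  have : Module.Free ℤ (intLattice N 2) := intLattice.moduleFree N
  exact exists_multiple (pairA N) pairA_injective finrank_le φ

lemma coeff_of_pairA {φ : heckeLatticeAlgebra N ∅ →ₗ[ℤ] ℤ} {k : ℤ} {f : intLattice N 2}
    (hf : pairA N f = k • φ) (t : heckeAlgebra N 2 ∅) :
    coeffL N 2 1 ((t : Module.End ℂ (CuspForm (Gamma0 N) 2)) (f : CuspForm (Gamma0 N) 2)) =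
      (k : ℂ) * (φ (latticeRestrictHom N ∅ t) : ℤ) := by
  have e1 := DFunLike.congr_fun hf (latticeRestrictHom N ∅ t)
  rw [pairA_apply, LinearMap.smul_apply] at e1
  have e2 := ci_spec 1 (((latticeRestrictHom N ∅ t : heckeLatticeAlgebra N ∅) :
    Module.End ℤ (intLattice N 2)) f)
  rw [e1, latt_apply] at e2
  rw [← e2, smul_eq_mul]
  push_cast
  rfl

/-- **Integral duality**, for the coefficients. -/
theorem exists_form (φ : heckeLatticeAlgebra N ∅ →ₗ[ℤ] ℤ) :
    ∃ g : CuspForm (Gamma0 N) 2, ∀ t : heckeAlgebra N 2 ∅,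
      coeffL N 2 1 ((t : Module.End ℂ (CuspForm (Gamma0 N) 2)) g) =
        (φ (latticeRestrictHom N ∅ t) : ℤ) := by
  obtain ⟨k, hk0, f, hf⟩ := exists_form_aux φ
  have hkc : (k : ℂ) ≠ 0 := by exact_mod_cast hk0
  refine ⟨(k : ℂ)⁻¹ • (f : CuspForm (Gamma0 N) 2), fun t => ?_⟩
  rw [map_smul, map_smul, coeff_of_pairA hf, smul_eq_mul, inv_mul_cancel_left₀ hkc]

end Duality

section Pn

variable {p : ℕ} [hp : Fact p.Prime]

variable (p) in
/-- Eisenstein coefficients -/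
def sg' (n : ℕ) : ℤ := (σ 1 n : ℕ) - if p ∣ n then (p : ℤ) * (σ 1 (n / p) : ℕ) else 0

lemma sg'_one : sg' p 1 = 1 := by
  have : ¬ p ∣ 1 := by rw [Nat.dvd_one]; exact hp.out.ne_one
  simp [sg', this]

lemma sg'_mul_p (n : ℕ) : sg' p (n * p) = sg' p n := by
  have h := sigma_prime_mul 1 hp.out n
  rw [sg', sg', if_pos (dvd_mul_left _ _), Nat.mul_div_cancel _ hp.out.pos, mul_comm n p]
  split_ifs at h ⊢ with hn
  · have h' : ((σ 1 (p * n) : ℕ) : ℤ) + (p : ℤ) ^ 1 * ((σ 1 (n / p) : ℕ) : ℤ) =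
        (1 + (p : ℤ) ^ 1) * ((σ 1 n : ℕ) : ℤ) := by exact_mod_cast h
    linarith
  · have h' : ((σ 1 (p * n) : ℕ) : ℤ) + 0 =
        (1 + (p : ℤ) ^ 1) * ((σ 1 n : ℕ) : ℤ) := by exact_mod_cast h
    linarith

lemma sg'_mul {ℓ : ℕ} (hℓ : ℓ.Prime) (hℓp : ¬ ℓ ∣ p) (n : ℕ) :
    sg' p (n * ℓ) + (if ℓ ∣ n then (ℓ : ℤ) * sg' p (n / ℓ) else 0) = (1 + ℓ) * sg' p n := by
  have hne : ℓ ≠ p := by rintro rfl; exact hℓp dvd_rfl
  have hcop : Nat.Coprime p ℓ := (Nat.coprime_primes hp.out hℓ).mpr hne.symm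
  have h1 : p ∣ n * ℓ ↔ p ∣ n := ⟨fun h => hcop.dvd_of_dvd_mul_right h, fun h => h.mul_right _⟩
  have H : ∀ m : ℕ, ((σ 1 (m * ℓ) : ℕ) : ℤ) + (if ℓ ∣ m then (ℓ : ℤ) * ((σ 1 (m / ℓ) : ℕ) : ℤ) else 0) =
      (1 + ℓ) * ((σ 1 m : ℕ) : ℤ) := by
    intro m
    have h := sigma_prime_mul 1 hℓ m
    rw [mul_comm ℓ m] at h
    split_ifs at h ⊢
    · have h' : ((σ 1 (m * ℓ) : ℕ) : ℤ) + (ℓ : ℤ) ^ 1 * ((σ 1 (m / ℓ) : ℕ) : ℤ) =
        (1 + (ℓ : ℤ) ^ 1) * ((σ 1 m : ℕ) : ℤ) := by exact_mod_cast h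
      linarith
    · have h' : ((σ 1 (m * ℓ) : ℕ) : ℤ) + 0 =
        (1 + (ℓ : ℤ) ^ 1) * ((σ 1 m : ℕ) : ℤ) := by exact_mod_cast h
      linarith
  have Hn := H n
  simp only [sg', h1]
  by_cases hpn : p ∣ n
  · obtain ⟨m, rfl⟩ := hpn
    have Hm := H m
    have e1 : p * m * ℓ / p = m * ℓ := by
      rw [mul_assoc, Nat.mul_div_cancel_left _ hp.out.pos]
    have e2 : p * m / p = m := Nat.mul_div_cancel_left _ hp.out.pos
    have e3 : ℓ ∣ p * m ↔ ℓ ∣ m :=
      ⟨fun h => hcop.symm.dvd_of_dvd_mul_left h, fun h => h.mul_left _⟩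
    rw [if_pos (dvd_mul_right p m), if_pos (dvd_mul_right p m), e1, e2]
    simp only [e3] at Hn ⊢
    by_cases hℓm : ℓ ∣ m
    · obtain ⟨m', rfl⟩ := hℓm
      have e4 : p * (ℓ * m') / ℓ = p * m' := by
        rw [mul_left_comm, Nat.mul_div_cancel_left _ hℓ.pos]
      have e5 : ℓ * m' / ℓ = m' := Nat.mul_div_cancel_left _ hℓ.pos
      have e6 : p * m' / p = m' := Nat.mul_div_cancel_left _ hp.out.pos
      rw [if_pos (dvd_mul_right ℓ m')] at Hn Hm ⊢
      rw [e4] at Hn ⊢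
      rw [e5] at Hm
      rw [if_pos (dvd_mul_right p m'), e6]
      linear_combination Hn - (p : ℤ) * Hm
    · rw [if_neg hℓm] at Hn Hm ⊢
      linear_combination Hn - (p : ℤ) * Hm
  · rw [if_neg hpn, if_neg hpn]
    by_cases hℓn : ℓ ∣ n
    · obtain ⟨m', rfl⟩ := hℓn
      have e5 : ℓ * m' / ℓ = m' := Nat.mul_div_cancel_left _ hℓ.pos
      have e6 : ¬ p ∣ m' := fun h => hpn (h.mul_left _)
      rw [if_pos (dvd_mul_right ℓ m')] at Hn ⊢
      rw [e5] at Hn ⊢
      rw [if_neg e6]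
      linear_combination Hn
    · rw [if_neg hℓn] at Hn ⊢
      linear_combination Hn

lemma eps_X_of_dvd (ℓ : Nat.Primes) (h : (ℓ : ℕ) ∣ p) : eps p (heckeGen ℓ) = 1 := by
  change MvPolynomial.aeval (eisensteinSystem p) (heckeGen ℓ) = 1
  rw [aeval_heckeGen, eisensteinSystem_of_dvd h]

lemma eps_X_of_not_dvd (ℓ : Nat.Primes) (h : ¬ (ℓ : ℕ) ∣ p) :
    eps p (heckeGen ℓ) = 1 + ((ℓ : ℕ) : ℤ) := by
  change MvPolynomial.aeval (eisensteinSystem p) (heckeGen ℓ) = 1 + ((ℓ : ℕ) : ℤ)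
  rw [aeval_heckeGen, eisensteinSystem_of_not_dvd h]

lemma eps_C (a : ℤ) : eps p (MvPolynomial.C a) = a := by
  change MvPolynomial.aeval (eisensteinSystem p) (MvPolynomial.C a) = a
  rw [MvPolynomial.aeval_C]
  rfl

/-- the formal Hecke operator `T_n` -/
theorem exists_Pn (n : ℕ) (hn : 0 < n) :
    ∃ P : HeckeAlg, (∀ f : CuspForm (Gamma0 p) 2, coeffL p 2 1 (act P f) = coeffL p 2 n f) ∧
      eps p P = sg' p n := by
  induction n using Nat.strong_induction_on with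
  | _ n ih =>
    rcases Nat.lt_or_ge 1 n with h1 | h1
    swap
    · obtain rfl : n = 1 := by omega
      refine ⟨1, fun f => ?_, ?_⟩
      · rw [act, map_one]; rfl
      · rw [map_one, sg'_one]
    set ℓ := n.minFac with hℓ'
    have hℓ : ℓ.Prime := Nat.minFac_prime (by omega)
    obtain ⟨m, hm⟩ : ℓ ∣ n := Nat.minFac_dvd n
    have hm0 : 0 < m := Nat.pos_of_ne_zero (by rintro rfl; omega)
    have hmn : m < n := by rw [hm]; exact lt_mul_of_one_lt_left hm0 hℓ.one_lt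
    have hmp : m * ℓ = n := by rw [hm]; ring
    obtain ⟨P, hP, hε⟩ := ih m hmn hm0
    obtain ⟨q, hq⟩ : ∃ q : Nat.Primes, (q : ℕ) = ℓ := ⟨⟨ℓ, hℓ⟩, rfl⟩
    by_cases hpN : ℓ ∣ p
    · have hℓp : ℓ = p := (Nat.prime_dvd_prime_iff_eq hℓ hp.out).mp hpN
      refine ⟨P * heckeGen q, fun f => ?_, ?_⟩
      · have h2 : ⇑(act (heckeGen q) f) = ⇑(CuspForm.heckeULin 2 hpN f) := by
          rw [act_X_of_dvd (hq ▸ hpN), CuspForm.coe_heckeULin_apply, hq]
        rw [act_mul, hP, DFunLike.coe_injective h2, coeffL_heckeU hℓ hpN, hmp]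
      · rw [map_mul, hε, eps_X_of_dvd q (hq ▸ hpN), mul_one, ← hmp, hℓp, sg'_mul_p]
    · have h2 : ∀ f, act (heckeGen q) f = CuspForm.heckeTLin 2 hℓ hpN f := by
        intro f
        apply DFunLike.coe_injective
        rw [act_X_of_not_dvd (hq ▸ hpN), CuspForm.coe_heckeTLin_apply, hq]
      have h3 : eps p (heckeGen q) = 1 + ℓ := by
        rw [eps_X_of_not_dvd q (hq ▸ hpN), hq]
      have h4 := sg'_mul hℓ hpN m
      rw [hmp] at h4
      by_cases hpm : ℓ ∣ m
      · obtain ⟨m', hm'⟩ := hpm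
        have hm'0 : 0 < m' := Nat.pos_of_ne_zero (by rintro rfl; omega)
        have hm'm : m' < m := by rw [hm']; exact lt_mul_of_one_lt_left hm'0 hℓ.one_lt
        obtain ⟨P', hP', hε'⟩ := ih m' (hm'm.trans hmn) hm'0
        have hdiv : m / ℓ = m' := by rw [hm', Nat.mul_div_cancel_left _ hℓ.pos]
        refine ⟨P * heckeGen q + MvPolynomial.C (-(ℓ : ℤ)) * P', fun f => ?_, ?_⟩
        · rw [act_add, act_mul, act_mul, act_C, map_add, hP, h2, coeffL_heckeT hℓ hpN, hmp,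
            if_pos ⟨m', hm'⟩, hdiv, map_zsmul, hP']
          simp
        · rw [map_add, map_mul, map_mul, hε, hε', h3, eps_C]
          rw [if_pos ⟨m', hm'⟩, hdiv] at h4
          linear_combination -h4
      · refine ⟨P * heckeGen q, fun f => ?_, ?_⟩
        · rw [act_mul, hP, h2, coeffL_heckeT hℓ hpN, hmp, if_neg hpm, add_zero]
        · rw [map_mul, hε, h3]
          rw [if_neg hpm] at h4
          linear_combination -h4

end Pn

end Fermat.Agent.EisIdeal
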