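import Fermat.Agent.EisIdeal.Winv

/-!
# The weight two Eisenstein series of prime level
-/

set_option autoImplicit false
set_option linter.unusedSectionVars false
set_option linter.style.haveILetI false
set_option linter.unusedSimpArgs false

open UpperHalfPlane ModularForm MatrixGroups Matrix.SpecialLinearGroup Filter Function ModularGroup
  EisensteinSeries
open scoped Manifold Topology Real Derivative ArithmeticFunction.sigma

local notation "𝕢" => Function.Periodic.qParam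

noncomputable section

namespace Fermat.Agent.EisIdeal

open DimS2

variable {p : ℕ}

variable (p) in
/-- `(p E₂(pz) - E₂(z)) / 24` -/
def es : ℍ → ℂ := fun z => (24 : ℂ)⁻¹ * (p * E2 (heckeDiagMatrix p • z) - E2 z)

lemma E2_apply_smul (γ : SL(2,ℤ)) (z : ℍ) :
    E2 (γ • z) = denom (γ : GL (Fin 2) ℝ) z ^ (2:ℤ) *
      (E2 z - (1 / (2 * riemannZeta 2)) * (2 * π * Complex.I * γ 1 0 / denom (γ : GL (Fin 2) ℝ) z)) := by
  have h := congrFun (E2_slash_action γ) z
  rw [SL_slash_apply] at h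
  simp only [Pi.sub_apply, Pi.smul_apply, smul_eq_mul, D2] at h
  rw [← h]
  have : denom (γ : GL (Fin 2) ℝ) z ^ (2:ℤ) * (E2 (γ • z) * denom (γ : GL (Fin 2) ℝ) z ^ (-2:ℤ)) =
      E2 (γ • z) * (denom (γ : GL (Fin 2) ℝ) z ^ (2:ℤ) * denom (γ : GL (Fin 2) ℝ) z ^ (-2:ℤ)) := by
    ring
  rw [this, ← zpow_add₀ (denom_ne_zero _ _)]
  simp

lemma es_slash [hp : NeZero p] : ∀ γ ∈ CongruenceSubgroup.Gamma0 p, (es p) ∣[(2:ℤ)] γ = es p := by
  intro γ hγ
  obtain ⟨δ, h00, h01, h10, h11⟩ := exists_conj hγ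
  ext z
  rw [SL_slash_apply]
  simp only [es]
  rw [diag_smul h00 h01 h10 h11, E2_apply_smul, E2_apply_smul, denom_conj h10 h11]
  have hd : denom (γ : GL (Fin 2) ℝ) z ≠ 0 := denom_ne_zero _ _
  have h10' : (p : ℂ) * (δ 1 0 : ℂ) = γ 1 0 := by rw [← h10]; push_cast; ring
  have h2 : denom (γ : GL (Fin 2) ℝ) z ^ (2:ℤ) * denom (γ : GL (Fin 2) ℝ) z ^ (-2:ℤ) = 1 := by
    rw [← zpow_add₀ hd]; simp
  have h3 : (24 : ℂ)⁻¹ * (p * (denom (γ : GL (Fin 2) ℝ) z ^ (2:ℤ) *
      (E2 (heckeDiagMatrix p • z) - (1 / (2 * riemannZeta 2)) * (2 * π * Complex.I * δ 1 0 /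
        denom (γ : GL (Fin 2) ℝ) z))) - denom (γ : GL (Fin 2) ℝ) z ^ (2:ℤ) *
      (E2 z - (1 / (2 * riemannZeta 2)) * (2 * π * Complex.I * γ 1 0 /
        denom (γ : GL (Fin 2) ℝ) z))) * denom (γ : GL (Fin 2) ℝ) z ^ (-2:ℤ) =
      (denom (γ : GL (Fin 2) ℝ) z ^ (2:ℤ) * denom (γ : GL (Fin 2) ℝ) z ^ (-2:ℤ)) *
      ((24 : ℂ)⁻¹ * (p * E2 (heckeDiagMatrix p • z) - E2 z -
        (1 / (2 * riemannZeta 2)) * (2 * π * Complex.I / denom (γ : GL (Fin 2) ℝ) z) *
          (p * δ 1 0 - γ 1 0))) := by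
    ring
  rw [h3, h2, h10']
  ring

lemma es_slash_S [hp : NeZero p] (z : ℍ) : ((es p) ∣[(2:ℤ)] S) z =
    (24 : ℂ)⁻¹ * ((p : ℂ)⁻¹ * E2 (heckeMatrix p 0 • z) - E2 z) := by
  rw [SL_slash_apply]
  simp only [es]
  have h1 : heckeDiagMatrix p • (S • z) = S • (heckeMatrix p 0 • z) := by
    apply UpperHalfPlane.ext
    rw [coe_heckeDiagMatrix_smul hp.out, UpperHalfPlane.modular_S_smul,
      UpperHalfPlane.modular_S_smul]
    have : (p : ℂ) ≠ 0 := by exact_mod_cast hp.out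
    have hz := z.ne_zero
    simp only [UpperHalfPlane.coe_mk]
    rw [coe_heckeMatrix_smul hp.out]
    push_cast
    rw [add_zero]
    field_simp
  rw [h1, E2_apply_smul, E2_apply_smul]
  have h3 : denom (S : GL (Fin 2) ℝ) (heckeMatrix p 0 • z : ℍ) = z / p := by
    rw [ModularGroup.denom_S, coe_heckeMatrix_smul hp.out]
    push_cast; ring
  have h4 : denom (S : GL (Fin 2) ℝ) z = z := ModularGroup.denom_S z
  rw [h3, h4]
  have hpc : (p : ℂ) ≠ 0 := by exact_mod_cast hp.out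
  have hz := z.ne_zero
  have hz2 : (z : ℂ) ^ (-2 : ℤ) = ((z : ℂ)^2)⁻¹ := by
    rw [zpow_neg]; norm_cast
  have hz3 : ((z : ℂ) / p) ^ (2 : ℤ) = (z : ℂ)^2 / p^2 := by
    rw [div_zpow]; norm_cast
  have hz4 : (z : ℂ) ^ (2 : ℤ) = (z : ℂ)^2 := by norm_cast
  rw [hz2, hz3, hz4]
  have e10 : ((S : SL(2,ℤ)) 1 0 : ℂ) = 1 := by rw [S10]; norm_num
  rw [e10]
  have hzeta : riemannZeta 2 ≠ 0 := by
    rw [riemannZeta_two]
    simp [Real.pi_ne_zero]
  field_simp
  ring

lemma es_mdiff [hp : NeZero p] : MDiff (es p) := by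
  have h1 := mdiff_comp_heckeDiag (p := p) E2_mdifferentiable
  have h2 : es p = (24 : ℂ)⁻¹ • ((p : ℂ) • (fun z : ℍ => E2 (heckeDiagMatrix p • z)) - E2) := by
    ext z; simp [es]
  rw [h2]
  exact ((h1.const_smul (p : ℂ)).sub E2_mdifferentiable).const_smul _

lemma es_bdd [hp : NeZero p] : IsBoundedAtImInfty (es p) := by
  have h1 := bdd_comp_heckeDiag (p := p) isBoundedAtImInfty_E2
  have h2 : es p = (24 : ℂ)⁻¹ • ((p : ℂ) • (fun z : ℍ => E2 (heckeDiagMatrix p • z)) +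
      (-1 : ℂ) • E2) := by
    ext z; simp [es]; ring
  rw [h2]
  exact ((h1.const_smul_left (p : ℂ)).add (isBoundedAtImInfty_E2.const_smul_left _)).const_smul_left _

lemma es_S_bdd [hp : NeZero p] : IsBoundedAtImInfty ((es p) ∣[(2:ℤ)] S) := by
  have h1 := bdd_comp_hecke (p := p) isBoundedAtImInfty_E2 0
  have h2 : ((es p) ∣[(2:ℤ)] S) = (24 : ℂ)⁻¹ • (((p : ℂ)⁻¹) • (fun z : ℍ => E2 (heckeMatrix p 0 • z)) +
      (-1 : ℂ) • E2) := by
    ext z; rw [es_slash_S]; simp; ring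
  rw [h2]
  exact ((h1.const_smul_left _).add (isBoundedAtImInfty_E2.const_smul_left _)).const_smul_left _

variable (p) in
/-- the Eisenstein series as a vector valued form -/
def ES [hp : Fact p.Prime] : Cos p → ℍ → ℂ := ofInv (N := p) (k := 2) (es p) es_slash

lemma ES_mem [hp : Fact p.Prime] : ES p ∈ VM (Cos p) 2 :=
  ofInv_mem' _ _ es_mdiff es_bdd es_S_bdd

/-- the coefficients -/
def esc (p : ℕ) (n : ℕ) : ℂ :=
  if n = 0 then ((p : ℂ) - 1) / 24 else (σ 1 n : ℂ) - if p ∣ n then (p : ℂ) * σ 1 (n / p) else 0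

lemma ai_ES [hp : Fact p.Prime] (n : ℕ) : ai n (ES p) = esc p n := by
  symm
  refine (VM.per_xinf ES_mem).coeff_unique one_pos (c := esc p) (fun τ => ?_) n
  have h0 : ES p (xinf p) = es p := ofInv_xinf _ _
  rw [h0]
  have h1 := hasSum_qExpansion_E2 (z := τ)
  have h2 := hasSum_qExpansion_E2 (z := heckeDiagMatrix p • τ)
  have hinj : Function.Injective (fun n : ℕ => p * n) := fun a b h =>
    Nat.eq_of_mul_eq_mul_left hp.out.pos h
  have h3 : HasSum (fun m : ℕ => (if p ∣ m then (if m / p = 0 then 1 else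
      -24 * (σ 1 (m / p)) : ℂ) else 0) • 𝕢 1 τ ^ m) (E2 (heckeDiagMatrix p • τ)) := by
    rw [← hinj.hasSum_iff]
    · refine h2.congr_fun ?_
      intro m
      simp only [Function.comp_apply, dvd_mul_right, if_true, Nat.mul_div_cancel_left _ hp.out.pos]
      congr 1
      rw [pow_mul]
      congr 1
      simp only [Periodic.qParam]
      rw [← Complex.exp_nat_mul, coe_heckeDiagMatrix_smul hp.out.ne_zero]
      congr 1
      push_cast
      ring
    · intro n hn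
      have : ¬ p ∣ n := by
        rintro ⟨c, rfl⟩
        exact hn ⟨c, rfl⟩
      simp [this]
  have h4 := ((h3.mul_left (p : ℂ)).sub h1).mul_left ((24 : ℂ)⁻¹)
  refine h4.congr_fun ?_
  intro m
  have hq : Complex.exp (2 * π * Complex.I * τ) = 𝕢 1 τ := by
    simp [Periodic.qParam]
  simp only [smul_eq_mul, esc, hq]
  rcases Nat.eq_zero_or_pos m with rfl | hm
  · simp
    ring
  · rw [if_neg hm.ne', if_neg hm.ne']
    split_ifs with hd hdp
    · exfalso
      obtain ⟨c, rfl⟩ := hd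
      rw [Nat.mul_div_cancel_left _ hp.out.pos] at hdp
      subst hdp
      simp at hm
    · ring
    · ring

end Fermat.Agent.EisIdeal
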