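import Fermat.Agent.EisIdeal.Cosets
import Fermat.Prelude.Def_ModularForm_HeckeOperator

/-!
# Forms of prime level as vector valued forms; the trace to level one
-/

set_option autoImplicit false
set_option linter.unusedSectionVars false
set_option linter.style.haveILetI false
set_option linter.unusedSimpArgs false

open UpperHalfPlane ModularForm MatrixGroups Matrix.SpecialLinearGroup Filter Function ModularGroup
open scoped Manifold Topology Real

local notation "𝕢" => Function.Periodic.qParam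

noncomputable section

namespace Fermat.Agent.EisIdeal

open DimS2

variable {p : ℕ}

lemma hTp (p : ℕ) [NeZero p] (x : Cos p) : (T ^ p) • x = x := (good_Cos p).hT x

/-- changing the period in a `q`-expansion -/
lemma coeff_period {f : ℍ → ℂ} (hf : Per 1 f) (hp : 0 < p) (m : ℕ) :
    (qExpansion p f).coeff m = if p ∣ m then (qExpansion 1 f).coeff (m / p) else 0 := by
  have hp' : (0:ℝ) < p := by exact_mod_cast hp
  have hf' : Per (p : ℝ) f := ⟨by
    have := hf.per.nat_mul p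
    simpa using this, hf.holo, hf.bdd⟩
  symm
  refine hf'.coeff_unique hp' (c := fun m => if p ∣ m then (qExpansion 1 f).coeff (m / p) else 0)
    (fun τ => ?_) m
  have h1 := hf.hasSum one_pos τ
  have hinj : Function.Injective (fun n : ℕ => p * n) := fun a b h =>
    Nat.eq_of_mul_eq_mul_left hp h
  rw [← hinj.hasSum_iff]
  · convert h1 using 2 with n
    simp only [Function.comp_apply, dvd_mul_right, if_true, Nat.mul_div_cancel_left _ hp]
    congr 1
    rw [pow_mul]
    congr 1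
    simp only [Periodic.qParam]
    rw [← Complex.exp_nat_mul]
    congr 1
    have : (p : ℂ) ≠ 0 := by exact_mod_cast hp.ne'
    push_cast
    field_simp
  · intro n hn
    have : ¬ p ∣ n := by
      rintro ⟨c, rfl⟩
      exact hn ⟨c, rfl⟩
    simp [this]

lemma VM.per_xinf {k : ℤ} {F : Cos p → ℍ → ℂ} (hF : F ∈ VM (Cos p) k) : Per 1 (F (xinf p)) where
  per := periodic_of_vadd fun τ => by
    have := VM.apply_T hF (xinf p) τ
    rwa [T_smul_xinf] at this
  holo := VM.holo hF _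
  bdd := VM.bdd hF _

/-- the coefficients at `∞` -/
def ai (n : ℕ) (F : Cos p → ℍ → ℂ) : ℂ := (qExpansion 1 (F (xinf p))).coeff n

/-- the coefficients at `0` (with respect to `q_p`) -/
def bi (n : ℕ) (F : Cos p → ℍ → ℂ) : ℂ := (qExpansion p (F (xzero p))).coeff n

lemma co_xinf {k : ℤ} {F : Cos p → ℍ → ℂ} (hF : F ∈ VM (Cos p) k) (hp : 0 < p) (m : ℕ) :
    co p m F (xinf p) = if p ∣ m then ai (m / p) F else 0 := by
  rw [co, coeff_period (VM.per_xinf hF) hp]
  rfl

lemma co_xzero (F : Cos p → ℍ → ℂ) (m : ℕ) : co p m F (xzero p) = bi m F := rfl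

lemma co_T_pow [NeZero p] {k : ℤ} {F : Cos p → ℍ → ℂ} (hF : F ∈ VM (Cos p) k) (n j : ℕ)
    (x : Cos p) : co p n F x = (zt p ^ n) ^ j * co p n F (T ^ j • x) := by
  induction j with
  | zero => simp
  | succ j ih =>
    rw [ih, co_T (Nat.pos_of_neZero p) (hTp p) hF n (T ^ j • x), pow_succ (zt p ^ n) j,
      ← mul_smul, ← pow_succ']
    ring

lemma zt_pow_self [NeZero p] : zt p ^ p = 1 := (zt_prim (Nat.pos_of_neZero p)).pow_eq_one

lemma co_T_pow' [NeZero p] {k : ℤ} {F : Cos p → ℍ → ℂ} (hF : F ∈ VM (Cos p) k) (n j : ℕ)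
    (x : Cos p) : co p n F (T ^ j • x) = (((zt p)⁻¹) ^ n) ^ j * co p n F x := by
  rw [co_T_pow hF n j x, ← mul_assoc, ← mul_pow, ← mul_pow, inv_mul_cancel₀ zt_ne_zero, one_pow,
    one_pow, one_mul]

lemma sum_zt [NeZero p] (n : ℕ) :
    ∑ j ∈ Finset.range p, (((zt p)⁻¹) ^ n) ^ j = if p ∣ n then (p : ℂ) else 0 := by
  have hprim := (zt_prim (Nat.pos_of_neZero p)).inv
  split_ifs with h
  · have : (zt p)⁻¹ ^ n = 1 := (hprim.pow_eq_one_iff_dvd n).mpr h
    simp [this]
  · have hne : (zt p)⁻¹ ^ n ≠ 1 := fun h' => h ((hprim.pow_eq_one_iff_dvd n).mp h')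
    have hpw : ((zt p)⁻¹ ^ n) ^ p = 1 := by
      rw [← pow_mul, mul_comm, pow_mul, hprim.pow_eq_one, one_pow]
    rw [geom_sum_eq hne, hpw, sub_self, zero_div]

/-- the trace to level one -/
def trL [Fintype (Cos p)] (F : Cos p → ℍ → ℂ) : ℍ → ℂ := ∑ x, F x

lemma trL_isL1 [Fintype (Cos p)] {k : ℤ} {F : Cos p → ℍ → ℂ} (hF : F ∈ VM (Cos p) k) :
    IsL1 k (trL F) := by
  have h := tr_isL1 hF (one_mem_VM (X := Cos p))
  have h2 : tr F 1 = trL F := by
    ext z; simp [tr, trL]
  rw [h2] at h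
  exact h.congr_weight (by simp)

/-- the `q`-expansion of the trace. -/
lemma coeff_trL [hp : Fact p.Prime] [Fintype (Cos p)] {k : ℤ} {F : Cos p → ℍ → ℂ}
    (hF : F ∈ VM (Cos p) k) (n : ℕ) :
    (qExpansion 1 (trL F)).coeff n = ai n F + p * bi (p * n) F := by
  have hp' : (0:ℝ) < p := by exact_mod_cast hp.out.pos
  have h1 := coeff_period (trL_isL1 hF).per hp.out.pos (p * n)
  rw [if_pos (dvd_mul_right _ _), Nat.mul_div_cancel_left _ hp.out.pos] at h1
  rw [← h1, trL, qExpansion_sum Finset.univ hp' fun x _ => VM.perN (hTp p) hF x, map_sum]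
  change ∑ x, co p (p * n) F x = _
  rw [sum_cos, co_xinf hF hp.out.pos, if_pos (dvd_mul_right _ _),
    Nat.mul_div_cancel_left _ hp.out.pos]
  congr 1
  simp_rw [co_T_pow' hF]
  rw [← Finset.sum_mul, sum_zt, if_pos (dvd_mul_right _ _)]
  rfl

lemma isL1_two_eq_zero {f : ℍ → ℂ} (hf : IsL1 2 f) : f = 0 := by
  have h := rank_zero_iff_forall_zero.mp ModularForm.levelOne_weight_two_rank_zero hf.toMF
  exact congrArg DFunLike.coe h

/-- in weight 2, the coefficients at `∞` are determined by those at `0`. -/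
lemma ai_eq_two [hp : Fact p.Prime] {F : Cos p → ℍ → ℂ} (hF : F ∈ VM (Cos p) 2) (n : ℕ) :
    ai n F = - (p * bi (p * n) F) := by
  have := Fintype.ofFinite (Cos p)
  have h := coeff_trL hF n
  rw [isL1_two_eq_zero (trL_isL1 hF), qExpansion_zero] at h
  simp only [map_zero] at h
  linear_combination -h

lemma S_inv_eq : (S : SL(2,ℤ))⁻¹ = -1 * S := by
  ext i j
  fin_cases i <;> fin_cases j
  · exact (inv00 S).trans (by decide)
  · exact (inv01 S).trans (by decide)
  · exact (inv10 S).trans (by decide)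
  · exact (inv11 S).trans (by decide)

/-- a constructor for vector valued forms -/
lemma ofInv_mem' [hp : Fact p.Prime] {k : ℤ} (f : ℍ → ℂ)
    (hf : ∀ γ ∈ CongruenceSubgroup.Gamma0 p, f ∣[k] γ = f) (hh : MDiff f)
    (hb : IsBoundedAtImInfty f) (hb0 : IsBoundedAtImInfty (f ∣[k] S)) :
    ofInv (N := p) (k := k) f hf ∈ VM (Cos p) k := by
  refine ⟨fun γ x => ?_, fun x => ?_, fun x => ?_⟩
  · obtain ⟨g, rfl⟩ := QuotientGroup.mk_surjective x
    have : γ • (QuotientGroup.mk g : Cos p) = QuotientGroup.mk (γ * g) := rfl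
    rw [this, ofInv_mk, ofInv_mk, ← SlashAction.slash_mul]
    congr 1
    group
  · obtain ⟨g, rfl⟩ := QuotientGroup.mk_surjective x
    rw [ofInv_mk]
    exact MDifferentiable.slash hh k _
  · rcases xinf_or p x with rfl | ⟨j, rfl⟩
    · change IsBoundedAtImInfty (f ∣[k] (1 : SL(2,ℤ))⁻¹)
      rwa [inv_one, SlashAction.slash_one]
    · have h1 : T ^ j • xzero p = QuotientGroup.mk (T ^ j * S) := rfl
      rw [h1, ofInv_mk]
      have h2 : (T ^ j * S : SL(2,ℤ))⁻¹ = (-1) * S * (T ^ j)⁻¹ := by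
        rw [mul_inv_rev, S_inv_eq]
      have h3 : (-1 : SL(2,ℤ)) ∈ CongruenceSubgroup.Gamma0 p := by
        rw [CongruenceSubgroup.Gamma0_mem]; simp
      rw [h2, SlashAction.slash_mul, SlashAction.slash_mul, hf _ h3]
      have h4 : (f ∣[k] S) ∣[k] (T ^ j)⁻¹ = fun z => (f ∣[k] S) ((-j : ℝ) +ᵥ z) := by
        ext z
        rw [SL_slash_apply]
        have h5 : (T ^ j)⁻¹ • z = (-j : ℝ) +ᵥ z := by
          have := modular_T_zpow_smul z (-(j : ℤ))
          rw [zpow_neg, zpow_natCast] at this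
          rw [this]; push_cast; rfl
        have h6 : denom (((T ^ j)⁻¹ : SL(2,ℤ)) : GL (Fin 2) ℝ) z = 1 := by
          rw [ModularGroup.denom_apply, ← zpow_natCast, ← zpow_neg, Tz10, Tz11]
          simp
        rw [h5, h6]
        simp
      rw [h4]
      rw [isBoundedAtImInfty_iff] at hb0 ⊢
      obtain ⟨M, A, hM⟩ := hb0
      refine ⟨M, A, fun z hz => hM _ ?_⟩
      simpa using hz

lemma ofInv_xinf {k : ℤ} (f : ℍ → ℂ) (hf : ∀ γ ∈ CongruenceSubgroup.Gamma0 p, f ∣[k] γ = f) :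
    ofInv (N := p) (k := k) f hf (xinf p) = f := by
  change (f ∣[k] (1 : SL(2,ℤ))⁻¹) = f
  rw [inv_one, SlashAction.slash_one]

lemma VM.xzero_eq {k : ℤ} {F : Cos p → ℍ → ℂ} (hF : F ∈ VM (Cos p) k) :
    F (xzero p) = F (xinf p) ∣[k] S := by
  have h := VM.slash hF S (xzero p)
  rw [S_smul_xzero] at h
  exact h.symm

end Fermat.Agent.EisIdeal
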