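import Fermat.Agent.EisIdeal.Shimura

/-!
# The lower bound for the index of the Eisenstein ideal
-/

set_option autoImplicit false

noncomputable section

namespace Fermat.Agent.EisIdeal

open UpperHalfPlane hiding I
open scoped MatrixGroups ModularForm Pointwise
open ModularCurve ModularCurve.Period CongruenceSubgroup ModularForm Module EichlerShimura

variable {p : ℕ} [hp : Fact p.Prime]

/-- extension of a function to the free abelian group -/
abbrev ex {α A : Type*} [AddCommGroup A] (φ : α → A) : FreeAbelianGroup α →+ A :=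
  FreeAbelianGroup.lift φ

instance : NeZero p := ⟨hp.out.ne_zero⟩

/-- the period function -/
def per (f : CuspForm (Gamma0 p) 2) (γ : Gamma0 p) : ℂ := symb (γ : SL(2, ℤ)) ⇑f

/-- the twisted period function -/
def perJ (f : CuspForm (Gamma0 p) 2) (γ : Gamma0 p) : ℂ := symb (jConjSL (γ : SL(2, ℤ))) ⇑f

/-- the action of a formal Hecke operator on cusp forms -/
def act (P : HeckeAlg) (f : CuspForm (Gamma0 p) 2) : CuspForm (Gamma0 p) 2 :=
  ((CuspForm.heckeEvalForms p 2 P : CuspForm.heckeAlgebra p 2 ∅) :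
    Module.End ℂ (CuspForm (Gamma0 p) 2)) f

variable (p) in
/-- the Eisenstein character -/
def eps : HeckeAlg →+* ℤ := (MvPolynomial.aeval (R := ℤ) (eisensteinSystem p)).toRingHom

lemma per_add (f g : CuspForm (Gamma0 p) 2) : per (f + g) = per f + per g := by
  funext γ
  simp only [per, Pi.add_apply]
  rw [FunLike.coe_add, symb_add (good_cusp f) (good_cusp g)]

lemma perJ_add (f g : CuspForm (Gamma0 p) 2) : perJ (f + g) = perJ f + perJ g := by
  funext γ
  simp only [perJ, Pi.add_apply]
  rw [FunLike.coe_add, symb_add (good_cusp f) (good_cusp g)]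

lemma per_zsmul (a : ℤ) (f : CuspForm (Gamma0 p) 2) : per (a • f) = a • per f := by
  have h : (a • f) = (a : ℂ) • f := by rw [Int.cast_smul_eq_zsmul]
  funext γ
  simp only [per, Pi.smul_apply]
  rw [h, FunLike.coe_smul, symb_smul _ (good_cusp f)]
  simp

lemma perJ_zsmul (a : ℤ) (f : CuspForm (Gamma0 p) 2) : perJ (a • f) = a • perJ f := by
  have h : (a • f) = (a : ℂ) • f := by rw [Int.cast_smul_eq_zsmul]
  funext γ
  simp only [perJ, Pi.smul_apply]
  rw [h, FunLike.coe_smul, symb_smul _ (good_cusp f)]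
  simp

lemma ex_add {α A : Type*} [AddCommGroup A] (φ ψ : α → A) : ex (φ + ψ) = ex φ + ex ψ := by
  apply FreeAbelianGroup.lift_ext
  intro a
  simp [FreeAbelianGroup.lift_apply_of]

lemma ex_zsmul {α A : Type*} [AddCommGroup A] (a : ℤ) (φ : α → A) : ex (a • φ) = a • ex φ := by
  apply FreeAbelianGroup.lift_ext
  intro x
  rw [FreeAbelianGroup.lift_apply_of, AddMonoidHom.smul_apply, FreeAbelianGroup.lift_apply_of]
  rfl

/-- The property of being a lift of the formal Hecke operator. -/
structure IsTau (P : HeckeAlg) (τ : FreeAbelianGroup (Gamma0 p) →+ FreeAbelianGroup (Gamma0 p)) :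
    Prop where
  hper : ∀ f, (ex (per f)).comp τ = ex (per (act P f))
  hperJ : ∀ f, (ex (perJ f)).comp τ = ex (perJ (act P f))
  hsh : (ex (fun γ => sh p (Additive.ofMul γ))).comp τ =
    eps p P • ex (fun γ => sh p (Additive.ofMul γ))

lemma act_X_of_not_dvd {ℓ : Nat.Primes} (h : ¬ (ℓ : ℕ) ∣ p) (f : CuspForm (Gamma0 p) 2) :
    ⇑(act (heckeGen ℓ) f) = heckeT 2 ℓ ⇑f := by
  rw [act, CuspForm.heckeEvalForms_heckeGen_of_not_dvd h, CuspForm.heckeAlgebra.coe_T,
    CuspForm.coe_heckeTLin_apply]

lemma act_X_of_dvd {ℓ : Nat.Primes} (h : (ℓ : ℕ) ∣ p) (f : CuspForm (Gamma0 p) 2) :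
    ⇑(act (heckeGen ℓ) f) = heckeU 2 ℓ ⇑f := by
  rw [act, CuspForm.heckeEvalForms_heckeGen_of_dvd h, CuspForm.heckeAlgebra.coe_U,
    CuspForm.coe_heckeULin_apply]

lemma exists_tau_X (ℓ : Nat.Primes) :
    ∃ τ : FreeAbelianGroup (Gamma0 p) →+ FreeAbelianGroup (Gamma0 p), IsTau (heckeGen ℓ) τ := by
  by_cases h : (ℓ : ℕ) ∣ p
  · have hℓ : (ℓ : ℕ) = p := (Nat.prime_dvd_prime_iff_eq ℓ.2 hp.out).mp h
    choose g hg hsh using fun γ : Gamma0 p => exists_tau_U (p := p) γ
    refine ⟨ex (fun γ => ∑ x, FreeAbelianGroup.of (g γ x)), ⟨fun f => ?_, fun f => ?_, ?_⟩⟩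
    · apply FreeAbelianGroup.lift_ext
      intro γ
      rw [AddMonoidHom.comp_apply, FreeAbelianGroup.lift_apply_of, map_sum,
        FreeAbelianGroup.lift_apply_of, per, act_X_of_dvd h, hℓ, (hg γ f).1,
        finsum_eq_sum_of_fintype]
      exact Finset.sum_congr rfl fun x _ => FreeAbelianGroup.lift_apply_of _ _
    · apply FreeAbelianGroup.lift_ext
      intro γ
      rw [AddMonoidHom.comp_apply, FreeAbelianGroup.lift_apply_of, map_sum,
        FreeAbelianGroup.lift_apply_of, perJ, act_X_of_dvd h, hℓ, (hg γ f).2,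
        finsum_eq_sum_of_fintype]
      exact Finset.sum_congr rfl fun x _ => FreeAbelianGroup.lift_apply_of _ _
    · apply FreeAbelianGroup.lift_ext
      intro γ
      rw [AddMonoidHom.comp_apply, FreeAbelianGroup.lift_apply_of, map_sum,
        AddMonoidHom.smul_apply, FreeAbelianGroup.lift_apply_of]
      have h1 : eps p (heckeGen ℓ) = 1 := by
        change MvPolynomial.aeval (eisensteinSystem p) (heckeGen ℓ) = 1
        rw [aeval_heckeGen, eisensteinSystem_of_dvd h]
      rw [h1, one_smul, ← hsh γ, finsum_eq_sum_of_fintype]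
      exact Finset.sum_congr rfl fun x _ => FreeAbelianGroup.lift_apply_of _ _
  · have : Fact (ℓ : ℕ).Prime := ⟨ℓ.2⟩
    choose g hg hsh using fun γ : Gamma0 p => exists_tau_T (p := p) ℓ.2 h γ
    refine ⟨ex (fun γ => ∑ x, FreeAbelianGroup.of (g γ x)), ⟨fun f => ?_, fun f => ?_, ?_⟩⟩
    · apply FreeAbelianGroup.lift_ext
      intro γ
      rw [AddMonoidHom.comp_apply, FreeAbelianGroup.lift_apply_of, map_sum,
        FreeAbelianGroup.lift_apply_of, per, act_X_of_not_dvd h, (hg γ f).1,
        finsum_eq_sum_of_fintype]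
      exact Finset.sum_congr rfl fun x _ => FreeAbelianGroup.lift_apply_of _ _
    · apply FreeAbelianGroup.lift_ext
      intro γ
      rw [AddMonoidHom.comp_apply, FreeAbelianGroup.lift_apply_of, map_sum,
        FreeAbelianGroup.lift_apply_of, perJ, act_X_of_not_dvd h, (hg γ f).2,
        finsum_eq_sum_of_fintype]
      exact Finset.sum_congr rfl fun x _ => FreeAbelianGroup.lift_apply_of _ _
    · apply FreeAbelianGroup.lift_ext
      intro γ
      rw [AddMonoidHom.comp_apply, FreeAbelianGroup.lift_apply_of, map_sum,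
        AddMonoidHom.smul_apply, FreeAbelianGroup.lift_apply_of]
      have h1 : eps p (heckeGen ℓ) = 1 + (ℓ : ℕ) := by
        change MvPolynomial.aeval (eisensteinSystem p) (heckeGen ℓ) = 1 + ((ℓ : ℕ) : ℤ)
        rw [aeval_heckeGen, eisensteinSystem_of_not_dvd h]
      rw [h1, ← hsh γ, finsum_eq_sum_of_fintype]
      exact Finset.sum_congr rfl fun x _ => FreeAbelianGroup.lift_apply_of _ _

lemma act_mul (P Q : HeckeAlg) (f : CuspForm (Gamma0 p) 2) : act (P * Q) f = act P (act Q f) := by
  rw [act, map_mul]; rfl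

lemma act_add (P Q : HeckeAlg) (f : CuspForm (Gamma0 p) 2) : act (P + Q) f = act P f + act Q f := by
  rw [act, map_add]; rfl

lemma act_C (a : ℤ) (f : CuspForm (Gamma0 p) 2) : act (MvPolynomial.C a) f = a • f := by
  rw [act, CuspForm.heckeEvalForms_C]
  change (algebraMap ℤ (Module.End ℂ (CuspForm (Gamma0 p) 2)) a) f = a • f
  simp

/-- lifts of all formal Hecke operators -/
theorem exists_tau (P : HeckeAlg) :
    ∃ τ : FreeAbelianGroup (Gamma0 p) →+ FreeAbelianGroup (Gamma0 p), IsTau P τ := by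
  induction P using MvPolynomial.induction_on with
  | C a =>
    refine ⟨a • AddMonoidHom.id _, ⟨fun f => ?_, fun f => ?_, ?_⟩⟩
    · rw [act_C, per_zsmul, ex_zsmul]
      ext x
      rw [AddMonoidHom.comp_apply, AddMonoidHom.smul_apply, AddMonoidHom.smul_apply,
        AddMonoidHom.id_apply, map_zsmul]
    · rw [act_C, perJ_zsmul, ex_zsmul]
      ext x
      rw [AddMonoidHom.comp_apply, AddMonoidHom.smul_apply, AddMonoidHom.smul_apply,
        AddMonoidHom.id_apply, map_zsmul]
    · have : eps p (MvPolynomial.C a) = a := by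
        change MvPolynomial.aeval (eisensteinSystem p) (MvPolynomial.C a) = a
        rw [MvPolynomial.aeval_C]
        rfl
      rw [this]
      ext x
      rw [AddMonoidHom.comp_apply, AddMonoidHom.smul_apply, AddMonoidHom.smul_apply,
        AddMonoidHom.id_apply, map_zsmul]
  | add P Q hP hQ =>
    obtain ⟨τ, h1, h2, h3⟩ := hP
    obtain ⟨τ', h1', h2', h3'⟩ := hQ
    refine ⟨τ + τ', ⟨fun f => ?_, fun f => ?_, ?_⟩⟩
    · rw [AddMonoidHom.comp_add, h1, h1', act_add, per_add, ex_add]
    · rw [AddMonoidHom.comp_add, h2, h2', act_add, perJ_add, ex_add]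
    · rw [AddMonoidHom.comp_add, h3, h3', map_add, add_smul]
  | mul_X P ℓ hP =>
    obtain ⟨τ, h1, h2, h3⟩ := hP
    obtain ⟨τ', h1', h2', h3'⟩ := exists_tau_X (p := p) ℓ
    refine ⟨τ'.comp τ, ⟨fun f => ?_, fun f => ?_, ?_⟩⟩
    · rw [← AddMonoidHom.comp_assoc, h1', h1, act_mul]; rfl
    · rw [← AddMonoidHom.comp_assoc, h2', h2, act_mul]; rfl
    · rw [← AddMonoidHom.comp_assoc, h3', map_mul, mul_comm, mul_smul, ← h3]
      rfl

/-- **The lower bound**: if `P` acts as zero on cusp forms then the Eisenstein numerator divides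
`ε(P)`. -/
theorem dvd_eps (P : HeckeAlg) (hP : CuspForm.heckeEvalForms p 2 P = 0) :
    (eisensteinNumerator p : ℤ) ∣ eps p P := by
  obtain ⟨τ, h1, h2, h3⟩ := exists_tau (p := p) P
  have hneg : (-1 : SL(2, ℤ)) ∈ Gamma0 p := by
    rw [Gamma0_mem]; simp
  obtain ⟨ψ, hψ, hlift⟩ := SL2Pres.exists_lift_hom (Γ := Gamma0 p) hneg
    (Int.castAddHom (ZMod (eisensteinNumerator p)))
    (ZMod.intCast_surjective) (sh p) (fun γ hγ => sh_eq_zero γ hγ)
  have hpar : (Int.castAddHom ℂ).comp ψ ∈ parabolicHoms ℂ (Gamma0 p) ℂ := by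
    rw [mem_parabolicHoms_iff]
    intro γ hγ
    change (Int.castAddHom ℂ) (ψ (Additive.ofMul γ)) = 0
    rw [hψ γ hγ.le, map_zero]
  rw [← (S21.result p).2] at hpar
  obtain ⟨⟨f, g⟩, hfg⟩ := hpar
  rw [periodHomPair_apply] at hfg
  have hact : ∀ f : CuspForm (Gamma0 p) 2, act P f = 0 := by
    intro f
    rw [act, hP]; rfl
  have hzero : ∀ x, ex (fun γ : Gamma0 p => ψ (Additive.ofMul γ)) (τ x) = 0 := by
    intro x
    have e1 : (Int.castAddHom ℂ).comp (ex (fun γ : Gamma0 p => ψ (Additive.ofMul γ))) =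
        ex (per f) + ex (perJ f) + (ex (per g) - ex (perJ g)) := by
      apply FreeAbelianGroup.lift_ext
      intro γ
      have h4 := DFunLike.congr_fun hfg (Additive.ofMul γ)
      simp only [AddMonoidHom.add_apply, AddMonoidHom.sub_apply, AddMonoidHom.comp_apply,
        FreeAbelianGroup.lift_apply_of]
      rw [AddMonoidHom.comp_apply] at h4
      rw [← h4]
      rw [AddMonoidHom.add_apply, AddMonoidHom.add_apply, AddMonoidHom.sub_apply,
        periodLin_apply, periodLin_apply]
      have e2 : ∀ f : CuspForm (Gamma0 p) 2,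
          charInvolution p ℂ ℂ (periodLin p f) (Additive.ofMul γ) = perJ f γ := by
        intro f
        change periodLin p f (Additive.ofMul (jConjGamma0 p γ)) = _
        rw [periodLin_apply]
        rfl
      rw [e2, e2]
      rfl
    have e3 := DFunLike.congr_fun e1 (τ x)
    have e4 : (ex (per f) + ex (perJ f) + (ex (per g) - ex (perJ g))) (τ x) = 0 := by
      have z1 : ∀ f : CuspForm (Gamma0 p) 2, ex (per f) (τ x) = 0 := by
        intro f
        have := DFunLike.congr_fun (h1 f) x
        rw [AddMonoidHom.comp_apply] at this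
        rw [this, hact]
        have h0 : per (0 : CuspForm (Gamma0 p) 2) = (0 : ℤ) • per 0 := by
          rw [← per_zsmul, zero_smul]
        rw [h0, zero_smul]
        have : ex (0 : Gamma0 p → ℂ) = 0 := by
          apply FreeAbelianGroup.lift_ext
          intro γ
          rw [FreeAbelianGroup.lift_apply_of]; rfl
        rw [this]; rfl
      have z2 : ∀ f : CuspForm (Gamma0 p) 2, ex (perJ f) (τ x) = 0 := by
        intro f
        have := DFunLike.congr_fun (h2 f) x
        rw [AddMonoidHom.comp_apply] at this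
        rw [this, hact]
        have h0 : perJ (0 : CuspForm (Gamma0 p) 2) = (0 : ℤ) • perJ 0 := by
          rw [← perJ_zsmul, zero_smul]
        rw [h0, zero_smul]
        have : ex (0 : Gamma0 p → ℂ) = 0 := by
          apply FreeAbelianGroup.lift_ext
          intro γ
          rw [FreeAbelianGroup.lift_apply_of]; rfl
        rw [this]; rfl
      rw [AddMonoidHom.add_apply, AddMonoidHom.add_apply, AddMonoidHom.sub_apply, z1, z2, z1, z2]
      simp
    rw [e4] at e3
    rw [AddMonoidHom.comp_apply] at e3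
    have e5 : ((ex (fun γ : Gamma0 p => ψ (Additive.ofMul γ)) (τ x) : ℤ) : ℂ) = 0 := e3
    exact_mod_cast e5
  have hsh0 : ∀ x, ex (fun γ : Gamma0 p => sh p (Additive.ofMul γ)) (τ x) = 0 := by
    intro x
    have e1 : ex (fun γ : Gamma0 p => sh p (Additive.ofMul γ)) =
        (Int.castAddHom (ZMod (eisensteinNumerator p))).comp
          (ex (fun γ : Gamma0 p => ψ (Additive.ofMul γ))) := by
      apply FreeAbelianGroup.lift_ext
      intro γ
      rw [AddMonoidHom.comp_apply, FreeAbelianGroup.lift_apply_of, FreeAbelianGroup.lift_apply_of,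
        hlift]
    rw [e1, AddMonoidHom.comp_apply, hzero, map_zero]
  obtain ⟨γ, hγ⟩ := sh_surjective (p := p) 1
  have h4 := DFunLike.congr_fun h3 (FreeAbelianGroup.of (Additive.toMul γ))
  rw [AddMonoidHom.comp_apply, hsh0, AddMonoidHom.smul_apply, FreeAbelianGroup.lift_apply_of] at h4
  rw [ofMul_toMul, hγ, zsmul_one] at h4
  exact (ZMod.intCast_zmod_eq_zero_iff_dvd _ _).mp h4.symm

end Fermat.Agent.EisIdeal
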