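import Fermat.Agent.EisIdeal.CaseG

/-!
# Non-existence of weight two forms congruent to a constant
-/

set_option autoImplicit false
set_option linter.unusedSectionVars false
set_option linter.style.haveILetI false
set_option linter.unusedSimpArgs false

open UpperHalfPlane ModularForm MatrixGroups Matrix.SpecialLinearGroup Filter Function ModularGroup
open scoped Manifold Topology Real Derivative ArithmeticFunction.sigma

noncomputable section

namespace Fermat.Agent.EisIdeal

open DimS2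

variable {p : ℕ}

lemma rel_of_form [hp : Fact p.Prime] {F : Cos p → ℍ → ℂ} (hF : F ∈ VM (Cos p) 2) {c : ℤ}
    (hc : c ≠ 0) {G : PowerSeries ℤ} (hG0 : G.coeff 0 = 0)
    (h : qExpansion 1 (F (xinf p)) = toC (1 + PowerSeries.C c * G)) : Rel p c G := by
  have hpp := hp.out
  have hcoef : ∀ n, ai n F = ((1 + PowerSeries.C c * G).coeff n : ℂ) := fun n => by
    rw [ai, h, coeff_toC]
  have hsq : ∀ n, G.coeff (p * (p * n)) = G.coeff n := by
    intro n
    rcases Nat.eq_zero_or_pos n with rfl | hn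
    · simp
    have h1 := ai_mul_sq hF n
    rw [hcoef, hcoef] at h1
    have h2 : (1 + PowerSeries.C c * G).coeff (p * (p * n)) = (1 + PowerSeries.C c * G).coeff n := by
      exact_mod_cast h1
    have hpn : p * (p * n) ≠ 0 :=
      Nat.mul_ne_zero hpp.ne_zero (Nat.mul_ne_zero hpp.ne_zero hn.ne')
    rw [map_add, map_add, PowerSeries.coeff_one, PowerSeries.coeff_one, if_neg hpn, if_neg hn.ne',
      PowerSeries.coeff_C_mul, PowerSeries.coeff_C_mul, zero_add, zero_add] at h2
    exact mul_left_cancel₀ hc h2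
  refine ⟨hG0, hsq, fun n => ?_⟩
  have hst := star hF n
  have hup : ∀ f : PowerSeries ℤ, up p (toC f) = toC (up p f) := fun f => by
    ext n; rw [coeff_up, coeff_toC, coeff_toC, coeff_up]
  have hpow : ∀ f : PowerSeries ℤ, (toC f) ^ 2 = toC (f ^ 2) := fun f => (map_pow _ _ _).symm
  rw [h, hup, hpow, hpow, hup, coeff_toC, coeff_toC, coeff_toC] at hst
  have h0 : (1 + PowerSeries.C c * G).coeff 0 = 1 := by
    rw [map_add, PowerSeries.coeff_C_mul, hG0]; simp
  rw [h0] at hst
  have hst' : (p : ℤ) * ((1 + PowerSeries.C c * G) ^ 2).coeff n +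
      (up p ((up p (1 + PowerSeries.C c * G)) ^ 2)).coeff n = ((p : ℤ) + 1) * e4Z.coeff n := by
    have : (((p : ℤ) * ((1 + PowerSeries.C c * G) ^ 2).coeff n +
      (up p ((up p (1 + PowerSeries.C c * G)) ^ 2)).coeff n : ℤ) : ℂ) =
        ((((p : ℤ) + 1) * e4Z.coeff n : ℤ) : ℂ) := by
      push_cast
      push_cast at hst
      rw [hst]
      ring
    exact_mod_cast this
  have e1 : (1 + PowerSeries.C c * G) ^ 2 = 1 + PowerSeries.C (2 * c) * G +
      PowerSeries.C (c ^ 2) * G ^ 2 := by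
    rw [map_mul, map_pow]
    have : (PowerSeries.C (2 : ℤ) : PowerSeries ℤ) = 2 := rfl
    rw [this]; ring
  have e2 : up p ((up p (1 + PowerSeries.C c * G)) ^ 2) = 1 + PowerSeries.C (2 * c) * up p (up p G) +
      PowerSeries.C (c ^ 2) * up p ((up p G) ^ 2) := by
    rw [up_add, up_one hpp.ne_zero, up_C_mul]
    have : (1 + PowerSeries.C c * up p G) ^ 2 = 1 + PowerSeries.C (2 * c) * up p G +
      PowerSeries.C (c ^ 2) * (up p G) ^ 2 := by
      rw [map_mul, map_pow]
      have : (PowerSeries.C (2 : ℤ) : PowerSeries ℤ) = 2 := rfl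
      rw [this]; ring
    rw [this, up_add, up_add, up_one hpp.ne_zero, up_C_mul, up_C_mul]
  have e3 : e4Z = 1 + PowerSeries.C 240 * sg 3 := rfl
  rw [e1, e2, e3] at hst'
  simp only [map_add, PowerSeries.coeff_C_mul, coeff_sg] at hst'
  have e4 : (up p (up p G)).coeff n = G.coeff n := by rw [coeff_up, coeff_up, hsq]
  rw [e4] at hst'
  simp only [Sq, map_add, PowerSeries.coeff_C_mul]
  linear_combination hst'

theorem no_form [hp : Fact p.Prime] (hp7 : 7 ≤ p) {F : Cos p → ℍ → ℂ} (hF : F ∈ VM (Cos p) 2)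
    {ℓ : ℕ} (hℓ : ℓ.Prime) {c : ℕ} (hc : c * Nat.gcd (p - 1) 12 = 24 * ℓ) {G : PowerSeries ℤ}
    (hG0 : G.coeff 0 = 0) (h : qExpansion 1 (F (xinf p)) = toC (1 + PowerSeries.C (c : ℤ) * G)) :
    False := by
  have hpp := hp.out
  set r := Nat.gcd (p - 1) 12 with hr
  have hr12 : r ∣ 12 := Nat.gcd_dvd_right _ _
  have hrp : r ∣ p - 1 := Nat.gcd_dvd_left _ _
  have hc0 : (c : ℤ) ≠ 0 := by
    intro h0
    have : c = 0 := by exact_mod_cast h0
    rw [this, zero_mul] at hc
    have := hℓ.pos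
    omega
  have hrel := rel_of_form hF hc0 hG0 h
  have hodd : p % 2 = 1 := by
    rcases hpp.eq_two_or_odd with h2 | h2
    · omega
    · exact h2
  have hp3 : p % 3 = 1 ∨ p % 3 = 2 := by
    have : p % 3 ≠ 0 := by
      intro h3
      have := (Nat.prime_dvd_prime_iff_eq Nat.prime_three hpp).mp (Nat.dvd_of_mod_eq_zero h3)
      omega
    omega
  obtain ⟨u, hu⟩ := hr12
  have hrpos : 0 < r := Nat.pos_of_ne_zero (by rintro h0; rw [h0] at hu; omega)
  have hcu : c = 2 * u * ℓ := by
    have : c * r = (2 * u * ℓ) * r := by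
      rw [hc]
      calc 24 * ℓ = 2 * 12 * ℓ := by ring
        _ = 2 * (r * u) * ℓ := by rw [hu]
        _ = _ := by ring
    exact Nat.eq_of_mul_eq_mul_right hrpos this
  have hscale : ∀ (s d : ℤ), (c : ℤ) = s * d → Rel p s (PowerSeries.C d * G) := fun s d hsd => by
    rw [hsd] at hrel
    exact hrel.scale
  rcases (show ℓ = 2 ∨ ℓ = 3 ∨ ℓ = 5 ∨ 7 ≤ ℓ by
    have h2 := hℓ.two_le
    by_contra hcon
    push Not at hcon
    obtain ⟨n2, n3, n5, n7⟩ := hcon
    have h46 : ℓ = 4 ∨ ℓ = 6 := by omega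
    rcases h46 with rfl | rfl <;> revert hℓ <;> norm_num) with rfl | rfl | rfl | h7
  · -- ℓ = 2
    rcases (show p % 4 = 1 ∨ p % 8 = 3 ∨ p % 8 = 7 by omega) with h4 | h8 | h8
    · exact (hscale 4 u (by rw [hcu]; push_cast; ring)).caseE hpp h4
    · -- `2 ∣ u`
      have hu2 : 2 ∣ u := by
        by_contra hnu
        have h4r : 4 ∣ r := by
          have h412 : 4 ∣ r * u := ⟨3, by omega⟩
          have hcop : Nat.Coprime 4 u := by
            have : Nat.Coprime 2 u := (Nat.Prime.coprime_iff_not_dvd Nat.prime_two).mpr hnu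
            exact Nat.Coprime.pow_left 2 this
          exact hcop.dvd_of_dvd_mul_right h412
        have := h4r.trans hrp
        omega
      obtain ⟨w, rfl⟩ := hu2
      exact (hscale 8 w (by rw [hcu]; push_cast; ring)).caseF hpp h8
    · have hu2 : 2 ∣ u := by
        by_contra hnu
        have h4r : 4 ∣ r := by
          have h412 : 4 ∣ r * u := ⟨3, by omega⟩
          have hcop : Nat.Coprime 4 u := by
            have : Nat.Coprime 2 u := (Nat.Prime.coprime_iff_not_dvd Nat.prime_two).mpr hnu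
            exact Nat.Coprime.pow_left 2 this
          exact hcop.dvd_of_dvd_mul_right h412
        have := h4r.trans hrp
        omega
      obtain ⟨w, rfl⟩ := hu2
      exact caseG hF (s := 8) Nat.prime_two h ⟨w, by rw [hcu]; push_cast; ring⟩ (by omega)
        (Or.inl ⟨rfl, rfl⟩)
  · -- ℓ = 3
    rcases hp3 with h3 | h3
    · exact (hscale 3 (2 * u) (by rw [hcu]; push_cast; ring)).caseD hpp h3
    · have hu3 : 3 ∣ u := by
        have h3r : ¬ 3 ∣ r := by
          intro hd
          have := hd.trans hrp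
          omega
        have h312 : 3 ∣ r * u := ⟨4, by omega⟩
        exact ((Nat.Prime.coprime_iff_not_dvd Nat.prime_three).mpr h3r).dvd_of_dvd_mul_left h312
      obtain ⟨w, rfl⟩ := hu3
      have h9 := (hscale 9 (2 * w) (by rw [hcu]; push_cast; ring)).caseC (by omega)
      exact caseG hF (s := 9) Nat.prime_three h ⟨2 * w, by rw [hcu]; push_cast; ring⟩ h9
        (Or.inr (Or.inl ⟨rfl, rfl⟩))
  · -- ℓ = 5
    have h5 := (hscale 5 (2 * u) (by rw [hcu]; push_cast; ring)).caseB hpp (by omega)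
    exact caseG hF (s := 5) Nat.prime_five h ⟨2 * u, by rw [hcu]; push_cast; ring⟩ h5
        (Or.inr (Or.inr ⟨rfl, le_rfl⟩))
  · have h5 := (hscale ℓ (2 * u) (by rw [hcu]; push_cast; ring)).caseA hℓ h7
    exact caseG hF (s := ℓ) hℓ h ⟨2 * u, by rw [hcu]; push_cast; ring⟩ h5
        (Or.inr (Or.inr ⟨rfl, by omega⟩))

end Fermat.Agent.EisIdeal
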