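import Fermat.Agent.EisIdeal.Bracket

/-!
# The norm to level one and the Sturm bound modulo a place
-/

set_option autoImplicit false
set_option linter.unusedSectionVars false
set_option linter.style.haveILetI false
set_option linter.unusedSimpArgs false

open UpperHalfPlane ModularForm MatrixGroups Matrix.SpecialLinearGroup Filter Function ModularGroup
open scoped Manifold Topology Real Derivative

local notation "𝕢" => Function.Periodic.qParam

noncomputable section

namespace Fermat.Agent.EisIdeal

open DimS2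

section OrdEq

variable {Γ₀ : Type*} [LinearOrderedCommGroupWithZero Γ₀] (v : Valuation ℂ Γ₀)

/-- `f` is integral and has order exactly `m` modulo the maximal ideal -/
structure OrdEq (f : PowerSeries ℂ) (m : ℕ) : Prop where
  le : ∀ n, v (f.coeff n) ≤ 1
  lt : ∀ n < m, v (f.coeff n) < 1
  eq : v (f.coeff m) = 1

variable {v}

lemma OrdEq.one : OrdEq v 1 0 where
  le n := by
    rw [PowerSeries.coeff_one]
    split_ifs <;> simp
  lt n hn := absurd hn (Nat.not_lt_zero _)
  eq := by simp

lemma OrdEq.mul {f g : PowerSeries ℂ} {m m' : ℕ} (hf : OrdEq v f m) (hg : OrdEq v g m') :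
    OrdEq v (f * g) (m + m') where
  le n := by
    rw [PowerSeries.coeff_mul]
    refine Valuation.map_sum_le v fun x _ => ?_
    rw [map_mul]
    exact mul_le_one' (hf.le _) (hg.le _)
  lt n hn := by
    rw [PowerSeries.coeff_mul]
    refine Valuation.map_sum_lt v one_ne_zero fun x hx => ?_
    rw [map_mul]
    have hx := Finset.HasAntidiagonal.mem_antidiagonal.mp hx
    by_cases h : x.1 < m
    · exact (mul_le_of_le_one_right' (hg.le _)).trans_lt (hf.lt _ h)
    · exact (mul_le_of_le_one_left' (hf.le _)).trans_lt (hg.lt _ (by omega))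
  eq := by
    rw [PowerSeries.coeff_mul]
    have hmem : (m, m') ∈ Finset.HasAntidiagonal.antidiagonal (m + m') :=
      Finset.HasAntidiagonal.mem_antidiagonal.mpr rfl
    rw [← Finset.add_sum_erase _ _ hmem]
    have h1 : v (f.coeff m * g.coeff m') = 1 := by rw [map_mul, hf.eq, hg.eq, one_mul]
    have h2 : v (∑ x ∈ (Finset.HasAntidiagonal.antidiagonal (m + m')).erase (m, m'),
        f.coeff x.1 * g.coeff x.2) < 1 := by
      refine Valuation.map_sum_lt v one_ne_zero fun x hx => ?_
      have hx1 := Finset.HasAntidiagonal.mem_antidiagonal.mp (Finset.mem_of_mem_erase hx)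
      have hx2 := Finset.ne_of_mem_erase hx
      rw [map_mul]
      by_cases h : x.1 < m
      · exact (mul_le_of_le_one_right' (hg.le _)).trans_lt (hf.lt _ h)
      · refine (mul_le_of_le_one_left' (hf.le _)).trans_lt (hg.lt _ ?_)
        have : x.1 ≠ m := by
          intro h'
          exact hx2 (Prod.ext h' (by simp only; omega))
        omega
    rw [← h1] at h2
    exact (Valuation.map_add_eq_of_lt_left v h2).trans h1

lemma OrdEq.prod {ι : Type*} (s : Finset ι) {f : ι → PowerSeries ℂ} {m : ι → ℕ}
    (hf : ∀ i ∈ s, OrdEq v (f i) (m i)) : OrdEq v (∏ i ∈ s, f i) (∑ i ∈ s, m i) := by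
  classical
  induction s using Finset.induction_on with
  | empty => simpa using OrdEq.one
  | insert i s hi ih =>
    rw [Finset.prod_insert hi, Finset.sum_insert hi]
    exact (hf i (Finset.mem_insert_self _ _)).mul
      (ih fun j hj => hf j (Finset.mem_insert_of_mem hj))

lemma OrdEq.pow {f : PowerSeries ℂ} {m : ℕ} (hf : OrdEq v f m) (n : ℕ) :
    OrdEq v (f ^ n) (n * m) := by
  have := OrdEq.prod (v := v) (Finset.range n) (f := fun _ => f) (m := fun _ => m) fun _ _ => hf
  simpa using this

lemma OrdEq.twist {f g : PowerSeries ℂ} {m : ℕ} (hf : OrdEq v f m) (z : ℕ → ℂ)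
    (hz : ∀ n, v (z n) = 1) (hg : ∀ n, g.coeff n = z n * f.coeff n) : OrdEq v g m where
  le n := by rw [hg, map_mul, hz, one_mul]; exact hf.le n
  lt n hn := by rw [hg, map_mul, hz, one_mul]; exact hf.lt n hn
  eq := by rw [hg, map_mul, hz, one_mul]; exact hf.eq

lemma v_root {z : ℂ} {n : ℕ} (hn : n ≠ 0) (h : z ^ n = 1) : v z = 1 := by
  have := congrArg v h
  rw [map_pow, map_one] at this
  exact (pow_eq_one_iff_of_nonneg zero_le hn).mp this

/-- elements of valuation `< 1` -/
def ltSub (v : Valuation ℂ Γ₀) : AddSubgroup ℂ where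
  carrier := {x | v x < 1}
  add_mem' := fun ha hb => Valuation.map_add_lt v ha hb
  zero_mem' := by simp
  neg_mem' := fun {x} hx => by
    show v (-x) < 1
    rw [Valuation.map_neg]
    exact hx

end OrdEq

/-- the norm to level one -/
def nmL {X : Type} [Fintype X] (F : X → ℍ → ℂ) : ℍ → ℂ := ∏ x, F x

lemma mdiff_prod {ι : Type*} (s : Finset ι) {f : ι → ℍ → ℂ} (hf : ∀ i ∈ s, MDiff (f i)) :
    MDiff (∏ i ∈ s, f i) := by
  classical
  induction s using Finset.induction_on with
  | empty => simpa using! mdifferentiable_const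
  | insert i s hi ih =>
    rw [Finset.prod_insert hi]
    exact (hf i (Finset.mem_insert_self _ _)).mul (ih fun j hj => hf j (Finset.mem_insert_of_mem hj))

lemma per_prod {h : ℝ} {ι : Type*} (s : Finset ι) {f : ι → ℍ → ℂ} (hf : ∀ i ∈ s, Per h (f i)) :
    Per h (∏ i ∈ s, f i) := by
  classical
  induction s using Finset.induction_on with
  | empty => simpa using per_one
  | insert i s hi ih =>
    rw [Finset.prod_insert hi]
    exact (hf i (Finset.mem_insert_self _ _)).mul (ih fun j hj => hf j (Finset.mem_insert_of_mem hj))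

lemma qExpansion_prod {h : ℝ} (hh : 0 < h) {ι : Type*} (s : Finset ι) {f : ι → ℍ → ℂ}
    (hf : ∀ i ∈ s, Per h (f i)) :
    qExpansion h (∏ i ∈ s, f i) = ∏ i ∈ s, qExpansion h (f i) := by
  classical
  induction s using Finset.induction_on with
  | empty => simpa using qExpansion_one h
  | insert i s hi ih =>
    rw [Finset.prod_insert hi, Finset.prod_insert hi,
      Per.qExpansion_mul' hh (hf i (Finset.mem_insert_self _ _))
        (per_prod s fun j hj => hf j (Finset.mem_insert_of_mem hj)),
      ih fun j hj => hf j (Finset.mem_insert_of_mem hj)]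

lemma bdd_prod {ι : Type*} (s : Finset ι) {f : ι → ℍ → ℂ} (hf : ∀ i ∈ s, IsBoundedAtImInfty (f i)) :
    IsBoundedAtImInfty (∏ i ∈ s, f i) := by
  classical
  induction s using Finset.induction_on with
  | empty => simpa using isL1_one.bdd
  | insert i s hi ih =>
    rw [Finset.prod_insert hi]
    exact (hf i (Finset.mem_insert_self _ _)).mul (ih fun j hj => hf j (Finset.mem_insert_of_mem hj))

lemma nmL_isL1 {X : Type} [MulAction SL(2,ℤ) X] [Fintype X] {k : ℤ} {F : X → ℍ → ℂ}
    (hF : F ∈ VM X k) : IsL1 (k * Fintype.card X) (nmL F) := by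
  refine isL1_of_apply (fun γ z => ?_) (mdiff_prod _ fun x _ => VM.holo hF x)
    (bdd_prod _ fun x _ => VM.bdd hF x)
  unfold nmL
  rw [Finset.prod_apply, ← Equiv.prod_comp (MulAction.toPerm γ)]
  simp only [MulAction.toPerm_apply, Finset.prod_apply]
  simp_rw [VM.apply_smul hF]
  rw [Finset.prod_mul_distrib, Finset.prod_const, Finset.card_univ, ← zpow_natCast, ← zpow_mul]

variable {p : ℕ}

lemma card_cos [hp : Fact p.Prime] [Fintype (Cos p)] : Fintype.card (Cos p) = p + 1 := by
  rw [← Nat.card_eq_fintype_card, ← Nat.card_eq_of_bijective _ (cosMap_bijective p)]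
  simp

/-- **The norm argument.** A form of weight `10` and level `Γ₀(p)` cannot have order exactly `1`
at `∞` and order exactly `p` (in `q^{1/p}`) at `0` modulo a place. -/
theorem norm_arg {Γ₀ : Type*} [LinearOrderedCommGroupWithZero Γ₀] (v : Valuation ℂ Γ₀)
    [hp : Fact p.Prime] {F : Cos p → ℍ → ℂ} (hF : F ∈ VM (Cos p) 10)
    (h1 : OrdEq v (qExpansion 1 (F (xinf p))) 1)
    (h2 : OrdEq v (qExpansion p (F (xzero p))) p) : False := by
  classical
  have := Fintype.ofFinite (Cos p)
  have hp' : (0:ℝ) < p := by exact_mod_cast hp.out.pos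
  have hN := nmL_isL1 hF
  rw [card_cos] at hN
  -- the q-expansion of the norm
  have e1 : OrdEq v (qExpansion p (F (xinf p))) p := by
    have hc := coeff_period (VM.per_xinf hF) hp.out.pos
    refine ⟨fun n => ?_, fun n hn => ?_, ?_⟩
    · rw [hc]; split_ifs
      · exact h1.le _
      · simp
    · rw [hc]; split_ifs with h
      · refine h1.lt _ ?_
        exact (Nat.div_lt_iff_lt_mul hp.out.pos).mpr (by omega)
      · simp
    · rw [hc, if_pos dvd_rfl, Nat.div_self hp.out.pos]
      exact h1.eq
  have e2 : ∀ x : Cos p, OrdEq v (qExpansion p (F x)) p := by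
    intro x
    rcases xinf_or p x with rfl | ⟨j, rfl⟩
    · exact e1
    · refine h2.twist (fun n => (((zt p)⁻¹) ^ n) ^ j) (fun n => ?_) fun n => co_T_pow' hF n j _
      have hz : ((zt p)⁻¹) ^ p = 1 := by rw [inv_pow, zt_pow_self, inv_one]
      rw [map_pow, map_pow, v_root hp.out.ne_zero hz, one_pow, one_pow]
  have e3 : OrdEq v (qExpansion p (nmL F)) ((p + 1) * p) := by
    have hprod := OrdEq.prod (v := v) Finset.univ (f := fun x : Cos p => qExpansion p (F x))
      (m := fun _ => p) fun x _ => e2 x
    rw [nmL, qExpansion_prod hp' _ fun x _ => VM.perN (hTp p) hF x]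
    simpa [card_cos] using hprod
  have hNper : Per p (nmL F) := per_prod _ fun x _ => VM.perN (hTp p) hF x
  have e4 : OrdEq v (qExpansion p (nmL F ^ 6)) (6 * ((p + 1) * p)) := by
    rw [Per.qExpansion_pow' hp' hNper]
    exact e3.pow 6
  have hN6 : IsL1 (12 * ((5 * (p + 1) : ℕ) : ℤ)) (nmL F ^ 6) := by
    refine (hN.pow 6).congr_weight ?_
    push_cast; ring
  have hc := coeff_period hN6.per hp.out.pos
  have hs := sturm (ltSub v) (5 * (p + 1)) (nmL F ^ 6) hN6 (fun n hn => by
    have h3 := hc (p * n)
    rw [if_pos (dvd_mul_right _ _), Nat.mul_div_cancel_left _ hp.out.pos] at h3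
    change v ((qExpansion 1 (nmL F ^ 6)).coeff n) < 1
    rw [← h3]
    refine e4.lt _ ?_
    have := hp.out.pos
    nlinarith)
  have h3 := hc (p * (6 * (p + 1)))
  rw [if_pos (dvd_mul_right _ _), Nat.mul_div_cancel_left _ hp.out.pos] at h3
  have h4 : v ((qExpansion 1 (nmL F ^ 6)).coeff (6 * (p + 1))) < 1 := hs _
  rw [← h3] at h4
  have h5 := e4.eq
  rw [show 6 * ((p + 1) * p) = p * (6 * (p + 1)) by ring] at h5
  rw [h5] at h4
  exact lt_irrefl _ h4

end Fermat.Agent.EisIdeal
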