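import Fermat.Agent.SL2Pres.Lift
import Fermat.Agent.S21
import Fermat.Agent.EichlerShimura.SignLattice
import Fermat.Prelude.Def_CuspForm_HeckeEvalForms
import Fermat.Prelude.Def_ModularCurve_ModularUnit

/-!
# The lower bound for the index of the Eisenstein ideal (the Shimura homomorphism)
-/

set_option autoImplicit false

noncomputable section

namespace Fermat.Agent.EisIdeal

open UpperHalfPlane hiding I
open scoped MatrixGroups ModularForm Pointwise
open ModularCurve ModularCurve.Period CongruenceSubgroup ModularForm Module EichlerShimura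
open P2MW.S_ModularForm_heckeT_slash_eq_self_of_mem_Gamma0.ModularForm.HeckeSlashInvariance
open Matrix.SpecialLinearGroup

/-! ### the discrete logarithm -/

section Log

variable (p : ℕ) [hp : Fact p.Prime]

lemma eisNum_dvd_card : eisensteinNumerator p ∣ Nat.card (Additive (ZMod p)ˣ) := by
  have : Nat.card (Additive (ZMod p)ˣ) = Nat.card (ZMod p)ˣ := rfl
  rw [this, Nat.card_eq_fintype_card, ZMod.card_units]
  exact eisensteinNumerator_dvd p

/-- the cyclic group `(ℤ/p)ˣ` -/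
def cyc : Additive (ZMod p)ˣ ≃+ ZMod (Nat.card (Additive (ZMod p)ˣ)) :=
  (zmodAddCyclicAddEquiv (G := Additive (ZMod p)ˣ) inferInstance).symm

/-- the discrete logarithm modulo the Eisenstein numerator -/
def lg : Additive (ZMod p)ˣ →+ ZMod (eisensteinNumerator p) :=
  (ZMod.castHom (eisNum_dvd_card p) (ZMod (eisensteinNumerator p))).toAddMonoidHom.comp
    (cyc p).toAddMonoidHom

lemma lg_apply (u : Additive (ZMod p)ˣ) :
    lg p u = ZMod.castHom (eisNum_dvd_card p) (ZMod (eisensteinNumerator p)) (cyc p u) := rfl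

lemma lg_surjective : Function.Surjective (lg p) := by
  intro x
  obtain ⟨y, hy⟩ := ZMod.castHom_surjective (eisNum_dvd_card p) x
  refine ⟨(cyc p).symm y, ?_⟩
  rw [lg_apply, AddEquiv.apply_symm_apply, hy]

lemma lg_eq_zero {u : (ZMod p)ˣ} (hu : u ^ 12 = 1) : lg p (Additive.ofMul u) = 0 := by
  rw [lg_apply]
  set y := cyc p (Additive.ofMul u) with hy
  have hc' : Nat.card (Additive (ZMod p)ˣ) = p - 1 := by
    have : Nat.card (Additive (ZMod p)ˣ) = Nat.card (ZMod p)ˣ := rfl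
    rw [this, Nat.card_eq_fintype_card, ZMod.card_units]
  have hc0 : 0 < Nat.card (Additive (ZMod p)ˣ) := by
    rw [hc']; have := hp.out.one_lt; omega
  have : NeZero (Nat.card (Additive (ZMod p)ˣ)) := ⟨hc0.ne'⟩
  have h1 : 12 • y = 0 := by
    rw [hy, ← map_nsmul, ← ofMul_pow, hu, ofMul_one, map_zero]
  have h2 : ((12 * y.val : ℕ) : ZMod (Nat.card (Additive (ZMod p)ˣ))) = 0 := by
    push_cast
    rw [ZMod.natCast_zmod_val]
    rw [nsmul_eq_mul] at h1
    exact_mod_cast h1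
  rw [ZMod.natCast_eq_zero_iff] at h2
  have h3 : eisensteinNumerator p ∣ y.val := by
    rw [eisensteinNumerator, ← hc']
    have hg : 0 < Nat.gcd (Nat.card (Additive (ZMod p)ˣ)) 12 :=
      Nat.gcd_pos_of_pos_right _ (by norm_num)
    have h4 : Nat.card (Additive (ZMod p)ˣ) / Nat.gcd (Nat.card (Additive (ZMod p)ˣ)) 12 ∣
        (12 / Nat.gcd (Nat.card (Additive (ZMod p)ˣ)) 12) * y.val := by
      have h5 := Nat.div_dvd_div (Nat.gcd_dvd_left (Nat.card (Additive (ZMod p)ˣ)) 12) h2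
      rwa [Nat.mul_div_right_comm (Nat.gcd_dvd_right _ 12)] at h5
    exact (Nat.coprime_div_gcd_div_gcd hg).dvd_of_dvd_mul_left h4
  have h4 : y = ((y.val : ℕ) : ZMod (Nat.card (Additive (ZMod p)ˣ))) :=
    (ZMod.natCast_zmod_val y).symm
  rw [h4, map_natCast, ZMod.natCast_eq_zero_iff]
  exact h3

end Log

/-! ### the Shimura homomorphism -/

section Shimura

variable {p : ℕ} [hp : Fact p.Prime]

lemma dvd_of_mem_Gamma0 {N : ℕ} (γ : Gamma0 N) : (N : ℤ) ∣ (γ : SL(2, ℤ)) 1 0 :=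
  (ZMod.intCast_zmod_eq_zero_iff_dvd _ _).mp (Gamma0_mem.mp γ.2)

lemma mul_entry (g h : SL(2, ℤ)) (i j : Fin 2) : (g * h) i j = g i 0 * h 0 j + g i 1 * h 1 j := by
  rw [Matrix.SpecialLinearGroup.coe_mul, Matrix.mul_apply, Fin.sum_univ_two]

variable (p) in
/-- the diagonal character `Γ₀(p) → (ℤ/p)ˣ` -/
def chi : Gamma0 p →* (ZMod p)ˣ where
  toFun γ := ⟨((γ : SL(2, ℤ)) 0 0 : ℤ), ((γ : SL(2, ℤ)) 1 1 : ℤ),
    unit_of_apply_one_zero_eq_zero _ (Gamma0_mem.mp γ.2), by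
      rw [mul_comm]; exact unit_of_apply_one_zero_eq_zero _ (Gamma0_mem.mp γ.2)⟩
  map_one' := by ext; simp
  map_mul' γ δ := by
    ext
    change ((((γ : SL(2, ℤ)) * (δ : SL(2, ℤ))) 0 0 : ℤ) : ZMod p) = _
    rw [mul_entry]
    push_cast
    rw [Gamma0_mem.mp δ.2]
    simp

lemma chi_val (γ : Gamma0 p) : (chi p γ : ZMod p) = ((γ : SL(2, ℤ)) 0 0 : ℤ) := rfl

lemma chi_surjective : Function.Surjective (chi p) := by
  intro u
  have hcop : IsCoprime ((u : ZMod p).val : ℤ) (p : ℤ) := by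
    rw [Nat.isCoprime_iff_coprime]
    exact ZMod.val_coe_unit_coprime u
  obtain ⟨x, y, hxy⟩ := hcop
  let A : SL(2, ℤ) := ⟨!![((u : ZMod p).val : ℤ), -y; (p : ℤ), x], by
    rw [Matrix.det_fin_two_of]; linear_combination hxy⟩
  have e0 : A 0 0 = ((u : ZMod p).val : ℤ) := rfl
  have e1 : A 1 0 = (p : ℤ) := rfl
  refine ⟨⟨A, ?_⟩, ?_⟩
  · rw [Gamma0_mem, e1]
    simp
  · ext
    rw [chi_val]
    change ((A 0 0 : ℤ) : ZMod p) = _
    rw [e0]
    simp

variable (p) in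
/-- the Shimura homomorphism -/
def sh : Additive (Gamma0 p) →+ ZMod (eisensteinNumerator p) :=
  (lg p).comp (MonoidHom.toAdditive (chi p))

lemma sh_apply (γ : Gamma0 p) : sh p (Additive.ofMul γ) = lg p (Additive.ofMul (chi p γ)) := rfl

lemma sh_surjective : Function.Surjective (sh p) := by
  intro x
  obtain ⟨u, hu⟩ := lg_surjective p x
  obtain ⟨γ, hγ⟩ := chi_surjective (Additive.toMul u)
  refine ⟨Additive.ofMul γ, ?_⟩
  change lg p (Additive.ofMul (chi p γ)) = x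
  rw [hγ, ← hu]
  rfl

lemma sh_eq_zero (γ : Gamma0 p)
    (hγ : ((γ : SL(2, ℤ)) : Matrix (Fin 2) (Fin 2) ℤ).trace ^ 2 ≤ 4) :
    sh p (Additive.ofMul γ) = 0 := by
  change lg p (Additive.ofMul (chi p γ)) = 0
  apply lg_eq_zero
  ext
  rw [Units.val_pow_eq_pow_val, chi_val, Units.val_one]
  set a : ZMod p := (((γ : SL(2, ℤ)) 0 0 : ℤ) : ZMod p) with ha
  set d : ZMod p := (((γ : SL(2, ℤ)) 1 1 : ℤ) : ZMod p) with hd
  have had : a * d = 1 := unit_of_apply_one_zero_eq_zero _ (Gamma0_mem.mp γ.2)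
  set t := ((γ : SL(2, ℤ)) : Matrix (Fin 2) (Fin 2) ℤ).trace with ht
  have htad : a + d = (t : ZMod p) := by
    rw [ht, Matrix.trace_fin_two]
    push_cast
    rfl
  have h1 : t ≤ 2 := by nlinarith
  have h2 : -2 ≤ t := by nlinarith
  have hq : a ^ 2 = (t : ZMod p) * a - 1 := by
    rw [← htad]; linear_combination -had
  have htb : t = -2 ∨ t = -1 ∨ t = 0 ∨ t = 1 ∨ t = 2 := by omega
  rcases htb with h | h | h | h | h
  · rw [h] at hq
    have h3 : (a + 1) ^ 2 = 0 := by push_cast at hq; linear_combination hq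
    have h4 : a = -1 := by
      have := pow_eq_zero_iff (two_ne_zero) |>.mp h3
      linear_combination this
    rw [h4]; ring
  · rw [h] at hq
    have h3 : a ^ 3 = 1 := by push_cast at hq; linear_combination (a - 1) * hq
    calc a ^ 12 = (a ^ 3) ^ 4 := by ring
      _ = 1 := by rw [h3]; ring
  · rw [h] at hq
    have h3 : a ^ 2 = -1 := by push_cast at hq; linear_combination hq
    calc a ^ 12 = (a ^ 2) ^ 6 := by ring
      _ = 1 := by rw [h3]; ring
  · rw [h] at hq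
    have h3 : a ^ 3 = -1 := by push_cast at hq; linear_combination (a + 1) * hq
    calc a ^ 12 = (a ^ 3) ^ 4 := by ring
      _ = 1 := by rw [h3]; ring
  · rw [h] at hq
    have h3 : (a - 1) ^ 2 = 0 := by push_cast at hq; linear_combination hq
    have h4 : a = 1 := by
      have := pow_eq_zero_iff (two_ne_zero) |>.mp h3
      linear_combination this
    rw [h4]; ring

end Shimura

/-! ### Hecke operators on homomorphisms -/

section Hecke

variable {p : ℕ} [hp : Fact p.Prime]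

/-- weights of the representatives -/
def lam (ℓ : ℕ) (x : OnePoint (ZMod ℓ)) : ℕ := x.elim ℓ (fun _ => 1)

lemma lam_ne_zero {ℓ : ℕ} (hℓ : ℓ.Prime) (hℓp : ¬ ℓ ∣ p) (x : OnePoint (ZMod ℓ)) :
    ((lam ℓ x : ℕ) : ZMod p) ≠ 0 := by
  induction x using OnePoint.rec with
  | infty =>
    change ((ℓ : ℕ) : ZMod p) ≠ 0
    rw [Ne, ZMod.natCast_eq_zero_iff]
    intro h
    have := (Nat.prime_dvd_prime_iff_eq hp.out hℓ).mp h
    exact hℓp (this ▸ dvd_rfl)
  | coe x => change ((1 : ℕ) : ZMod p) ≠ 0; simp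

lemma entry_T {ℓ : ℕ} (hℓ : ℓ.Prime) {γ γ' : Gamma0 p} {x y : OnePoint (ZMod ℓ)}
    (h : heckeRep ℓ x * mapGL ℝ (γ : SL(2, ℤ)) = mapGL ℝ (γ' : SL(2, ℤ)) * heckeRep ℓ y) :
    (lam ℓ x : ZMod p) * chi p γ = chi p γ' * (lam ℓ y : ZMod p) := by
  have h0 := congrArg (fun A : GL (Fin 2) ℝ => A 0 0) h
  have hL : ∀ (A B : GL (Fin 2) ℝ), (A * B) 0 0 = A 0 0 * B 0 0 + A 0 1 * B 1 0 := by
    intro A B
    rw [Matrix.GeneralLinearGroup.coe_mul, Matrix.mul_apply, Fin.sum_univ_two]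
  simp only [hL, mapGL_apply] at h0
  have hx : ∀ x : OnePoint (ZMod ℓ), (heckeRep ℓ x) 0 0 = (lam ℓ x : ℝ) := by
    intro x
    induction x using OnePoint.rec with
    | infty => rw [heckeRep_infty]; simp [lam, hℓ.ne_zero]
    | coe x => rw [heckeRep_coe]; simp [lam, hℓ.ne_zero]
  have hy : ∀ x : OnePoint (ZMod ℓ), (heckeRep ℓ x) 1 0 = 0 := by
    intro x
    induction x using OnePoint.rec with
    | infty => rw [heckeRep_infty]; simp [hℓ.ne_zero]
    | coe x => rw [heckeRep_coe]; simp [hℓ.ne_zero]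
  have hz : ∀ x : OnePoint (ZMod ℓ), ∃ m : ℤ, (heckeRep ℓ x) 0 1 = m := by
    intro x
    induction x using OnePoint.rec with
    | infty => rw [heckeRep_infty]; exact ⟨0, by simp [hℓ.ne_zero]⟩
    | coe x =>
      rw [heckeRep_coe]
      refine ⟨x.val, ?_⟩
      rw [val_heckeMatrix hℓ.ne_zero]
      simp
  obtain ⟨m, hm⟩ := hz x
  rw [hx, hx, hy, hm, mul_zero, add_zero] at h0
  have h1 : (lam ℓ x : ℤ) * (γ : SL(2, ℤ)) 0 0 + m * (γ : SL(2, ℤ)) 1 0 =
      (γ' : SL(2, ℤ)) 0 0 * (lam ℓ y : ℤ) := by exact_mod_cast h0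
  have h2 := congrArg (Int.cast : ℤ → ZMod p) h1
  push_cast at h2
  rw [Gamma0_mem.mp γ.2, mul_zero, add_zero] at h2
  rw [chi_val, chi_val]
  exact h2

/-- Hecke operators away from the level: transfer for period functionals and for `chi`. -/
theorem exists_tau_T {ℓ : ℕ} (hℓ : ℓ.Prime) (hℓp : ¬ ℓ ∣ p) (γ : Gamma0 p) :
    ∃ γ' : OnePoint (ZMod ℓ) → Gamma0 p, (∀ f : CuspForm (Gamma0 p) 2,
      symb (γ : SL(2, ℤ)) (heckeT 2 ℓ ⇑f) = ∑ᶠ x, symb (γ' x : SL(2, ℤ)) ⇑f ∧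
      symb (jConjSL γ) (heckeT 2 ℓ ⇑f) = ∑ᶠ x, symb (jConjSL (γ' x)) ⇑f) ∧
      ∑ᶠ x, sh p (Additive.ofMul (γ' x)) = (1 + ℓ : ℤ) • sh p (Additive.ofMul γ) := by
  have : Fact ℓ.Prime := ⟨hℓ⟩
  have hN : (p : ℤ) ∣ (γ : SL(2, ℤ)) 1 0 := dvd_of_mem_Gamma0 γ
  choose g hg hmul using heckeRep_mul (p := ℓ) hℓp (γ : SL(2, ℤ)) hN
  refine ⟨fun x => ⟨g x, Gamma0_mem.mpr ((ZMod.intCast_zmod_eq_zero_iff_dvd _ _).mpr (hg x))⟩,
    fun f => ?_, ?_⟩
  · have hUT : ∀ x : OnePoint (ZMod ℓ), IsUT (heckeRep ℓ x) := by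
      intro x
      induction x using OnePoint.rec with
      | infty => exact isUT_heckeDiag hℓ.ne_zero
      | coe x => exact isUT_heckeMatrix hℓ.ne_zero x.val
    rw [finsum_eq_sum_of_fintype, finsum_eq_sum_of_fintype]
    constructor
    · rw [heckeT_eq_sum_onePoint]
      exact hecke_symb_of hUT hmul (good_cusp f)
    · have h1 : heckeT 2 ℓ ⇑f = ∑ x : OnePoint (ZMod ℓ), ⇑f ∣[(2 : ℤ)] (J * heckeRep ℓ x * J) := by
        rw [heckeT_eq_heckeU_add, heckeU_eq_sum_zmod, add_comm, ← sum_conj_heckeMatrix]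
        have := (Fintype.sum_option (fun x : OnePoint (ZMod ℓ) ↦ ⇑f ∣[(2 : ℤ)] (J * heckeRep ℓ x * J))).symm
        refine Eq.trans ?_ this
        congr 1
        change _ = ⇑f ∣[(2 : ℤ)] (J * heckeDiagMatrix ℓ * J)
        rw [J_heckeDiag_J hℓ.ne_zero]
      rw [h1]
      exact hecke_symb_conj hUT hmul (good_cusp f)
  · rw [finsum_eq_sum_of_fintype]
    let L : OnePoint (ZMod ℓ) → (ZMod p)ˣ := fun x => Units.mk0 _ (lam_ne_zero hℓ hℓp x)
    have key : ∀ x, chi p ⟨g x, Gamma0_mem.mpr ((ZMod.intCast_zmod_eq_zero_iff_dvd _ _).mpr (hg x))⟩ =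
        L x * chi p γ * (L (redMatrix ℓ (γ : SL(2, ℤ)) • x))⁻¹ := by
      intro x
      rw [eq_mul_inv_iff_mul_eq]
      ext
      rw [Units.val_mul, Units.val_mul]
      exact (entry_T hℓ (γ' := ⟨g x, Gamma0_mem.mpr ((ZMod.intCast_zmod_eq_zero_iff_dvd _ _).mpr (hg x))⟩)
        (hmul x)).symm
    have key2 : ∀ x, sh p (Additive.ofMul ⟨g x, Gamma0_mem.mpr
        ((ZMod.intCast_zmod_eq_zero_iff_dvd _ _).mpr (hg x))⟩) =
        lg p (Additive.ofMul (L x)) + sh p (Additive.ofMul γ) -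
          lg p (Additive.ofMul (L (redMatrix ℓ (γ : SL(2, ℤ)) • x))) := by
      intro x
      rw [sh_apply, key, ofMul_mul, ofMul_mul, map_add, map_add, ofMul_inv, map_neg, sub_eq_add_neg]
      rfl
    rw [Finset.sum_congr rfl fun x _ => key2 x, Finset.sum_sub_distrib, Finset.sum_add_distrib]
    have h1 : ∑ x, lg p (Additive.ofMul (L (redMatrix ℓ (γ : SL(2, ℤ)) • x))) =
        ∑ x, lg p (Additive.ofMul (L x)) :=
      Equiv.sum_comp (MulAction.toPerm (redMatrix ℓ (γ : SL(2, ℤ)))) (fun x => lg p (Additive.ofMul (L x)))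
    rw [h1, add_sub_cancel_left, Finset.sum_const, Finset.card_univ]
    have h2 : Fintype.card (OnePoint (ZMod ℓ)) = ℓ + 1 := by
      change Fintype.card (Option (ZMod ℓ)) = ℓ + 1
      rw [Fintype.card_option, ZMod.card]
    rw [h2, add_smul, add_smul, one_smul, one_smul, add_comm]
    simp

/-- Hecke operator at the level. -/
theorem exists_tau_U (γ : Gamma0 p) :
    ∃ γ' : ZMod p → Gamma0 p, (∀ f : CuspForm (Gamma0 p) 2,
      symb (γ : SL(2, ℤ)) (heckeU 2 p ⇑f) = ∑ᶠ x, symb (γ' x : SL(2, ℤ)) ⇑f ∧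
      symb (jConjSL γ) (heckeU 2 p ⇑f) = ∑ᶠ x, symb (jConjSL (γ' x)) ⇑f) ∧
      ∑ᶠ x, sh p (Additive.ofMul (γ' x)) = sh p (Additive.ofMul γ) := by
  have hN : (p : ℤ) ∣ (γ : SL(2, ℤ)) 1 0 := dvd_of_mem_Gamma0 γ
  have hp0 := hp.out.ne_zero
  have : NeZero p := ⟨hp0⟩
  choose g hg hmul using heckeMatrix_mul_of_dvd (p := p) (γ : SL(2, ℤ)) hN
  have hmem : ∀ x, g x ∈ Gamma0 p := fun x => by
    rw [Gamma0_mem, hg]; push_cast; rw [Gamma0_mem.mp γ.2, mul_zero]
  refine ⟨fun x => ⟨g x, hmem x⟩, fun f => ?_, ?_⟩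
  · have hUT : ∀ x : ZMod p, IsUT (heckeMatrix p x.val) := fun x =>
      isUT_heckeMatrix hp0 x.val
    rw [finsum_eq_sum_of_fintype, finsum_eq_sum_of_fintype]
    constructor
    · rw [heckeU_eq_sum_zmod]
      exact hecke_symb_of hUT hmul (good_cusp f)
    · rw [heckeU_eq_sum_zmod, ← sum_conj_heckeMatrix]
      exact hecke_symb_conj hUT hmul (good_cusp f)
  · rw [finsum_eq_sum_of_fintype]
    have key : ∀ x, chi p ⟨g x, hmem x⟩ = chi p γ := by
      intro x
      ext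
      have h := hmul x
      have h3 := entry_T hp.out (γ := γ) (γ' := ⟨g x, hmem x⟩) (x := (x : OnePoint (ZMod p)))
        (y := ((affinePerm (γ : SL(2, ℤ)) ((ZMod.intCast_zmod_eq_zero_iff_dvd _ _).mpr hN) x : ZMod p) :
          OnePoint (ZMod p))) h
      have e1 : ∀ z : ZMod p, lam p (z : OnePoint (ZMod p)) = 1 := fun _ => rfl
      rw [e1, e1] at h3
      simpa using h3.symm
    have key2 : ∀ x, sh p (Additive.ofMul ⟨g x, hmem x⟩) = sh p (Additive.ofMul γ) := by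
      intro x
      rw [sh_apply, key, sh_apply]
    rw [Finset.sum_congr rfl fun x _ => key2 x, Finset.sum_const, Finset.card_univ, ZMod.card]
    have h1 : ((p : ℕ) : ZMod (eisensteinNumerator p)) = 1 := by
      have h2 : ((p - 1 : ℕ) : ZMod (eisensteinNumerator p)) = 0 := by
        rw [ZMod.natCast_eq_zero_iff]
        exact eisensteinNumerator_dvd p
      have h3 : p = (p - 1) + 1 := by have := hp.out.one_lt; omega
      calc ((p : ℕ) : ZMod (eisensteinNumerator p)) = (((p - 1) + 1 : ℕ) : ZMod (eisensteinNumerator p)) := by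
            rw [← h3]
        _ = 1 := by rw [Nat.cast_add, h2, zero_add, Nat.cast_one]
    rw [nsmul_eq_mul, h1, one_mul]

end Hecke

end Fermat.Agent.EisIdeal
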