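import Fermat.Agent.EisIdeal.Norm

/-!
# The trace relation for the square of a weight two form
-/

set_option autoImplicit false
set_option linter.unusedSectionVars false
set_option linter.style.haveILetI false
set_option linter.unusedSimpArgs false

open UpperHalfPlane ModularForm MatrixGroups Matrix.SpecialLinearGroup Filter Function ModularGroup
open scoped Manifold Topology Real Derivative

local notation "𝕢" => Function.Periodic.qParam

noncomputable section

namespace Fermat.Agent.EisIdeal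

open DimS2

/-- the `U` operator on power series -/
def up {R : Type*} [CommRing R] (m : ℕ) (f : PowerSeries R) : PowerSeries R :=
  PowerSeries.mk fun n => f.coeff (m * n)

@[simp] lemma coeff_up {R : Type*} [CommRing R] (m : ℕ) (f : PowerSeries R) (n : ℕ) :
    (up m f).coeff n = f.coeff (m * n) := PowerSeries.coeff_mk _ _

variable {p : ℕ}

lemma qExp_xzero [hp : Fact p.Prime] {F : Cos p → ℍ → ℂ} (hF : F ∈ VM (Cos p) 2) :
    qExpansion p (F (xzero p)) = (-(p : ℂ)⁻¹) • up p (qExpansion 1 (F (xinf p))) := by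
  ext n
  have := bi_eq hF n
  rw [PowerSeries.coeff_smul, coeff_up, smul_eq_mul]
  rw [bi, ai] at this
  rw [this]
  ring

lemma isL1_four {f : ℍ → ℂ} (hf : IsL1 4 f) : ∃ c : ℂ, f = c • e4 := by
  have h := (finrank_eq_one_iff_of_nonzero' E₄ (EisensteinSeries.E_ne_zero _ ⟨2, rfl⟩)).mp
    (Module.rank_eq_one_iff_finrank_eq_one.mp levelOne_weight_four_rank_one) hf.toMF
  obtain ⟨c, hc⟩ := h
  refine ⟨c, ?_⟩
  have := congrArg DFunLike.coe hc
  exact this.symm

lemma coeff_zero_e4Z : e4Z.coeff 0 = 1 := by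
  have h3 : PowerSeries.constantCoeff (sg 3) = 0 := by
    rw [← PowerSeries.coeff_zero_eq_constantCoeff_apply]; simp
  rw [PowerSeries.coeff_zero_eq_constantCoeff_apply, e4Z]
  simp [h3]

theorem star [hp : Fact p.Prime] {F : Cos p → ℍ → ℂ} (hF : F ∈ VM (Cos p) 2) (n : ℕ) :
    (p : ℂ) * ((qExpansion 1 (F (xinf p))) ^ 2).coeff n +
      (up p ((up p (qExpansion 1 (F (xinf p)))) ^ 2)).coeff n =
      ((p : ℂ) + 1) * (qExpansion 1 (F (xinf p))).coeff 0 ^ 2 * (e4Z.coeff n : ℂ) := by
  have := Fintype.ofFinite (Cos p)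
  have hp' : (0:ℝ) < p := by exact_mod_cast hp.out.pos
  have hpc : (p : ℂ) ≠ 0 := by exact_mod_cast hp.out.ne_zero
  have hFF : F * F ∈ VM (Cos p) 4 := by
    have := mul_mem hF hF
    exact this
  obtain ⟨c, hc⟩ := isL1_four (trL_isL1 hFF)
  have h1 : ∀ n, (p : ℂ) * ((qExpansion 1 (F (xinf p))) ^ 2).coeff n +
      (up p ((up p (qExpansion 1 (F (xinf p)))) ^ 2)).coeff n = p * c * (e4Z.coeff n : ℂ) := by
    intro n
    have h2 := coeff_trL hFF n
    rw [hc, qExpansion_smul (e4_isL1.per.analyticAt one_pos), qExp_e4, PowerSeries.coeff_smul,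
      coeff_toC] at h2
    have h3 : ai n (F * F) = ((qExpansion 1 (F (xinf p))) ^ 2).coeff n := by
      rw [ai, Pi.mul_apply, Per.qExpansion_mul' one_pos (VM.per_xinf hF) (VM.per_xinf hF), sq]
    have h4 : bi (p * n) (F * F) = ((p : ℂ)⁻¹) ^ 2 *
        ((up p (qExpansion 1 (F (xinf p)))) ^ 2).coeff (p * n) := by
      rw [bi, Pi.mul_apply, Per.qExpansion_mul' hp' (VM.perN (hTp p) hF _)
        (VM.perN (hTp p) hF _), qExp_xzero hF]
      rw [smul_mul_smul_comm, PowerSeries.coeff_smul, smul_eq_mul, sq (up p _)]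
      ring
    rw [h3, h4, smul_eq_mul] at h2
    rw [coeff_up]
    have h5 : (p : ℂ) * (c * (e4Z.coeff n : ℂ)) = p * (((qExpansion 1 (F (xinf p))) ^ 2).coeff n +
      p * (((p : ℂ)⁻¹) ^ 2 * ((up p (qExpansion 1 (F (xinf p)))) ^ 2).coeff (p * n))) := by
      rw [h2]
    rw [mul_assoc, h5]
    field_simp
  have h0 := h1 0
  rw [coeff_zero_e4Z] at h0
  have h00 : ((qExpansion 1 (F (xinf p))) ^ 2).coeff 0 = (qExpansion 1 (F (xinf p))).coeff 0 ^ 2 := by
    rw [PowerSeries.coeff_zero_eq_constantCoeff_apply, map_pow,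
      PowerSeries.coeff_zero_eq_constantCoeff_apply]
  have h01 : (up p ((up p (qExpansion 1 (F (xinf p)))) ^ 2)).coeff 0 =
      (qExpansion 1 (F (xinf p))).coeff 0 ^ 2 := by
    rw [coeff_up, mul_zero, PowerSeries.coeff_zero_eq_constantCoeff_apply, map_pow,
      ← PowerSeries.coeff_zero_eq_constantCoeff_apply, coeff_up, mul_zero]
  rw [h00, h01, Int.cast_one, mul_one] at h0
  rw [h1 n, ← h0]
  ring

end Fermat.Agent.EisIdeal
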