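import Fermat.Agent.EisIdeal.Dual
import Fermat.Agent.EisIdeal.Estar
import Fermat.Agent.EisIdeal.NoForm
import Fermat.Agent.S23
import Fermat.Agent.S20
import Fermat.Prelude.Def_CuspForm_HeckeLocal

/-!
# The index of the Eisenstein ideal
-/

set_option autoImplicit false

noncomputable section

namespace Fermat.Agent.EisIdeal

open UpperHalfPlane hiding I
open CongruenceSubgroup ModularCurve CuspForm Module HeckeDual DimS2
open scoped ArithmeticFunction.sigma Manifold MatrixGroups ModularForm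

lemma quot_card {R T : Type*} [CommRing R] [CommRing T] (π : R →+* T) (hπ : Function.Surjective π)
    (ε : R →+* ℤ) : ∃ m : ℕ, Nat.card (T ⧸ (RingHom.ker ε).map π) = m ∧
      (∀ x, π x = 0 → (m : ℤ) ∣ ε x) ∧ (∃ x, π x = 0 ∧ ε x = m) ∧
      ∃ ψ : T →+* ZMod m, ∀ x, ψ (π x) = ((ε x : ℤ) : ZMod m) := by
  have hε : Function.Surjective ε := fun n => ⟨(n : R), by simp⟩
  set K : Ideal ℤ := (RingHom.ker π).map ε with hK
  obtain ⟨g, hg⟩ := (IsPrincipalIdealRing.principal K).principal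
  have hmem : ∀ z : ℤ, z ∈ K ↔ (g.natAbs : ℤ) ∣ z := by
    intro z
    rw [hg]
    change z ∈ Ideal.span {g} ↔ _
    rw [Ideal.mem_span_singleton, Int.natAbs_dvd]
  have h1 : ∀ x, π x = 0 → ((g.natAbs : ℕ) : ℤ) ∣ ε x := fun x hx =>
    (hmem _).mp (Ideal.mem_map_of_mem ε (RingHom.mem_ker.mpr hx))
  have h2 : ∃ x, π x = 0 ∧ ε x = (g.natAbs : ℕ) := by
    have h3 : ((g.natAbs : ℕ) : ℤ) ∈ K := (hmem _).mpr dvd_rfl
    rw [hK, Ideal.mem_map_iff_of_surjective ε hε] at h3
    obtain ⟨x, hx, hx'⟩ := h3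
    exact ⟨x, RingHom.mem_ker.mp hx, hx'⟩
  set m := g.natAbs with hm
  let e : R →+* ZMod m := (Int.castRingHom (ZMod m)).comp ε
  have hker : RingHom.ker π ≤ RingHom.ker e := by
    intro x hx
    rw [RingHom.mem_ker]
    change ((ε x : ℤ) : ZMod m) = 0
    rw [ZMod.intCast_zmod_eq_zero_iff_dvd]
    exact h1 x (RingHom.mem_ker.mp hx)
  let ψ : T →+* ZMod m := RingHom.liftOfSurjective π hπ ⟨e, hker⟩
  have hψ : ∀ x, ψ (π x) = ((ε x : ℤ) : ZMod m) := by
    intro x
    have := RingHom.liftOfRightInverse_comp_apply π _ (Function.rightInverse_surjInv hπ) ⟨e, hker⟩ x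
    exact this
  have hψs : Function.Surjective ψ := by
    intro y
    obtain ⟨z, rfl⟩ := ZMod.intCast_surjective y
    obtain ⟨x, rfl⟩ := hε z
    exact ⟨π x, hψ x⟩
  have hkerψ : RingHom.ker ψ = (RingHom.ker ε).map π := by
    apply le_antisymm
    · intro t ht
      obtain ⟨x, rfl⟩ := hπ t
      rw [RingHom.mem_ker, hψ, ZMod.intCast_zmod_eq_zero_iff_dvd] at ht
      rw [← hmem, hK, Ideal.mem_map_iff_of_surjective ε hε] at ht
      obtain ⟨y, hy, hy'⟩ := ht
      have h5 : x - y ∈ RingHom.ker ε := by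
        rw [RingHom.mem_ker, map_sub, hy', sub_self]
      have h6 := Ideal.mem_map_of_mem π h5
      rwa [map_sub, RingHom.mem_ker.mp hy, sub_zero] at h6
    · rw [Ideal.map_le_iff_le_comap]
      intro x hx
      rw [Ideal.mem_comap, RingHom.mem_ker, hψ, RingHom.mem_ker.mp hx, Int.cast_zero]
  refine ⟨m, ?_, h1, h2, ψ, hψ⟩
  rw [← hkerψ, Nat.card_congr (RingHom.quotientKerEquivOfSurjective hψs).toEquiv, Nat.card_zmod]

variable {p : ℕ} [hp : Fact p.Prime]

lemma heckeEvalForms_surjective : Function.Surjective (heckeEvalForms p 2) := by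
  rintro ⟨t, ht⟩
  suffices h : ∃ P, ((heckeEvalForms p 2 P : heckeAlgebra p 2 ∅) :
      Module.End ℂ (CuspForm (Gamma0 p) 2)) = t by
    obtain ⟨P, hP⟩ := h
    exact ⟨P, Subtype.ext hP⟩
  induction ht using Algebra.adjoin_induction with
  | mem t ht =>
    rcases ht with ⟨ℓ, hℓ, hℓN, -, rfl⟩ | ⟨q, hqN, hq, -, rfl⟩
    · obtain ⟨q', hq'⟩ : ∃ q' : Nat.Primes, (q' : ℕ) = ℓ := ⟨⟨ℓ, hℓ⟩, rfl⟩
      subst hq'
      exact ⟨heckeGen q', by rw [heckeEvalForms_heckeGen_of_not_dvd hℓN, heckeAlgebra.coe_T]⟩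
    · obtain ⟨q', hq'⟩ : ∃ q' : Nat.Primes, (q' : ℕ) = q := ⟨⟨q, hq⟩, rfl⟩
      subst hq'
      exact ⟨heckeGen q', by rw [heckeEvalForms_heckeGen_of_dvd hqN, heckeAlgebra.coe_U]⟩
  | algebraMap r =>
    refine ⟨MvPolynomial.C r, ?_⟩
    rw [heckeEvalForms_C]; rfl
  | add x y _ _ hx hy =>
    obtain ⟨P, hP⟩ := hx
    obtain ⟨Q, hQ⟩ := hy
    exact ⟨P + Q, by rw [map_add, ← hP, ← hQ]; rfl⟩
  | mul x y _ _ hx hy =>
    obtain ⟨P, hP⟩ := hx
    obtain ⟨Q, hQ⟩ := hy
    exact ⟨P * Q, by rw [map_mul, ← hP, ← hQ]; rfl⟩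

/-- the congruence: a cusp form congruent to the Eisenstein series -/
theorem exists_congr_form {m : ℕ} (ψ : heckeLatticeAlgebra p ∅ →+* ZMod m)
    (hψ : ∀ P, ψ (latticeRestrictHom p ∅ (heckeEvalForms p 2 P)) = ((eps p P : ℤ) : ZMod m)) :
    ∃ f : CuspForm (Gamma0 p) 2, ∃ a : ℕ → ℤ, (∀ n, coeffL p 2 n f = a n) ∧
      ∀ n, 0 < n → (m : ℤ) ∣ sg' p n - a n := by
  obtain ⟨φ, hφ⟩ := Module.projective_lifting_property
    (Int.castAddHom (ZMod m)).toIntLinearMap ψ.toAddMonoidHom.toIntLinearMap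
    (ZMod.intCast_surjective)
  obtain ⟨f, hf⟩ := exists_form φ
  have hφ' : ∀ t, ((φ t : ℤ) : ZMod m) = ψ t := fun t => DFunLike.congr_fun hφ t
  choose P hP hε using fun (n : ℕ) (hn : 0 < n) => exists_Pn (p := p) n hn
  refine ⟨f, fun n => if hn : 0 < n then
    φ (latticeRestrictHom p ∅ (heckeEvalForms p 2 (P n hn))) else 0, fun n => ?_, fun n hn => ?_⟩
  · by_cases hn : 0 < n
    · simp only [dif_pos hn]
      rw [← hP n hn f, act, hf]
    · obtain rfl : n = 0 := by omega
      simp [coeffL_zero]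
  · simp only [dif_pos hn]
    rw [← ZMod.intCast_zmod_eq_zero_iff_dvd, Int.cast_sub, hφ', hψ, hε, sub_self]

omit hp in
lemma esc_zero : esc p 0 = ((p : ℂ) - 1) / 24 := by simp [esc]

omit hp in
lemma esc_pos {n : ℕ} (hn : 0 < n) : esc p n = ((sg' p n : ℤ) : ℂ) := by
  rw [esc, if_neg hn.ne', sg']
  split_ifs <;> push_cast <;> ring

/-- the cusp form as a vector valued form -/
lemma exists_vm (f : CuspForm (Gamma0 p) 2) :
    ∃ F : Cos p → ℍ → ℂ, F ∈ VM (Cos p) 2 ∧ ∀ n, ai n F = coeffL p 2 n f := by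
  refine ⟨_, (ofInv_mem_VS f).1, fun n => ?_⟩
  rw [ai, ofInv_xinf]
  rfl

theorem upper (hp7 : 7 ≤ p) {m : ℕ} (ψ : heckeLatticeAlgebra p ∅ →+* ZMod m)
    (hψ : ∀ P, ψ (latticeRestrictHom p ∅ (heckeEvalForms p 2 P)) = ((eps p P : ℤ) : ZMod m))
    (hdvd : eisensteinNumerator p ∣ m) : m = eisensteinNumerator p := by
  obtain ⟨m', rfl⟩ := hdvd
  by_contra hne
  have hm' : m' ≠ 1 := by
    rintro rfl
    exact hne (mul_one _)
  obtain ⟨ℓ, hℓ, m'', hm''⟩ := Nat.exists_prime_and_dvd hm'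
  obtain ⟨f, a, ha, hcong⟩ := exists_congr_form ψ hψ
  obtain ⟨F₀, hF₀, haF₀⟩ := exists_vm f
  have hg : ∀ n, ∃ g : ℤ, 0 < n → sg' p n - a n =
      ((eisensteinNumerator p * m' : ℕ) : ℤ) * g := by
    intro n
    by_cases hn : 0 < n
    · obtain ⟨g, hg⟩ := hcong n hn
      exact ⟨g, fun _ => hg⟩
    · exact ⟨0, fun h => absurd h hn⟩
  choose g hg using hg
  set r := Nat.gcd (p - 1) 12 with hr
  have hr24 : r ∣ 24 := (Nat.gcd_dvd_right (p - 1) 12).trans (by norm_num)
  obtain ⟨s, hs⟩ := hr24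
  have hrp : r ∣ p - 1 := Nat.gcd_dvd_left _ _
  have hnr : eisensteinNumerator p * r = p - 1 := Nat.div_mul_cancel hrp
  have hr0 : r ≠ 0 := by
    intro h0
    rw [h0] at hs
    omega
  have hp1 : ((p : ℂ) - 1) ≠ 0 := by
    have h7 : (7 : ℝ) ≤ (p : ℝ) := by exact_mod_cast hp7
    have : ((p : ℝ) - 1) ≠ 0 := by linarith
    exact_mod_cast this
  have hpc : ((p : ℂ) - 1) = (eisensteinNumerator p : ℂ) * r := by
    have h8 : ((p - 1 : ℕ) : ℂ) = (p : ℂ) - 1 := by
      rw [Nat.cast_sub hp.out.one_lt.le, Nat.cast_one]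
    rw [← h8, ← hnr, Nat.cast_mul]
  set F : Cos p → ℍ → ℂ := (24 / ((p : ℂ) - 1)) • (ES p - F₀) with hF
  have hFmem : F ∈ VM (Cos p) 2 := Submodule.smul_mem _ _ (Submodule.sub_mem _ ES_mem hF₀)
  have hsub : ES p - F₀ ∈ VM (Cos p) 2 := Submodule.sub_mem _ ES_mem hF₀
  have hai : ∀ n, ai n F = (24 / ((p : ℂ) - 1)) * (esc p n - a n) := by
    intro n
    have h1 : F (xinf p) = (24 / ((p : ℂ) - 1)) • ((ES p - F₀) (xinf p)) := rfl
    have h2 : (ES p - F₀) (xinf p) = ES p (xinf p) - F₀ (xinf p) := rfl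
    rw [ai, h1, qExpansion_smul ((VM.per_xinf hsub).analyticAt one_pos), h2,
      qExpansion_sub ((VM.per_xinf ES_mem).analyticAt one_pos)
        ((VM.per_xinf hF₀).analyticAt one_pos), PowerSeries.coeff_smul, map_sub, smul_eq_mul]
    change _ * (ai n (ES p) - ai n F₀) = _
    rw [ai_ES, haF₀, ha]
  refine no_form hp7 hFmem hℓ (c := s * ℓ) ?_
    (G := PowerSeries.mk fun n => if n = 0 then 0 else (m'' : ℤ) * g n) ?_ ?_
  · rw [← hr]
    rw [hs]; ring
  · simp
  · ext n
    change ai n F = _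
    rw [hai, coeff_toC, map_add, PowerSeries.coeff_C_mul, PowerSeries.coeff_mk,
      PowerSeries.coeff_one]
    by_cases hn : n = 0
    · subst hn
      have ha0 : (a 0 : ℂ) = 0 := by rw [← ha, coeffL_zero]
      rw [esc_zero, ha0, if_pos rfl, if_pos rfl]
      push_cast
      field_simp
      ring
    · have hn' : 0 < n := Nat.pos_of_ne_zero hn
      rw [esc_pos hn', if_neg hn, if_neg hn]
      have h1 : ((sg' p n : ℤ) : ℂ) - a n = ((eisensteinNumerator p : ℂ) * (ℓ * m'')) * g n := by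
        have := hg n hn'
        have h2 := congrArg (Int.cast : ℤ → ℂ) this
        rw [hm''] at h2
        push_cast at h2
        exact h2
      have hs' : (24 : ℂ) = r * s := by exact_mod_cast hs
      have hr0' : (r : ℂ) ≠ 0 := by exact_mod_cast hr0
      have hn0 : (eisensteinNumerator p : ℂ) ≠ 0 := by
        intro h0
        rw [h0, zero_mul] at hpc
        exact hp1 hpc
      rw [h1, hpc, hs']
      push_cast
      field_simp
      ring

lemma psi_prime {q : ℕ} (hq : q.Prime) : dedekindPsi q = q + 1 := by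
  rw [dedekindPsi, Finset.sum_filter, hq.divisors, Finset.sum_pair hq.one_lt.ne]
  simp [hq.prime.squarefree, Nat.div_self hq.pos]

omit hp in
lemma genusFormula_two (h : p = 2) : genusFormula p = 0 := by
  subst h
  have h1 : nuTwo 2 = 1 := by
    rw [nuTwo, Nat.card_eq_fintype_card]; decide
  have h2 : nuThree 2 = 0 := by
    rw [nuThree, Nat.card_eq_fintype_card]; decide
  have h3 : cuspCount 2 = 2 := by decide
  have h4 : dedekindPsi 2 = 3 := psi_prime Nat.prime_two
  rw [genusFormula, h1, h2, h3, h4]; norm_num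

omit hp in
lemma genusFormula_three (h : p = 3) : genusFormula p = 0 := by
  subst h
  have h1 : nuTwo 3 = 0 := by
    rw [nuTwo, Nat.card_eq_fintype_card]; decide
  have h2 : nuThree 3 = 1 := by
    rw [nuThree, Nat.card_eq_fintype_card]; decide
  have h3 : cuspCount 3 = 2 := by decide
  have h4 : dedekindPsi 3 = 4 := psi_prime Nat.prime_three
  rw [genusFormula, h1, h2, h3, h4]; norm_num

omit hp in
lemma genusFormula_five (h : p = 5) : genusFormula p = 0 := by
  subst h
  have h1 : nuTwo 5 = 2 := by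
    rw [nuTwo, Nat.card_eq_fintype_card]; decide
  have h2 : nuThree 5 = 0 := by
    rw [nuThree, Nat.card_eq_fintype_card]; decide
  have h3 : cuspCount 5 = 2 := by decide
  have h4 : dedekindPsi 5 = 6 := psi_prime Nat.prime_five
  rw [genusFormula, h1, h2, h3, h4]; norm_num

/-- for `p ≤ 5` there are no cusp forms -/
lemma eq_zero_of_le (hp5 : p ≤ 5) (f : CuspForm (Gamma0 p) 2) : f = 0 := by
  have h1 := S20.result p
  have h2 : finrank ℂ (CuspForm (Gamma0 p) 2) = 0 := by
    have h3 : genusFormula p = 0 := by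
      have hpp := hp.out
      have : p = 2 ∨ p = 3 ∨ p = 5 := by
        have h2 := hpp.two_le
        interval_cases p
        · exact Or.inl rfl
        · exact Or.inr (Or.inl rfl)
        · norm_num at hpp
        · exact Or.inr (Or.inr rfl)
      rcases this with h | h | h
      · exact genusFormula_two h
      · exact genusFormula_three h
      · exact genusFormula_five h
    rw [h3] at h1
    exact_mod_cast h1
  have : Module.Finite ℂ (CuspForm (Gamma0 p) 2) := inferInstance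
  have h3 := Module.finrank_zero_iff.mp h2
  exact Subsingleton.elim _ _

variable (p) in
/-- **The index of the Eisenstein ideal.** -/
theorem natCard_quot : Nat.card (↥(heckeLatticeAlgebra p ∅) ⧸
        Ideal.map ((latticeRestrictHom p ∅).toRingHom.comp (heckeEvalForms p 2))
          (eisensteinIdeal p)) = eisensteinNumerator p := by
  set π : HeckeAlg →+* heckeLatticeAlgebra p ∅ :=
    (latticeRestrictHom p ∅).toRingHom.comp (heckeEvalForms p 2) with hπ
  have hπs : Function.Surjective π :=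
    (latticeRestrictHom_surjective p ∅).comp heckeEvalForms_surjective
  obtain ⟨m, h1, h2, ⟨x, hx, hxm⟩, ψ, hψ⟩ := quot_card π hπs (eps p)
  have hI : eisensteinIdeal p = RingHom.ker (eps p) := rfl
  rw [hI, h1]
  have hdvd : eisensteinNumerator p ∣ m := by
    have h3 : heckeEvalForms p 2 x = 0 := by
      apply (latticeRestrictHom_bijective p ∅ (S23.result p)).1
      rw [map_zero]
      exact hx
    have h4 := dvd_eps x h3
    rw [hxm] at h4
    exact_mod_cast h4
  rcases Nat.lt_or_ge p 7 with h7 | h7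
  · have h5 : p ≤ 5 := by
      by_contra h
      have : p = 6 := by omega
      have := hp.out
      rw [‹p = 6›] at this
      norm_num at this
    have h6 : π 1 = 0 := by
      apply Subtype.ext
      ext1 f
      apply Subtype.ext
      change _ = (0 : CuspForm (Gamma0 p) 2)
      exact eq_zero_of_le h5 _
    have h7 := h2 1 h6
    rw [map_one] at h7
    have h8 : m = 1 := by
      have := Int.eq_one_of_dvd_one (by positivity) h7
      exact_mod_cast this
    rw [h8] at hdvd ⊢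
    exact (Nat.dvd_one.mp hdvd).symm
  · exact upper h7 ψ hψ hdvd

end Fermat.Agent.EisIdeal
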